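import Mathlib
import Fermat.Prelude.Def_GaloisRep_DeformationRingData
import Fermat.Prelude.Def_GaloisRep_DeformationCondition

/-!
# S53, step 7 (a)(b)(c): truncations of a complete noetherian local algebra (helper50)

For a complete noetherian local `𝒪`-algebra `A` with finite residue field:
* `A ⧸ 𝔪 ^ (n+1)` is a finite local ring and an Artinian test algebra;
* compatible families of `𝒪`-algebra maps `R → A ⧸ 𝔪 ^ n` glue uniquely to `R → A`;
* compatible families of matrices over `A ⧸ 𝔪 ^ n` glue uniquely to a matrix over `A`.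
-/

set_option autoImplicit false

namespace Fermat.Agent.S53.H50

open IsLocalRing

section Quotients

variable (A : Type) [CommRing A] [IsLocalRing A]

/-- The truncation `A ⧸ 𝔪 ^ (n+1)` is nontrivial. -/
instance nontrivial_quot (n : ℕ) : Nontrivial (A ⧸ maximalIdeal A ^ (n + 1)) :=
  Ideal.Quotient.nontrivial_iff.mpr fun h =>
    (maximalIdeal.isMaximal A).ne_top (top_le_iff.mp (h ▸ Ideal.pow_le_self (Nat.succ_ne_zero n)))

/-- The truncation `A ⧸ 𝔪 ^ (n+1)` is local. -/
instance isLocalRing_quot (n : ℕ) : IsLocalRing (A ⧸ maximalIdeal A ^ (n + 1)) :=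
  IsLocalRing.of_surjective' (Ideal.Quotient.mk _) Ideal.Quotient.mk_surjective

/-- The projection `A → A ⧸ 𝔪 ^ (n+1)` is a local homomorphism. -/
instance isLocalHom_mk (n : ℕ) : IsLocalHom (Ideal.Quotient.mk (maximalIdeal A ^ (n + 1))) := by
  refine ⟨fun a ha => ?_⟩
  by_contra hna
  have hmem : a ∈ maximalIdeal A := (IsLocalRing.mem_maximalIdeal a).mpr hna
  have hnil : (Ideal.Quotient.mk (maximalIdeal A ^ (n + 1)) a) ^ (n + 1) = 0 := by
    rw [← map_pow, Ideal.Quotient.eq_zero_iff_mem]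
    exact Ideal.pow_mem_pow hmem _
  exact (ha.pow (n + 1)).ne_zero hnil

theorem maximalIdeal_quot (n : ℕ) :
    maximalIdeal (A ⧸ maximalIdeal A ^ (n + 1)) =
      (maximalIdeal A).map (Ideal.Quotient.mk (maximalIdeal A ^ (n + 1))) := by
  apply le_antisymm
  · intro x hx
    obtain ⟨a, rfl⟩ := Ideal.Quotient.mk_surjective x
    refine Ideal.mem_map_of_mem _ ?_
    rw [IsLocalRing.mem_maximalIdeal] at hx ⊢
    exact fun ha => hx (ha.map _)
  · rw [Ideal.map_le_iff_le_comap]
    intro a ha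
    rw [Ideal.mem_comap, IsLocalRing.mem_maximalIdeal]
    rw [IsLocalRing.mem_maximalIdeal] at ha
    exact fun h => ha (isUnit_of_map_unit (Ideal.Quotient.mk (maximalIdeal A ^ (n + 1))) a h)

theorem maximalIdeal_quot_pow (n : ℕ) :
    maximalIdeal (A ⧸ maximalIdeal A ^ (n + 1)) ^ (n + 1) = ⊥ := by
  rw [maximalIdeal_quot, ← Ideal.map_pow, Ideal.map_quotient_self]

theorem finite_quot [IsNoetherianRing A] [Finite (ResidueField A)] (n : ℕ) :
    Finite (A ⧸ maximalIdeal A ^ n) := by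
  have : Finite (A ⧸ maximalIdeal A) := ‹Finite (ResidueField A)›
  exact Ideal.finite_quotient_pow (IsNoetherian.noetherian (maximalIdeal A)) n

theorem isArtinianRing_quot [IsNoetherianRing A] (n : ℕ) :
    IsArtinianRing (A ⧸ maximalIdeal A ^ (n + 1)) := by
  have h : IsNilpotent (maximalIdeal (A ⧸ maximalIdeal A ^ (n + 1))) :=
    ⟨n + 1, by rw [maximalIdeal_quot_pow]; rfl⟩
  exact (isArtinianRing_iff_isNilpotent_maximalIdeal _).mpr h

end Quotients

section TestAlgebra

variable (𝒪 : Type) [CommRing 𝒪] [IsLocalRing 𝒪]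
variable (A : Type) [CommRing A] [IsLocalRing A] [Algebra 𝒪 A]

theorem finite_residueField_of_surjective [Finite (ResidueField 𝒪)]
    [IsLocalHom (algebraMap 𝒪 A)]
    (hres : Function.Surjective (IsLocalRing.residue A ∘ algebraMap 𝒪 A)) :
    Finite (ResidueField A) := by
  have hsurj : Function.Surjective (ResidueField.map (algebraMap 𝒪 A)) := by
    intro x
    obtain ⟨a, rfl⟩ := hres x
    exact ⟨IsLocalRing.residue 𝒪 a, rfl⟩
  exact Finite.of_surjective _ hsurj

omit [IsLocalRing 𝒪] in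
theorem isLocalHom_algebraMap_quot [IsLocalHom (algebraMap 𝒪 A)] (n : ℕ) :
    IsLocalHom (algebraMap 𝒪 (A ⧸ maximalIdeal A ^ (n + 1))) := by
  refine ⟨fun a ha => ?_⟩
  have h1 : IsUnit (algebraMap 𝒪 A a) :=
    isUnit_of_map_unit (Ideal.Quotient.mk (maximalIdeal A ^ (n + 1))) _ ha
  exact isUnit_of_map_unit (algebraMap 𝒪 A) a h1

omit [IsLocalRing 𝒪] in
theorem residue_surjective_quot
    (hres : Function.Surjective (IsLocalRing.residue A ∘ algebraMap 𝒪 A)) (n : ℕ) :
    Function.Surjective (IsLocalRing.residue (A ⧸ maximalIdeal A ^ (n + 1)) ∘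
      algebraMap 𝒪 (A ⧸ maximalIdeal A ^ (n + 1))) := by
  intro x
  obtain ⟨y, rfl⟩ := IsLocalRing.residue_surjective x
  obtain ⟨a, rfl⟩ := Ideal.Quotient.mk_surjective y
  obtain ⟨c, hc⟩ := hres (IsLocalRing.residue A a)
  refine ⟨c, ?_⟩
  simp only [Function.comp_apply] at hc ⊢
  rw [← sub_eq_zero, ← map_sub, IsLocalRing.residue_eq_zero_iff] at hc ⊢
  have : algebraMap 𝒪 (A ⧸ maximalIdeal A ^ (n + 1)) c - Ideal.Quotient.mk _ a =
      Ideal.Quotient.mk (maximalIdeal A ^ (n + 1)) (algebraMap 𝒪 A c - a) := by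
    rw [map_sub]; rfl
  rw [this, maximalIdeal_quot]
  exact Ideal.mem_map_of_mem _ hc

omit [IsLocalRing 𝒪] in
theorem isArtinianTestAlgebra_quot [IsNoetherianRing A] [IsLocalHom (algebraMap 𝒪 A)]
    (hres : Function.Surjective (IsLocalRing.residue A ∘ algebraMap 𝒪 A)) (n : ℕ) :
    GaloisRep.IsArtinianTestAlgebra 𝒪 (A ⧸ maximalIdeal A ^ (n + 1)) where
  isLocalHom := isLocalHom_algebraMap_quot 𝒪 A n
  residue_surjective := residue_surjective_quot 𝒪 A hres n
  isArtinian := isArtinianRing_quot A n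

end TestAlgebra

section Glue

variable {A : Type} [CommRing A] (I : Ideal A)

/-- Separation: two elements which agree modulo every `I ^ (n+1)` are equal. -/
theorem eq_of_forall_mk_eq [IsHausdorff I A] {x y : A}
    (h : ∀ n : ℕ, Ideal.Quotient.mk (I ^ (n + 1)) x = Ideal.Quotient.mk (I ^ (n + 1)) y) :
    x = y := by
  rw [← sub_eq_zero]
  apply IsHausdorff.haus (I := I) ‹_›
  intro n
  rw [SModEq.zero, smul_eq_mul, Ideal.mul_top]
  have := h n
  rw [Ideal.Quotient.eq] at this
  exact Ideal.pow_le_pow_right (Nat.le_succ n) this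

/-- Gluing elements: a compatible family of elements of `A ⧸ I ^ (n+1)` comes from a unique
element of `A`. -/
theorem exists_glue_elt [IsPrecomplete I A] (x : ∀ n : ℕ, A ⧸ I ^ (n + 1))
    (hx : ∀ n, Ideal.Quotient.factor (Ideal.pow_le_pow_right (Nat.le_succ (n + 1))) (x (n + 1)) =
      x n) :
    ∃ a : A, ∀ n, Ideal.Quotient.mk (I ^ (n + 1)) a = x n := by
  choose y hy using fun n => Ideal.Quotient.mk_surjective (x n)
  -- compatibility of lifts
  have hstep : ∀ n, y (n + 1) - y n ∈ I ^ (n + 1) := by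
    intro n
    rw [← Ideal.Quotient.eq, hy n, ← hx n, ← hy (n + 1), Ideal.Quotient.factor_mk]
  have hle : ∀ m n, m ≤ n → y n - y m ∈ I ^ (m + 1) := by
    intro m n hmn
    induction n, hmn using Nat.le_induction with
    | base => simp
    | succ n hmn ih =>
      have h1 : y (n + 1) - y n ∈ I ^ (m + 1) :=
        Ideal.pow_le_pow_right (Nat.succ_le_succ hmn) (hstep n)
      have : y (n + 1) - y m = (y (n + 1) - y n) + (y n - y m) := by ring
      rw [this]
      exact Ideal.add_mem _ h1 ih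
  obtain ⟨L, hL⟩ := IsPrecomplete.prec (I := I) ‹_› (f := fun n => y n) (by
    intro m n hmn
    rw [SModEq.sub_mem, smul_eq_mul, Ideal.mul_top]
    have := hle m n hmn
    have h2 : y m - y n = -(y n - y m) := by ring
    rw [h2]
    exact Ideal.neg_mem_iff _ |>.mpr (Ideal.pow_le_pow_right (Nat.le_succ m) this))
  refine ⟨L, fun n => ?_⟩
  rw [← hy n, Ideal.Quotient.eq]
  have h1 := hL (n + 1)
  rw [SModEq.sub_mem, smul_eq_mul, Ideal.mul_top] at h1
  have h2 : L - y n = -(y (n + 1) - L) + (y (n + 1) - y n) := by ring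
  rw [h2]
  exact Ideal.add_mem _ (Ideal.neg_mem_iff _ |>.mpr h1) (hstep n)

/-- Gluing matrices. -/
theorem exists_glue_matrix {ι : Type} [IsPrecomplete I A]
    (g : ∀ n : ℕ, Matrix ι ι (A ⧸ I ^ (n + 1)))
    (hg : ∀ n, (g (n + 1)).map
      (Ideal.Quotient.factor (Ideal.pow_le_pow_right (Nat.le_succ (n + 1)))) = g n) :
    ∃ G : Matrix ι ι A, ∀ n, G.map (Ideal.Quotient.mk (I ^ (n + 1))) = g n := by
  have key : ∀ i j, ∃ a : A, ∀ n, Ideal.Quotient.mk (I ^ (n + 1)) a = g n i j := fun i j =>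
    exists_glue_elt I (fun n => g n i j) fun n => by
      have := congrFun (congrFun (hg n) i) j
      simpa using this
  choose G hG using key
  exact ⟨Matrix.of G, fun n => by ext i j; exact hG i j n⟩

/-- Separation for matrices. -/
theorem matrix_eq_of_forall_map_eq {ι : Type} [IsHausdorff I A] {G G' : Matrix ι ι A}
    (h : ∀ n : ℕ, G.map (Ideal.Quotient.mk (I ^ (n + 1))) =
      G'.map (Ideal.Quotient.mk (I ^ (n + 1)))) : G = G' := by
  ext i j
  exact eq_of_forall_mk_eq I fun n => congrFun (congrFun (h n) i) j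

variable {𝒪 R : Type} [CommRing 𝒪] [CommRing R] [Algebra 𝒪 R] [Algebra 𝒪 A]

/-- Gluing algebra homomorphisms: a compatible family of `𝒪`-algebra maps
`R → A ⧸ I ^ (n+1)` comes from a unique `𝒪`-algebra map `R → A`. -/
theorem exists_unique_glue_algHom [IsAdicComplete I A] (f : ∀ n : ℕ, R →ₐ[𝒪] A ⧸ I ^ (n + 1))
    (hf : ∀ n, (Ideal.Quotient.factorₐ 𝒪 (Ideal.pow_le_pow_right (Nat.le_succ (n + 1)))).comp
      (f (n + 1)) = f n) :
    ∃! φ : R →ₐ[𝒪] A, ∀ n, (Ideal.Quotient.mkₐ 𝒪 (I ^ (n + 1))).comp φ = f n := by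
  -- the family indexed by all `n`
  let f' : ∀ n : ℕ, R →ₐ[𝒪] A ⧸ I ^ n := fun n =>
    (Ideal.Quotient.factorₐ 𝒪 (Ideal.pow_le_pow_right (Nat.le_succ n))).comp (f n)
  have hf1 : ∀ n x, Ideal.Quotient.factor (Ideal.pow_le_pow_right (Nat.le_succ (n + 1)))
      (f (n + 1) x) = f n x := fun n x => congrArg (fun ψ => ψ x) (hf n)
  have hle : ∀ m n (hmn : m ≤ n) (x : R),
      Ideal.Quotient.factor (Ideal.pow_le_pow_right (Nat.succ_le_succ hmn)) (f n x) = f m x := by
    intro m n hmn x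
    induction n, hmn using Nat.le_induction with
    | base => simp
    | succ n hmn ih =>
      rw [← ih, ← hf1 n x, Ideal.Quotient.factor_comp_apply]
  have hf' : ∀ {m n : ℕ} (hle : m ≤ n),
      (Ideal.Quotient.factorₐ 𝒪 (Ideal.pow_le_pow_right hle)).comp (f' n) = f' m := by
    intro m n hmn
    ext x
    show Ideal.Quotient.factor (Ideal.pow_le_pow_right hmn)
        (Ideal.Quotient.factor (Ideal.pow_le_pow_right (Nat.le_succ n)) (f n x)) =
      Ideal.Quotient.factor (Ideal.pow_le_pow_right (Nat.le_succ m)) (f m x)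
    rw [← hle m n hmn x, Ideal.Quotient.factor_comp_apply, Ideal.Quotient.factor_comp_apply]
  have hmk : ∀ n, (Ideal.Quotient.mkₐ 𝒪 (I ^ (n + 1))).comp
      (IsAdicComplete.liftAlgHom I f' hf') = f n := by
    intro n
    rw [IsAdicComplete.mkₐ_comp_liftAlgHom]
    ext x
    exact hf1 n x
  refine ⟨IsAdicComplete.liftAlgHom I f' hf', hmk, fun ψ hψ => ?_⟩
  apply IsAdicComplete.algHom_ext I
  intro n
  ext x
  have h1 := congrArg (fun θ => θ x) (hψ n)
  have h2 := congrArg (fun θ => θ x) (hmk n)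
  simp only [AlgHom.comp_apply, Ideal.Quotient.mkₐ_eq_mk] at h1 h2 ⊢
  have e1 : Ideal.Quotient.mk (I ^ n) (ψ x) =
      Ideal.Quotient.factor (Ideal.pow_le_pow_right (Nat.le_succ n))
        (Ideal.Quotient.mk (I ^ (n + 1)) (ψ x)) := by rw [Ideal.Quotient.factor_mk]
  have e2 : Ideal.Quotient.mk (I ^ n) (IsAdicComplete.liftAlgHom I f' hf' x) =
      Ideal.Quotient.factor (Ideal.pow_le_pow_right (Nat.le_succ n))
        (Ideal.Quotient.mk (I ^ (n + 1)) (IsAdicComplete.liftAlgHom I f' hf' x)) := by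
    rw [Ideal.Quotient.factor_mk]
  rw [e1, e2, h1, h2]

end Glue

end Fermat.Agent.S53.H50
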