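import Mathlib
import Fermat.Prelude.Thm_IsLocalRing_isAdicComplete_of_module_finite

set_option autoImplicit false

open IsLocalRing

namespace Fermat.Agent.S53.Limit

section OneVar

open PowerSeries

variable {A : Type*} [CommRing A] (I : Ideal A)

/-- The ideal `(I, X)` of `A⟦X⟧`. -/
noncomputable def idealJ : Ideal A⟦X⟧ := I.map (C : A →+* A⟦X⟧) ⊔ Ideal.span {X}

/-- The ideal of power series whose `i`-th coefficient lies in `I ^ (l - i)`. -/
noncomputable def idealF (l : ℕ) : Ideal A⟦X⟧ where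
  carrier := {f | ∀ i, coeff i f ∈ I ^ (l - i)}
  add_mem' := fun {f g} hf hg i => by
    rw [map_add]; exact Ideal.add_mem _ (hf i) (hg i)
  zero_mem' := fun i => by rw [map_zero]; exact Ideal.zero_mem _
  smul_mem' := fun c f hf i => by
    rw [smul_eq_mul, coeff_mul]
    refine Ideal.sum_mem _ fun p hp => ?_
    have hle : p.2 ≤ i := by
      have := Finset.HasAntidiagonal.mem_antidiagonal.mp hp; omega
    exact Ideal.mul_mem_left _ _ (Ideal.pow_le_pow_right (by omega) (hf p.2))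

theorem mem_idealF {l : ℕ} {f : A⟦X⟧} : f ∈ idealF I l ↔ ∀ i, coeff i f ∈ I ^ (l - i) := Iff.rfl

theorem idealJ_le_comap : idealJ I ≤ Ideal.comap (constantCoeff : A⟦X⟧ →+* A) I := by
  unfold idealJ
  refine sup_le ?_ ?_
  · rw [Ideal.map_le_iff_le_comap]
    intro a ha
    simpa using ha
  · rw [Ideal.span_le]
    intro x hx
    rw [Set.mem_singleton_iff] at hx
    subst hx
    simp

theorem idealF_mul_le (l : ℕ) : idealF I l * idealJ I ≤ idealF I (l + 1) := by
  rw [Ideal.mul_le]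
  intro f hf g hg i
  have hg0 : coeff 0 g ∈ I := by
    have := idealJ_le_comap I hg
    rwa [Ideal.mem_comap, ← coeff_zero_eq_constantCoeff_apply] at this
  rw [coeff_mul]
  refine Ideal.sum_mem _ fun p hp => ?_
  have hpi : p.1 + p.2 = i := Finset.HasAntidiagonal.mem_antidiagonal.mp hp
  by_cases h2 : p.2 = 0
  · rw [h2]
    have h1 : p.1 = i := by omega
    rw [h1]
    by_cases hli : i ≤ l
    · have : l + 1 - i = (l - i) + 1 := by omega
      rw [this, pow_succ]
      exact Ideal.mul_mem_mul (hf i) hg0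
    · have : l + 1 - i = 0 := by omega
      rw [this, pow_zero, Ideal.one_eq_top]; exact Submodule.mem_top (R := A)
  · exact Ideal.mul_mem_right _ _ (Ideal.pow_le_pow_right (by omega) (hf p.1))

theorem pow_idealJ_le (l : ℕ) : idealJ I ^ l ≤ idealF I l := by
  induction l with
  | zero =>
    intro f _ i
    simp
  | succ l ih =>
    rw [pow_succ]
    exact (Ideal.mul_mono_left ih).trans (idealF_mul_le I l)

theorem idealF_le_pow (l : ℕ) : idealF I l ≤ idealJ I ^ l := by
  induction l with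
  | zero => simp
  | succ l ih =>
    intro f hf
    rw [f.eq_X_mul_shift_add_const]
    refine Ideal.add_mem _ ?_ ?_
    · rw [pow_succ']
      refine Ideal.mul_mem_mul ?_ (ih ?_)
      · exact Ideal.mem_sup_right (Ideal.subset_span rfl)
      · intro i
        rw [coeff_mk]
        have := hf (i + 1)
        rwa [show l + 1 - (i + 1) = l - i by omega] at this
    · have h0 : constantCoeff f ∈ I ^ (l + 1) := by
        have := hf 0
        rwa [coeff_zero_eq_constantCoeff_apply] at this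
      have : C (constantCoeff f) ∈ (I ^ (l + 1)).map (C : A →+* A⟦X⟧) := Ideal.mem_map_of_mem _ h0
      rw [Ideal.map_pow] at this
      exact Ideal.pow_right_mono le_sup_left _ this

theorem pow_idealJ_eq (l : ℕ) : idealJ I ^ l = idealF I l :=
  le_antisymm (pow_idealJ_le I l) (idealF_le_pow I l)

theorem isPrecomplete_idealJ [IsPrecomplete I A] : IsPrecomplete (idealJ I) A⟦X⟧ := by
  refine ⟨fun {f} hf => ?_⟩
  have hf' : ∀ {m n : ℕ}, m ≤ n → f m - f n ∈ idealF I m := by
    intro m n hmn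
    have := hf hmn
    rw [SModEq.sub_mem, smul_eq_mul, Ideal.mul_top, pow_idealJ_eq] at this
    exact this
  have key : ∀ i : ℕ, ∃ L : A, ∀ l : ℕ, coeff i (f (l + i)) ≡ L [SMOD (I ^ l • ⊤ : Submodule A A)] := by
    intro i
    refine IsPrecomplete.prec (I := I) (M := A) inferInstance (f := fun l => coeff i (f (l + i))) ?_
    intro m n hmn
    rw [SModEq.sub_mem, smul_eq_mul, Ideal.mul_top, ← map_sub]
    have := hf' (show m + i ≤ n + i by omega) i
    rwa [show m + i - i = m by omega] at this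
  choose L hL using key
  refine ⟨mk L, fun l => ?_⟩
  rw [SModEq.sub_mem, smul_eq_mul, Ideal.mul_top, pow_idealJ_eq]
  intro i
  rw [map_sub, coeff_mk]
  by_cases hil : i ≤ l
  · obtain ⟨l0, rfl⟩ : ∃ l0, l = l0 + i := ⟨l - i, by omega⟩
    have := hL i l0
    rw [SModEq.sub_mem, smul_eq_mul, Ideal.mul_top] at this
    rwa [show l0 + i - i = l0 by omega]
  · rw [show l - i = 0 by omega, pow_zero, Ideal.one_eq_top]; exact Submodule.mem_top (R := A)

theorem maximalIdeal_powerSeries [IsLocalRing A] :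
    maximalIdeal A⟦X⟧ = idealJ (maximalIdeal A) := by
  apply le_antisymm
  · intro f hf
    rw [mem_maximalIdeal, mem_nonunits_iff, isUnit_iff_constantCoeff] at hf
    rw [f.eq_X_mul_shift_add_const]
    refine Ideal.add_mem _ ?_ ?_
    · exact Ideal.mul_mem_right _ _ (Ideal.mem_sup_right (Ideal.subset_span rfl))
    · exact Ideal.mem_sup_left (Ideal.mem_map_of_mem _ hf)
  · intro f hf
    have := idealJ_le_comap _ hf
    rw [Ideal.mem_comap] at this
    rw [mem_maximalIdeal, mem_nonunits_iff, isUnit_iff_constantCoeff]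
    exact this

end OneVar

section MvComplete

theorem isAdicComplete_powerSeries (A : Type*) [CommRing A] [IsLocalRing A] [IsNoetherianRing A]
    [IsAdicComplete (maximalIdeal A) A] :
    IsAdicComplete (maximalIdeal (PowerSeries A)) (PowerSeries A) := by
  have : IsPrecomplete (maximalIdeal (PowerSeries A)) (PowerSeries A) := by
    rw [maximalIdeal_powerSeries]; exact isPrecomplete_idealJ _
  exact ⟨⟩

theorem map_maximalIdeal_ringEquiv {R S : Type*} [CommRing R] [CommRing S] [IsLocalRing R]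
    [IsLocalRing S] (e : R ≃+* S) : (maximalIdeal R).map e = maximalIdeal S := by
  ext x
  rw [Ideal.mem_map_iff_of_surjective e e.surjective]
  constructor
  · rintro ⟨y, hy, rfl⟩
    rw [mem_maximalIdeal, mem_nonunits_iff] at hy ⊢
    intro h
    apply hy
    have := h.map (e.symm : S →+* R)
    simpa using this
  · intro hx
    refine ⟨e.symm x, ?_, by simp⟩
    rw [mem_maximalIdeal, mem_nonunits_iff] at hx ⊢
    intro h
    apply hx
    have := h.map (e : R →+* S)
    simpa using this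

theorem isAdicComplete_of_ringEquiv {R S : Type*} [CommRing R] [CommRing S] [IsLocalRing R]
    [IsLocalRing S] (e : R ≃+* S) [h : IsAdicComplete (maximalIdeal R) R] :
    IsAdicComplete (maximalIdeal S) S := by
  rw [← map_maximalIdeal_ringEquiv e]
  exact (IsAdicComplete.congr_ringEquiv (maximalIdeal R) e).mpr h

theorem isAdicComplete_mvPowerSeries_fin (𝒪 : Type*) [CommRing 𝒪] [IsLocalRing 𝒪]
    [IsNoetherianRing 𝒪] [IsAdicComplete (maximalIdeal 𝒪) 𝒪] (N : ℕ) :
    IsAdicComplete (maximalIdeal (MvPowerSeries (Fin N) 𝒪)) (MvPowerSeries (Fin N) 𝒪) := by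
  induction N with
  | zero => exact isAdicComplete_of_ringEquiv (MvPowerSeries.isEmptyEquiv (Fin 0) 𝒪).symm.toRingEquiv
  | succ N ih =>
    have := ih
    have := isAdicComplete_powerSeries (MvPowerSeries (Fin N) 𝒪)
    exact isAdicComplete_of_ringEquiv (MvPowerSeries.finSuccEquiv 𝒪 N).symm.toRingEquiv

end MvComplete

section Eval

variable {𝒪 : Type*} [CommRing 𝒪] {σ : Type*} [Finite σ] {B : Type*} [CommRing B] [Algebra 𝒪 B]

/-- Evaluation of a power series at a family `x` all of whose monomials of degree `≥ L` vanish. -/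
noncomputable def evL (x : σ → B) (L : ℕ)
    (h : ∀ p ∈ MvPolynomial.idealOfVars σ 𝒪 ^ L, MvPolynomial.aeval (R := 𝒪) x p = 0) :
    MvPowerSeries σ 𝒪 →ₐ[𝒪] B :=
  { toRingHom := (Ideal.Quotient.lift (MvPolynomial.idealOfVars σ 𝒪 ^ L)
      (MvPolynomial.aeval (R := 𝒪) x : MvPolynomial σ 𝒪 →ₐ[𝒪] B).toRingHom h).comp
      (MvPowerSeries.truncTotalAlgHom σ 𝒪 L).toRingHom
    commutes' := fun r => by
      have h1 : (algebraMap 𝒪 (MvPowerSeries σ 𝒪)) r =
          algebraMap (MvPolynomial σ 𝒪) (MvPowerSeries σ 𝒪) (MvPolynomial.C r) := by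
        rw [MvPowerSeries.algebraMap_apply', MvPolynomial.coe_C, MvPowerSeries.map_C,
          MvPowerSeries.algebraMap_apply]
      simp only [AlgHom.toRingHom_eq_coe, RingHom.toMonoidHom_eq_coe, OneHom.toFun_eq_coe,
        MonoidHom.toOneHom_coe, MonoidHom.coe_coe, RingHom.coe_comp, RingHom.coe_coe,
        Function.comp_apply]
      rw [h1, AlgHom.commutes]
      simp }

theorem evL_apply (x : σ → B) (L : ℕ)
    (h : ∀ p ∈ MvPolynomial.idealOfVars σ 𝒪 ^ L, MvPolynomial.aeval (R := 𝒪) x p = 0)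
    (f : MvPowerSeries σ 𝒪) :
    evL x L h f = MvPolynomial.aeval x (MvPowerSeries.truncTotal L f) := rfl

theorem evL_coe (x : σ → B) (L : ℕ)
    (h : ∀ p ∈ MvPolynomial.idealOfVars σ 𝒪 ^ L, MvPolynomial.aeval (R := 𝒪) x p = 0)
    (p : MvPolynomial σ 𝒪) :
    evL x L h (p : MvPowerSeries σ 𝒪) = MvPolynomial.aeval x p := by
  rw [evL_apply, ← sub_eq_zero, ← map_sub]
  apply h
  rw [MvPolynomial.mem_pow_idealOfVars_iff']
  intro d hd
  rw [MvPolynomial.coeff_sub, MvPowerSeries.coeff_truncTotal _ hd, MvPolynomial.coeff_coe, sub_self]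

theorem evL_X (x : σ → B) (L : ℕ)
    (h : ∀ p ∈ MvPolynomial.idealOfVars σ 𝒪 ^ L, MvPolynomial.aeval (R := 𝒪) x p = 0) (i : σ) :
    evL x L h (MvPowerSeries.X i) = x i := by
  rw [← MvPolynomial.coe_X, evL_coe, MvPolynomial.aeval_X]

theorem evL_comp {B' : Type*} [CommRing B'] [Algebra 𝒪 B'] (φ : B →ₐ[𝒪] B')
    (x : σ → B) (L : ℕ)
    (h : ∀ p ∈ MvPolynomial.idealOfVars σ 𝒪 ^ L, MvPolynomial.aeval (R := 𝒪) x p = 0)
    (x' : σ → B') (L' : ℕ)
    (h' : ∀ p ∈ MvPolynomial.idealOfVars σ 𝒪 ^ L', MvPolynomial.aeval (R := 𝒪) x' p = 0)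
    (hx : ∀ i, φ (x i) = x' i) (hL : L' ≤ L) (f : MvPowerSeries σ 𝒪) :
    φ (evL x L h f) = evL x' L' h' f := by
  rw [evL_apply, evL_apply]
  have h1 : φ (MvPolynomial.aeval x (MvPowerSeries.truncTotal L f)) =
      MvPolynomial.aeval x' (MvPowerSeries.truncTotal L f) := by
    have : (fun i => φ (x i)) = x' := funext hx
    rw [← this, ← MvPolynomial.comp_aeval_apply]
  rw [h1, ← sub_eq_zero, ← map_sub]
  apply h'
  exact MvPowerSeries.truncTotal_sub_truncTotal_mem_pow_idealOfVars hL le_rfl f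

end Eval

section Gen

variable {𝒪 : Type*} [CommRing 𝒪] {D : Type*} [CommRing D] [IsLocalRing D] [Algebra 𝒪 D]

theorem exists_mem_sub_mem_pow_succ (E : Subalgebra 𝒪 D)
    (hE : ∀ z ∈ maximalIdeal D, ∃ e ∈ E, z - e ∈ maximalIdeal D ^ 2) (i : ℕ) :
    ∀ z ∈ maximalIdeal D ^ (i + 1), ∃ e ∈ E, z - e ∈ maximalIdeal D ^ (i + 2) := by
  induction i with
  | zero =>
    intro z hz
    rw [zero_add, pow_one] at hz
    exact hE z hz
  | succ i ih =>
    intro z hz
    rw [pow_succ] at hz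
    refine Submodule.mul_induction_on hz ?_ ?_
    · intro a ha b hb
      obtain ⟨ea, hea, ha'⟩ := ih a ha
      obtain ⟨eb, heb, hb'⟩ := hE b hb
      refine ⟨ea * eb, E.mul_mem hea heb, ?_⟩
      have hea' : ea ∈ maximalIdeal D ^ (i + 1) := by
        have : ea = a - (a - ea) := by ring
        rw [this]
        exact Ideal.sub_mem _ ha (Ideal.pow_le_pow_right (by omega) ha')
      have : a * b - ea * eb = ea * (b - eb) + (a - ea) * b := by ring
      rw [this]
      refine Ideal.add_mem _ ?_ ?_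
      · have := Ideal.mul_mem_mul hea' hb'
        rw [← pow_add] at this
        exact Ideal.pow_le_pow_right (by omega) this
      · have := Ideal.mul_mem_mul ha' hb
        rw [← pow_succ] at this
        exact Ideal.pow_le_pow_right (by omega) this
    · rintro x y ⟨ex, hex, hx⟩ ⟨ey, hey, hy⟩
      refine ⟨ex + ey, E.add_mem hex hey, ?_⟩
      have : x + y - (ex + ey) = (x - ex) + (y - ey) := by ring
      rw [this]
      exact Ideal.add_mem _ hx hy

theorem subalgebra_eq_top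
    (hres : Function.Surjective (residue D ∘ algebraMap 𝒪 D))
    (L : ℕ) (hL : maximalIdeal D ^ L = ⊥) (E : Subalgebra 𝒪 D)
    (hE : ∀ z ∈ maximalIdeal D, ∃ e ∈ E, z - e ∈ maximalIdeal D ^ 2) : E = ⊤ := by
  have step : ∀ i : ℕ, ∀ d : D, ∃ e ∈ E, d - e ∈ maximalIdeal D ^ (i + 1) := by
    intro i
    induction i with
    | zero =>
      intro d
      obtain ⟨a, ha⟩ := hres (residue D d)
      refine ⟨algebraMap 𝒪 D a, E.algebraMap_mem a, ?_⟩
      rw [zero_add, pow_one, ← Ideal.Quotient.eq]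
      exact ha.symm
    | succ i ih =>
      intro d
      obtain ⟨e, he, hd⟩ := ih d
      obtain ⟨e', he', hd'⟩ := exists_mem_sub_mem_pow_succ E hE i _ hd
      refine ⟨e + e', E.add_mem he he', ?_⟩
      have : d - (e + e') = d - e - e' := by ring
      rw [this]
      exact hd'
  rw [eq_top_iff]
  intro d _
  obtain ⟨e, he, hd⟩ := step L d
  have : d - e ∈ maximalIdeal D ^ L := Ideal.pow_le_pow_right (by omega) hd
  rw [hL, Ideal.mem_bot, sub_eq_zero] at this
  rw [this]; exact he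

end Gen

section Aux

variable {𝒪 : Type*} [CommRing 𝒪] {σ : Type*} [Finite σ] {B : Type*} [CommRing B] [Algebra 𝒪 B]
  [IsLocalRing B]

omit [Finite σ] in
theorem aeval_eq_zero_of_mem_pow (x : σ → B) (hx : ∀ i, x i ∈ maximalIdeal B) (L : ℕ)
    (hL : maximalIdeal B ^ L = ⊥) :
    ∀ p ∈ MvPolynomial.idealOfVars σ 𝒪 ^ L, MvPolynomial.aeval (R := 𝒪) x p = 0 := by
  intro p hp
  have h1 : (MvPolynomial.idealOfVars σ 𝒪).map
      (MvPolynomial.aeval (R := 𝒪) x : MvPolynomial σ 𝒪 →ₐ[𝒪] B) ≤ maximalIdeal B := by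
    rw [Ideal.map_span, Ideal.span_le]
    rintro _ ⟨_, ⟨i, rfl⟩, rfl⟩
    simpa using hx i
  have h2 : (MvPolynomial.idealOfVars σ 𝒪 ^ L).map
      (MvPolynomial.aeval (R := 𝒪) x : MvPolynomial σ 𝒪 →ₐ[𝒪] B) ≤ ⊥ := by
    rw [Ideal.map_pow, ← hL]
    exact Ideal.pow_right_mono h1 L
  have := h2 (Ideal.mem_map_of_mem _ hp)
  simpa using this

end Aux

section Cauchy

variable {P : Type*} [CommRing P] (n : Ideal P) [IsPrecomplete n P]

theorem exists_limit_of_cauchy (f : ℕ → P) (hf : ∀ l, f (l + 1) - f l ∈ n ^ (l + 1)) :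
    ∃ g, ∀ l, g - f l ∈ n ^ (l + 1) := by
  have hf' : ∀ l k, f (l + k) - f l ∈ n ^ (l + 1) := by
    intro l k
    induction k with
    | zero => simp
    | succ k ih =>
      have : f (l + (k + 1)) - f l = (f (l + k + 1) - f (l + k)) + (f (l + k) - f l) := by
        rw [← add_assoc]; ring
      rw [this]
      exact Ideal.add_mem _ (Ideal.pow_le_pow_right (by omega) (hf (l + k))) ih
  obtain ⟨g, hg⟩ := IsPrecomplete.prec (I := n) (M := P) inferInstance
    (f := fun l => f (l - 1)) (by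
      intro a b hab
      rw [SModEq.sub_mem, smul_eq_mul, Ideal.mul_top]
      rcases Nat.eq_zero_or_pos a with rfl | ha
      · rw [pow_zero, Ideal.one_eq_top]; exact Submodule.mem_top (R := P)
      · obtain ⟨k, hk⟩ : ∃ k, b - 1 = (a - 1) + k := ⟨b - a, by omega⟩
        have := hf' (a - 1) k
        rw [show a - 1 + 1 = a by omega, ← hk] at this
        have h2 : f (a - 1) - f (b - 1) = -(f (b - 1) - f (a - 1)) := by ring
        rw [h2]
        exact Ideal.neg_mem_iff _ |>.mpr this)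
  refine ⟨g, fun l => ?_⟩
  have := hg (l + 1)
  rw [SModEq.sub_mem, smul_eq_mul, Ideal.mul_top] at this
  simp only [Nat.add_sub_cancel] at this
  have h2 : g - f l = -(f l - g) := by ring
  rw [h2]
  exact Ideal.neg_mem_iff _ |>.mpr this

end Cauchy

section Seq

variable {P : Type*} [CommRing P] (n : Ideal P) [IsPrecomplete n P]

theorem exists_limit_of_cauchy_shift (c : ℕ) (f : ℕ → P)
    (hf : ∀ l, f (l + 1) - f l ∈ n ^ (c + l + 1)) :
    ∃ g, ∀ l, g - f l ∈ n ^ (c + l + 1) := by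
  obtain ⟨g, hg⟩ := exists_limit_of_cauchy n (fun l => f (l - c)) (by
    intro l
    by_cases hl : l < c
    · rw [show l + 1 - c = 0 by omega, show l - c = 0 by omega, sub_self]
      exact Ideal.zero_mem _
    · have := hf (l - c)
      rw [show l + 1 - c = l - c + 1 by omega]
      rwa [show c + (l - c) + 1 = l + 1 by omega] at this)
  refine ⟨g, fun l => ?_⟩
  have := hg (c + l)
  simpa using this

theorem exists_seq (c : ℕ) (Q : ℕ → P → Prop)
    (step : ∀ l a, Q l a → ∃ b, Q (l + 1) b ∧ b - a ∈ n ^ (c + l + 1))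
    (a0 : P) (h0 : Q 0 a0) :
    ∃ (g : P) (F : ℕ → P), F 0 = a0 ∧ (∀ l, Q l (F l)) ∧ ∀ l, g - F l ∈ n ^ (c + l + 1) := by
  let G : (l : ℕ) → {a : P // Q l a} := fun l =>
    Nat.rec (motive := fun l => {a : P // Q l a}) ⟨a0, h0⟩
      (fun l a => ⟨Classical.choose (step l a.1 a.2), (Classical.choose_spec (step l a.1 a.2)).1⟩) l
  have hG : ∀ l, (G (l + 1)).1 - (G l).1 ∈ n ^ (c + l + 1) := fun l =>
    (Classical.choose_spec (step l (G l).1 (G l).2)).2
  obtain ⟨g, hg⟩ := exists_limit_of_cauchy_shift n c (fun l => (G l).1) hG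
  exact ⟨g, fun l => (G l).1, rfl, fun l => (G l).2, hg⟩

end Seq

section Presentation

variable {𝒪 : Type} [CommRing 𝒪]
    (P : Type) [CommRing P] [IsLocalRing P] [IsNoetherianRing P]
    [IsAdicComplete (maximalIdeal P) P] [Algebra 𝒪 P]
    (D : ℕ → Type) [∀ j, CommRing (D j)] [∀ j, IsLocalRing (D j)] [∀ j, Algebra 𝒪 (D j)]
    (u : ∀ j, D (j + 1) →ₐ[𝒪] D j)
    (hker : ∀ j, RingHom.ker (u j : D (j + 1) →+* D j) = maximalIdeal (D (j + 1)) ^ (j + 1))
    (hlev : ∀ j, maximalIdeal (D j) ^ (j + 1) = ⊥)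
    (ev : ∀ j, P →ₐ[𝒪] D j) (hev : ∀ j, Function.Surjective (ev j))
    (hcompat : ∀ j f, u j (ev (j + 1) f) = ev j f)

omit [IsNoetherianRing P] [IsAdicComplete (maximalIdeal P) P] in
include hev in
theorem map_pow_ev (j l : ℕ) :
    (maximalIdeal P ^ l).map (ev j : P →+* D j) = maximalIdeal (D j) ^ l := by
  rw [Ideal.map_pow, IsLocalRing.map_maximalIdeal_of_surjective (ev j : P →+* D j) (hev j)]

omit [IsNoetherianRing P] [IsAdicComplete (maximalIdeal P) P] in
include hev hlev in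
theorem pow_le_ker_ev (j : ℕ) :
    maximalIdeal P ^ (j + 1) ≤ RingHom.ker (ev j : P →+* D j) := by
  intro f hf
  have := Ideal.mem_map_of_mem (ev j : P →+* D j) hf
  rw [map_pow_ev P D ev hev, hlev] at this
  simpa using this

omit [IsLocalRing P] [IsNoetherianRing P] [IsAdicComplete (maximalIdeal P) P]
  [∀ j, IsLocalRing (D j)] in
include hcompat in
theorem ker_ev_anti (j : ℕ) :
    RingHom.ker (ev (j + 1) : P →+* D (j + 1)) ≤ RingHom.ker (ev j : P →+* D j) := by
  intro f hf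
  rw [RingHom.mem_ker, RingHom.coe_coe] at hf ⊢
  rw [← hcompat j f, hf, map_zero]

omit [IsLocalRing P] [IsNoetherianRing P] [IsAdicComplete (maximalIdeal P) P]
  [∀ j, IsLocalRing (D j)] in
include hcompat in
theorem ker_ev_antitone : Antitone (fun j => RingHom.ker (ev j : P →+* D j)) :=
  antitone_nat_of_succ_le (ker_ev_anti P D u ev hcompat)

omit [IsNoetherianRing P] [IsAdicComplete (maximalIdeal P) P] in
include hev hker hcompat in
theorem ker_ev_le (j : ℕ) (f : P) (hf : f ∈ RingHom.ker (ev j : P →+* D j)) :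
    ∃ g, g ∈ RingHom.ker (ev (j + 1) : P →+* D (j + 1)) ∧ g - f ∈ maximalIdeal P ^ (j + 1) := by
  rw [RingHom.mem_ker, RingHom.coe_coe] at hf
  have h1 : (ev (j + 1) : P →+* D (j + 1)) f ∈ RingHom.ker (u j : D (j + 1) →+* D j) := by
    rw [RingHom.mem_ker, RingHom.coe_coe, RingHom.coe_coe, hcompat j f, hf]
  rw [hker, ← map_pow_ev P D ev hev] at h1
  obtain ⟨g, hg, hgf⟩ := (Ideal.mem_map_iff_of_surjective (ev (j + 1) : P →+* D (j + 1))
    (hev (j + 1))).mp h1
  refine ⟨f - g, ?_, ?_⟩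
  · rw [RingHom.mem_ker, map_sub, hgf, sub_self]
  · have : f - g - f = -g := by ring
    rw [this]; exact Ideal.neg_mem_iff _ |>.mpr hg

omit [IsNoetherianRing P] in
include hev hker hlev hcompat in
/-- Every element of `ker (ev j)` is congruent modulo `n ^ (j+1)` to an element of
`⨅ i, ker (ev i)`. -/
theorem exists_mem_iInf_ker (j : ℕ) (f : P) (hf : f ∈ RingHom.ker (ev j : P →+* D j)) :
    ∃ g, g ∈ ⨅ i, RingHom.ker (ev i : P →+* D i) ∧ g - f ∈ maximalIdeal P ^ (j + 1) := by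
  obtain ⟨g, F, hF0, hFQ, hgF⟩ := exists_seq (maximalIdeal P) j
    (fun l a => a ∈ RingHom.ker (ev (j + l) : P →+* D (j + l)))
    (fun l a ha => ker_ev_le P D u hker ev hev hcompat (j + l) a ha) f hf
  refine ⟨g, ?_, ?_⟩
  · rw [Ideal.mem_iInf]
    intro i
    have h1 : F i ∈ RingHom.ker (ev i : P →+* D i) :=
      ker_ev_antitone P D u ev hcompat (show i ≤ j + i by omega) (hFQ i)
    have h2 : g - F i ∈ RingHom.ker (ev i : P →+* D i) :=
      pow_le_ker_ev P D hlev ev hev i (Ideal.pow_le_pow_right (by omega) (hgF i))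
    have : g = (g - F i) + F i := by ring
    rw [this]
    exact Ideal.add_mem _ h2 h1
  · have := hgF 0
    rwa [hF0] at this

omit [IsNoetherianRing P] in
include hev hker hlev hcompat in
/-- Compatible families lift to `P`. -/
theorem exists_lift_compatible (x : ∀ j, D j) (hx : ∀ j, u j (x (j + 1)) = x j) :
    ∃ g : P, ∀ j, ev j g = x j := by
  obtain ⟨a0, ha0⟩ := hev 0 (x 0)
  obtain ⟨g, F, -, hFQ, hgF⟩ := exists_seq (maximalIdeal P) 0
    (fun l a => ev l a = x l)
    (fun l a ha => by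
      obtain ⟨h, hh⟩ := hev (l + 1) (x (l + 1))
      have h1 : h - a ∈ RingHom.ker (ev l : P →+* D l) := by
        rw [RingHom.mem_ker, RingHom.coe_coe, map_sub, ← hcompat l h, hh, hx, ha, sub_self]
      obtain ⟨k, hk, hka⟩ := ker_ev_le P D u hker ev hev hcompat l _ h1
      rw [RingHom.mem_ker, RingHom.coe_coe] at hk
      refine ⟨h - k, by rw [map_sub, hk, sub_zero, hh], ?_⟩
      have : h - k - a = -(k - (h - a)) := by ring
      rw [this, zero_add]
      exact Ideal.neg_mem_iff _ |>.mpr hka) a0 ha0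
  refine ⟨g, fun j => ?_⟩
  have h2 : g - F j ∈ RingHom.ker (ev j : P →+* D j) :=
    pow_le_ker_ev P D hlev ev hev j (by simpa using hgF j)
  rw [RingHom.mem_ker, RingHom.coe_coe, map_sub, sub_eq_zero] at h2
  rw [h2, hFQ]

end Presentation

section Assembly

theorem exists_limit_of_presentation {𝒪 : Type} [CommRing 𝒪]
    (P : Type) [CommRing P] [IsLocalRing P] [IsNoetherianRing P]
    [IsAdicComplete (maximalIdeal P) P] [Algebra 𝒪 P] [IsLocalHom (algebraMap 𝒪 P)]
    (hresP : Function.Surjective (residue P ∘ algebraMap 𝒪 P))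
    (D : ℕ → Type) [∀ j, CommRing (D j)] [∀ j, IsLocalRing (D j)] [∀ j, Algebra 𝒪 (D j)]
    (u : ∀ j, D (j + 1) →ₐ[𝒪] D j)
    (hker : ∀ j, RingHom.ker (u j : D (j + 1) →+* D j) = maximalIdeal (D (j + 1)) ^ (j + 1))
    (hlev : ∀ j, maximalIdeal (D j) ^ (j + 1) = ⊥)
    (ev : ∀ j, P →ₐ[𝒪] D j) (hev : ∀ j, Function.Surjective (ev j))
    (hcompat : ∀ j f, u j (ev (j + 1) f) = ev j f) :
    ∃ (R : Type) (_ : CommRing R) (_ : IsLocalRing R) (_ : IsNoetherianRing R)
      (_ : IsAdicComplete (maximalIdeal R) R) (_ : Algebra 𝒪 R)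
      (_ : IsLocalHom (algebraMap 𝒪 R)) (π : ∀ j, R →ₐ[𝒪] D j),
      Function.Surjective (residue R ∘ algebraMap 𝒪 R) ∧
      (∀ j, Function.Surjective (π j)) ∧ (∀ j, (u j).comp (π (j + 1)) = π j) ∧
      (∀ j, RingHom.ker (π j : R →+* D j) = maximalIdeal R ^ (j + 1)) ∧
      (∀ x : ∀ j, D j, (∀ j, u j (x (j + 1)) = x j) → ∃ r : R, ∀ j, π j r = x j) := by
  set K : Ideal P := ⨅ i, RingHom.ker (ev i : P →+* D i) with hK
  have hKle : ∀ j, K ≤ RingHom.ker (ev j : P →+* D j) := fun j => iInf_le _ j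
  have hKne : K ≠ ⊤ := by
    intro h
    have h1 : (1 : P) ∈ RingHom.ker (ev 0 : P →+* D 0) := hKle 0 (h ▸ Submodule.mem_top)
    rw [RingHom.mem_ker, map_one] at h1
    exact one_ne_zero h1
  have : Nontrivial (P ⧸ K) := Ideal.Quotient.nontrivial_iff.mpr hKne
  have : IsLocalRing (P ⧸ K) :=
    IsLocalRing.of_surjective' (Ideal.Quotient.mk K) Ideal.Quotient.mk_surjective
  have hlocmk : IsLocalHom (Ideal.Quotient.mk K) :=
    IsLocalHom.of_surjective (Ideal.Quotient.mk K) Ideal.Quotient.mk_surjective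
  have hlocmk' : IsLocalHom (algebraMap P (P ⧸ K)) := hlocmk
  have : Module.Finite P (P ⧸ K) :=
    Module.Finite.of_surjective (Ideal.Quotient.mkₐ P K).toLinearMap
      (Ideal.Quotient.mkₐ_surjective P K)
  have : IsAdicComplete (maximalIdeal (P ⧸ K)) (P ⧸ K) :=
    IsLocalRing.isAdicComplete_of_module_finite (𝒪 := P) (T := P ⧸ K)
  have : IsLocalHom (algebraMap 𝒪 (P ⧸ K)) := by
    have : algebraMap 𝒪 (P ⧸ K) = (Ideal.Quotient.mk K).comp (algebraMap 𝒪 P) := rfl
    rw [this]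
    exact RingHom.isLocalHom_comp _ _
  let π : ∀ j, (P ⧸ K) →ₐ[𝒪] D j := fun j =>
    Ideal.Quotient.liftₐ K (ev j) (fun a ha => by
      have := hKle j ha
      rwa [RingHom.mem_ker] at this)
  have hπ : ∀ j f, π j (Ideal.Quotient.mk K f) = ev j f := fun j f => rfl
  have hmaxR : maximalIdeal (P ⧸ K) = (maximalIdeal P).map (Ideal.Quotient.mk K) :=
    (IsLocalRing.map_maximalIdeal_of_surjective (Ideal.Quotient.mk K)
      Ideal.Quotient.mk_surjective).symm
  refine ⟨P ⧸ K, inferInstance, inferInstance, inferInstance, inferInstance, inferInstance,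
    inferInstance, π, ?_, ?_, ?_, ?_, ?_⟩
  · -- residue surjective
    intro y
    obtain ⟨r, rfl⟩ := residue_surjective y
    obtain ⟨f, rfl⟩ := Ideal.Quotient.mk_surjective r
    obtain ⟨a, ha⟩ := hresP (residue P f)
    refine ⟨a, ?_⟩
    simp only [Function.comp_apply] at ha ⊢
    have h1 : algebraMap 𝒪 P a - f ∈ maximalIdeal P := by
      rw [← Ideal.Quotient.eq]; exact ha
    have h2 : Ideal.Quotient.mk K (algebraMap 𝒪 P a - f) ∈ maximalIdeal (P ⧸ K) := by
      rw [hmaxR]; exact Ideal.mem_map_of_mem _ h1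
    rw [map_sub] at h2
    have : algebraMap 𝒪 (P ⧸ K) a = Ideal.Quotient.mk K (algebraMap 𝒪 P a) := rfl
    rw [this]
    exact Ideal.Quotient.eq.mpr h2
  · intro j y
    obtain ⟨f, rfl⟩ := hev j y
    exact ⟨Ideal.Quotient.mk K f, hπ j f⟩
  · intro j
    ext r
    obtain ⟨f, rfl⟩ := Ideal.Quotient.mk_surjective r
    simp only [AlgHom.comp_apply, hπ]
    exact hcompat j f
  · intro j
    ext r
    obtain ⟨f, rfl⟩ := Ideal.Quotient.mk_surjective r
    rw [RingHom.mem_ker, RingHom.coe_coe, hπ, hmaxR, ← Ideal.map_pow]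
    constructor
    · intro hf
      obtain ⟨g, hg, hgf⟩ := exists_mem_iInf_ker P D u hker hlev ev hev hcompat j f
        (by rw [RingHom.mem_ker, RingHom.coe_coe]; exact hf)
      have h1 : Ideal.Quotient.mk K f = Ideal.Quotient.mk K (f - g) := by
        rw [map_sub, Ideal.Quotient.eq_zero_iff_mem.mpr hg, sub_zero]
      rw [h1]
      refine Ideal.mem_map_of_mem _ ?_
      have : f - g = -(g - f) := by ring
      rw [this]; exact Ideal.neg_mem_iff _ |>.mpr hgf
    · intro hf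
      obtain ⟨g, hg, hgf⟩ := (Ideal.mem_map_iff_of_surjective (Ideal.Quotient.mk K)
        Ideal.Quotient.mk_surjective).mp hf
      have h1 : ev j f = ev j g := by
        rw [← hπ, ← hπ, hgf]
      rw [h1]
      have := pow_le_ker_ev P D hlev ev hev j hg
      rwa [RingHom.mem_ker, RingHom.coe_coe] at this
  · intro x hx
    obtain ⟨g, hg⟩ := exists_lift_compatible P D u hker hlev ev hev hcompat x hx
    exact ⟨Ideal.Quotient.mk K g, fun j => by rw [hπ, hg]⟩

end Assembly

section Gens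

variable {𝒪 : Type} [CommRing 𝒪]
    {D : ℕ → Type} [∀ j, CommRing (D j)] [∀ j, IsLocalRing (D j)] [∀ j, Algebra 𝒪 (D j)]
    (u : ∀ j, D (j + 1) →ₐ[𝒪] D j) (hu : ∀ j, Function.Surjective (u j))
    {N : ℕ} (e0 : Fin N → D 1)

/-- Compatible lifts of the generators `e0` to all levels `≥ 1`. -/
noncomputable def gen : (j : ℕ) → Fin N → D (j + 1)
  | 0 => e0
  | j + 1 => fun i => Classical.choose (hu (j + 1) (gen j i))

omit [∀ j, IsLocalRing (D j)] in
theorem gen_succ (j : ℕ) (i : Fin N) : u (j + 1) (gen u hu e0 (j + 1) i) = gen u hu e0 j i :=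
  Classical.choose_spec (hu (j + 1) (gen u hu e0 j i))

/-- The generators at all levels. -/
noncomputable def xs : (j : ℕ) → Fin N → D j
  | 0 => fun i => u 0 (e0 i)
  | j + 1 => gen u hu e0 j

theorem xs_compat (j : ℕ) (i : Fin N) : u j (xs u hu e0 (j + 1) i) = xs u hu e0 j i := by
  cases j with
  | zero => rfl
  | succ j => exact gen_succ u hu e0 j i

theorem gen_mem (he0 : ∀ i, e0 i ∈ maximalIdeal (D 1)) (j : ℕ) (i : Fin N) :
    gen u hu e0 j i ∈ maximalIdeal (D (j + 1)) := by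
  induction j with
  | zero => exact he0 i
  | succ j ih =>
    rw [mem_maximalIdeal, mem_nonunits_iff] at ih ⊢
    intro h
    apply ih
    rw [← gen_succ u hu e0 j i]
    exact h.map (u (j + 1))

theorem xs_mem (he0 : ∀ i, e0 i ∈ maximalIdeal (D 1))
    (hker0 : RingHom.ker (u 0 : D 1 →+* D 0) = maximalIdeal (D 1) ^ 1) (j : ℕ) (i : Fin N) :
    xs u hu e0 j i ∈ maximalIdeal (D j) := by
  cases j with
  | zero =>
    have : e0 i ∈ RingHom.ker (u 0 : D 1 →+* D 0) := by
      rw [hker0, pow_one]; exact he0 i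
    rw [RingHom.mem_ker] at this
    show u 0 (e0 i) ∈ _
    rw [show u 0 (e0 i) = 0 from this]
    exact Ideal.zero_mem _
  | succ j => exact gen_mem u hu e0 he0 j i

/-- Every element of the maximal ideal at level `j+1` is congruent to a generator mod `m^2`. -/
theorem exists_gen_sub_mem (he0 : ∀ z ∈ maximalIdeal (D 1), ∃ i, e0 i = z)
    (hker : ∀ j, RingHom.ker (u j : D (j + 1) →+* D j) = maximalIdeal (D (j + 1)) ^ (j + 1))
    (j : ℕ) :
    ∀ z ∈ maximalIdeal (D (j + 1)), ∃ i, z - gen u hu e0 j i ∈ maximalIdeal (D (j + 1)) ^ 2 := by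
  induction j with
  | zero =>
    intro z hz
    obtain ⟨i, hi⟩ := he0 z hz
    exact ⟨i, by rw [show gen u hu e0 0 i = e0 i from rfl, hi, sub_self]; exact Ideal.zero_mem _⟩
  | succ j ih =>
    intro z hz
    have hmap := IsLocalRing.map_maximalIdeal_of_surjective (u (j + 1) : D (j + 2) →+* D (j + 1))
      (hu (j + 1))
    have huz : u (j + 1) z ∈ maximalIdeal (D (j + 1)) := by
      rw [← hmap]; exact Ideal.mem_map_of_mem _ hz
    obtain ⟨i, hi⟩ := ih _ huz
    refine ⟨i, ?_⟩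
    rw [← gen_succ u hu e0 j i, ← map_sub, ← hmap, ← Ideal.map_pow] at hi
    obtain ⟨w, hw, hwz⟩ := (Ideal.mem_map_iff_of_surjective (u (j + 1) : D (j + 2) →+* D (j + 1))
      (hu (j + 1))).mp hi
    have h1 : z - gen u hu e0 (j + 1) i - w ∈ RingHom.ker (u (j + 1) : D (j + 2) →+* D (j + 1)) := by
      rw [RingHom.mem_ker, map_sub, hwz]
      exact sub_self _
    rw [hker] at h1
    have h2 : z - gen u hu e0 (j + 1) i - w ∈ maximalIdeal (D (j + 2)) ^ 2 :=
      Ideal.pow_le_pow_right (by omega) h1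
    have : z - gen u hu e0 (j + 1) i = (z - gen u hu e0 (j + 1) i - w) + w := by ring
    rw [this]
    exact Ideal.add_mem _ h2 hw

end Gens

section Final

theorem isLocalHom_algebraMap_mvPowerSeries (𝒪 : Type*) [CommRing 𝒪] (σ : Type*) :
    IsLocalHom (algebraMap 𝒪 (MvPowerSeries σ 𝒪)) := by
  refine ⟨fun a ha => ?_⟩
  have := ha.map (MvPowerSeries.constantCoeff (σ := σ) (R := 𝒪))
  rwa [MvPowerSeries.algebraMap_apply, Algebra.algebraMap_self, RingHom.id_apply,
    MvPowerSeries.constantCoeff_C] at this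

theorem residue_surjective_mvPowerSeries (𝒪 : Type*) [CommRing 𝒪] [IsLocalRing 𝒪] (σ : Type*) :
    Function.Surjective (residue (MvPowerSeries σ 𝒪) ∘ algebraMap 𝒪 (MvPowerSeries σ 𝒪)) := by
  intro y
  obtain ⟨f, rfl⟩ := residue_surjective y
  refine ⟨MvPowerSeries.constantCoeff f, ?_⟩
  simp only [Function.comp_apply]
  refine Ideal.Quotient.eq.mpr ?_
  rw [mem_maximalIdeal, mem_nonunits_iff, MvPowerSeries.isUnit_iff_constantCoeff]
  rw [map_sub, MvPowerSeries.algebraMap_apply, Algebra.algebraMap_self, RingHom.id_apply,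
    MvPowerSeries.constantCoeff_C, sub_self]
  exact not_isUnit_zero

/-- **Step 6.** The inverse limit of a tower of finite local `𝒪`-algebras `D j` with
`ker (D (j+1) → D j) = m ^ (j+1)` is a complete noetherian local `𝒪`-algebra `R`
with `R / m_R ^ (j+1) = D j`. -/
theorem exists_limit (𝒪 : Type) [CommRing 𝒪] [IsDomain 𝒪] [IsDiscreteValuationRing 𝒪]
    [IsAdicComplete (IsLocalRing.maximalIdeal 𝒪) 𝒪] [Finite (IsLocalRing.ResidueField 𝒪)]
    (D : ℕ → Type) [∀ j, CommRing (D j)] [∀ j, IsLocalRing (D j)] [∀ j, Algebra 𝒪 (D j)]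
    [∀ j, Finite (D j)]
    (_hloc : ∀ j, IsLocalHom (algebraMap 𝒪 (D j)))
    (hres : ∀ j, Function.Surjective (IsLocalRing.residue (D j) ∘ algebraMap 𝒪 (D j)))
    (u : ∀ j, D (j+1) →ₐ[𝒪] D j) (hu : ∀ j, Function.Surjective (u j))
    (hker : ∀ j, RingHom.ker (u j : D (j+1) →+* D j) = IsLocalRing.maximalIdeal (D (j+1)) ^ (j+1))
    (hlev : ∀ j, IsLocalRing.maximalIdeal (D j) ^ (j+1) = ⊥) :
    ∃ (R : Type) (_ : CommRing R) (_ : IsLocalRing R) (_ : IsNoetherianRing R)
      (_ : IsAdicComplete (IsLocalRing.maximalIdeal R) R) (_ : Algebra 𝒪 R)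
      (_ : IsLocalHom (algebraMap 𝒪 R)) (π : ∀ j, R →ₐ[𝒪] D j),
      Function.Surjective (IsLocalRing.residue R ∘ algebraMap 𝒪 R) ∧
      (∀ j, Function.Surjective (π j)) ∧ (∀ j, (u j).comp (π (j+1)) = π j) ∧
      (∀ j, RingHom.ker (π j : R →+* D j) = IsLocalRing.maximalIdeal R ^ (j+1)) ∧
      (∀ x : ∀ j, D j, (∀ j, u j (x (j+1)) = x j) → ∃ r : R, ∀ j, π j r = x j) := by
  classical
  have hfin : Finite (maximalIdeal (D 1)) := inferInstance
  obtain ⟨N, ⟨e⟩⟩ : ∃ N, Nonempty (Fin N ≃ maximalIdeal (D 1)) :=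
    ⟨_, ⟨(Finite.equivFin _).symm⟩⟩
  let e0 : Fin N → D 1 := fun i => (e i : D 1)
  have he0 : ∀ i, e0 i ∈ maximalIdeal (D 1) := fun i => (e i).2
  have he0' : ∀ z ∈ maximalIdeal (D 1), ∃ i, e0 i = z :=
    fun z hz => ⟨e.symm ⟨z, hz⟩, by simp [e0]⟩
  have hxm := xs_mem u hu e0 he0 (hker 0)
  have hnil : ∀ j, ∀ p ∈ MvPolynomial.idealOfVars (Fin N) 𝒪 ^ (j + 1),
      MvPolynomial.aeval (R := 𝒪) (xs u hu e0 j) p = 0 :=
    fun j => aeval_eq_zero_of_mem_pow _ (hxm j) (j + 1) (hlev j)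
  let ev : ∀ j, MvPowerSeries (Fin N) 𝒪 →ₐ[𝒪] D j := fun j => evL (xs u hu e0 j) (j + 1) (hnil j)
  have hcompat : ∀ j f, u j (ev (j + 1) f) = ev j f := fun j f =>
    evL_comp (u j) _ _ _ _ _ _ (xs_compat u hu e0 j) (Nat.le_succ _) f
  have hev : ∀ j, Function.Surjective (ev j) := by
    intro j
    have hrange : (ev j).range = ⊤ := by
      refine subalgebra_eq_top (hres j) (j + 1) (hlev j) _ ?_
      intro z hz
      cases j with
      | zero =>
        have h0 := hlev 0
        rw [zero_add, pow_one] at h0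
        rw [h0, Ideal.mem_bot] at hz
        exact ⟨0, Subalgebra.zero_mem _, by rw [hz, sub_zero]; exact Ideal.zero_mem _⟩
      | succ j =>
        obtain ⟨i, hi⟩ := exists_gen_sub_mem u hu e0 he0' hker j z hz
        exact ⟨_, ⟨MvPowerSeries.X i, evL_X _ _ _ i⟩, hi⟩
    intro y
    have : y ∈ (ev j).range := hrange ▸ Algebra.mem_top
    exact this
  have hcomp : IsAdicComplete (maximalIdeal (MvPowerSeries (Fin N) 𝒪)) (MvPowerSeries (Fin N) 𝒪) :=
    isAdicComplete_mvPowerSeries_fin 𝒪 N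
  have hlocP := isLocalHom_algebraMap_mvPowerSeries 𝒪 (Fin N)
  exact exists_limit_of_presentation (MvPowerSeries (Fin N) 𝒪)
    (residue_surjective_mvPowerSeries 𝒪 (Fin N)) D u hker hlev ev hev hcompat

end Final

end Fermat.Agent.S53.Limit
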