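import Fermat.Agent.S53.TestAlg

set_option autoImplicit false
set_option linter.unusedSectionVars false
set_option linter.style.haveILetI false

/-!
# S53: a finite local `𝒪`-algebra with few tangent vectors and bounded level has bounded size.
-/

namespace Fermat.Agent.S53

open IsLocalRing

namespace H55

section Aug

variable {𝒪 : Type} [CommRing 𝒪] [IsLocalRing 𝒪]
variable {D : Type} [CommRing D] [IsLocalRing D] [Algebra 𝒪 D]

/-- Every element of a test algebra is congruent to a scalar modulo the maximal ideal. -/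
theorem exists_scalar_sub_mem (hres : Function.Surjective (residue D ∘ algebraMap 𝒪 D)) (d : D) :
    ∃ c : 𝒪, d - algebraMap 𝒪 D c ∈ maximalIdeal D := by
  obtain ⟨c, hc⟩ := hres (residue D d)
  refine ⟨c, ?_⟩
  rw [← residue_eq_zero_iff, map_sub, sub_eq_zero]
  exact hc.symm

variable [IsLocalHom (algebraMap 𝒪 D)]

theorem residueFieldMap_bijective (hres : Function.Surjective (residue D ∘ algebraMap 𝒪 D)) :
    Function.Bijective (ResidueField.map (algebraMap 𝒪 D)) := by
  refine ⟨(ResidueField.map (algebraMap 𝒪 D)).injective, fun y => ?_⟩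
  obtain ⟨d, rfl⟩ := residue_surjective y
  obtain ⟨c, hc⟩ := hres (residue D d)
  exact ⟨residue 𝒪 c, by rw [ResidueField.map_residue]; exact hc⟩

/-- The augmentation `D → k` of a test algebra. -/
noncomputable def aug (hres : Function.Surjective (residue D ∘ algebraMap 𝒪 D)) :
    D →+* ResidueField 𝒪 :=
  ((RingEquiv.ofBijective (ResidueField.map (algebraMap 𝒪 D))
    (residueFieldMap_bijective hres)).symm : ResidueField D →+* ResidueField 𝒪).comp (residue D)

theorem aug_algebraMap (hres : Function.Surjective (residue D ∘ algebraMap 𝒪 D)) (c : 𝒪) :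
    aug hres (algebraMap 𝒪 D c) = residue 𝒪 c := by
  simp only [aug, RingHom.comp_apply, RingHom.coe_coe]
  rw [RingEquiv.symm_apply_eq]
  simp [ResidueField.map_residue]

theorem aug_eq_zero_iff (hres : Function.Surjective (residue D ∘ algebraMap 𝒪 D)) (d : D) :
    aug hres d = 0 ↔ d ∈ maximalIdeal D := by
  simp only [aug, RingHom.comp_apply, RingHom.coe_coe]
  rw [map_eq_zero_iff _ (RingEquiv.injective _), residue_eq_zero_iff]

theorem aug_eq_residue_of_sub_mem (hres : Function.Surjective (residue D ∘ algebraMap 𝒪 D))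
    {d : D} {c : 𝒪} (h : d - algebraMap 𝒪 D c ∈ maximalIdeal D) :
    aug hres d = residue 𝒪 c := by
  have := (aug_eq_zero_iff hres _).2 h
  rw [map_sub, sub_eq_zero, aug_algebraMap] at this
  exact this

end Aug

section Cot

variable (𝒪 : Type) [CommRing 𝒪] [IsLocalRing 𝒪]
variable (D : Type) [CommRing D] [IsLocalRing D] [Algebra 𝒪 D]

/-- `W = m_D ^ 2 + 𝒪 · 1`, as an `𝒪`-submodule of `D`. -/
def relSub : Submodule 𝒪 D :=
  (maximalIdeal D ^ 2).restrictScalars 𝒪 ⊔ LinearMap.range (Algebra.linearMap 𝒪 D)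

/-- The relative cotangent space `D / (m_D ^ 2 + 𝒪 · 1) ≅ m_D / (m_D ^ 2 + m_𝒪 D)`. -/
abbrev RelCot : Type := D ⧸ relSub 𝒪 D

variable {𝒪 D}

theorem sq_le_relSub {d : D} (h : d ∈ maximalIdeal D ^ 2) : d ∈ relSub 𝒪 D :=
  Submodule.mem_sup_left (S := (maximalIdeal D ^ 2).restrictScalars 𝒪) h

theorem algebraMap_mem_relSub (c : 𝒪) : algebraMap 𝒪 D c ∈ relSub 𝒪 D :=
  Submodule.mem_sup_right ⟨c, rfl⟩

theorem mem_relSub_iff {d : D} :
    d ∈ relSub 𝒪 D ↔ ∃ s ∈ maximalIdeal D ^ 2, ∃ c : 𝒪, s + algebraMap 𝒪 D c = d := by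
  constructor
  · intro h
    obtain ⟨s, hs, b, ⟨c, rfl⟩, rfl⟩ := Submodule.mem_sup.1 h
    exact ⟨s, hs, c, rfl⟩
  · rintro ⟨s, hs, c, rfl⟩
    exact add_mem (sq_le_relSub hs) (algebraMap_mem_relSub c)

theorem mul_sub_mem_relSub {d d' : D} {c c' : 𝒪} (h : d - algebraMap 𝒪 D c ∈ maximalIdeal D)
    (h' : d' - algebraMap 𝒪 D c' ∈ maximalIdeal D) :
    d * d' - (c • d' + c' • d) ∈ relSub 𝒪 D := by
  have h1 : (d - algebraMap 𝒪 D c) * (d' - algebraMap 𝒪 D c') ∈ maximalIdeal D ^ 2 := by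
    rw [pow_two]; exact Ideal.mul_mem_mul h h'
  have h2 : d * d' - (c • d' + c' • d) =
      (d - algebraMap 𝒪 D c) * (d' - algebraMap 𝒪 D c') - algebraMap 𝒪 D (c * c') := by
    rw [Algebra.smul_def, Algebra.smul_def, map_mul]; ring
  rw [h2]
  exact sub_mem (sq_le_relSub h1) (algebraMap_mem_relSub _)

variable [IsLocalHom (algebraMap 𝒪 D)]

theorem algebraMap_mem_maximalIdeal {c : 𝒪} (hc : c ∈ maximalIdeal 𝒪) :
    algebraMap 𝒪 D c ∈ maximalIdeal D := by
  rw [mem_maximalIdeal, mem_nonunits_iff] at hc ⊢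
  exact fun h => hc (isUnit_of_map_unit (algebraMap 𝒪 D) c h)

theorem relCot_isTorsionBySet (hres : Function.Surjective (residue D ∘ algebraMap 𝒪 D)) :
    Module.IsTorsionBySet 𝒪 (RelCot 𝒪 D) (maximalIdeal 𝒪 : Set 𝒪) := by
  intro v a
  obtain ⟨d, rfl⟩ := Submodule.Quotient.mk_surjective _ v
  rw [← Submodule.Quotient.mk_smul, Submodule.Quotient.mk_eq_zero]
  obtain ⟨c, hc⟩ := exists_scalar_sub_mem hres d
  have h1 : algebraMap 𝒪 D (a : 𝒪) * (d - algebraMap 𝒪 D c) ∈ maximalIdeal D ^ 2 := by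
    rw [pow_two]; exact Ideal.mul_mem_mul (algebraMap_mem_maximalIdeal a.2) hc
  have h2 : (a : 𝒪) • d =
      algebraMap 𝒪 D (a : 𝒪) * (d - algebraMap 𝒪 D c) + algebraMap 𝒪 D ((a : 𝒪) * c) := by
    rw [Algebra.smul_def, map_mul]; ring
  rw [h2]
  exact add_mem (sq_le_relSub h1) (algebraMap_mem_relSub _)

/-- The `k`-vector space structure on the relative cotangent space. -/
@[reducible] noncomputable def relCotModule
    (hres : Function.Surjective (residue D ∘ algebraMap 𝒪 D)) :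
    Module (ResidueField 𝒪) (RelCot 𝒪 D) :=
  (relCot_isTorsionBySet hres).module

theorem residue_smul_mk (hres : Function.Surjective (residue D ∘ algebraMap 𝒪 D)) (c : 𝒪)
    (d : D) :
    letI := relCotModule hres
    (residue 𝒪 c) • (Submodule.Quotient.mk d : RelCot 𝒪 D) =
      (Submodule.Quotient.mk (c • d) : RelCot 𝒪 D) :=
  rfl

theorem mk_mul (hres : Function.Surjective (residue D ∘ algebraMap 𝒪 D)) (d d' : D) :
    letI := relCotModule hres
    (Submodule.Quotient.mk (d * d') : RelCot 𝒪 D) =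
      aug hres d • (Submodule.Quotient.mk d' : RelCot 𝒪 D) +
        aug hres d' • (Submodule.Quotient.mk d : RelCot 𝒪 D) := by
  letI := relCotModule hres
  obtain ⟨c, hc⟩ := exists_scalar_sub_mem hres d
  obtain ⟨c', hc'⟩ := exists_scalar_sub_mem hres d'
  rw [aug_eq_residue_of_sub_mem hres hc, aug_eq_residue_of_sub_mem hres hc',
    residue_smul_mk, residue_smul_mk, ← Submodule.Quotient.mk_add, Submodule.Quotient.eq]
  exact mul_sub_mem_relSub hc hc'

end Cot

section Hom

variable {𝒪 : Type} [CommRing 𝒪] [IsLocalRing 𝒪]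
variable {D : Type} [CommRing D] [IsLocalRing D] [Algebra 𝒪 D] [IsLocalHom (algebraMap 𝒪 D)]

theorem mk_one_eq_zero : (Submodule.Quotient.mk (1 : D) : RelCot 𝒪 D) = 0 := by
  rw [Submodule.Quotient.mk_eq_zero]
  simpa using algebraMap_mem_relSub (𝒪 := 𝒪) (D := D) 1

theorem mk_algebraMap_eq_zero (c : 𝒪) :
    (Submodule.Quotient.mk (algebraMap 𝒪 D c) : RelCot 𝒪 D) = 0 := by
  rw [Submodule.Quotient.mk_eq_zero]
  exact algebraMap_mem_relSub c

/-- The `𝒪`-algebra homomorphism `D → k[ε]` attached to a functional on the relative cotangent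
space. -/
noncomputable def tangentHom (hres : Function.Surjective (residue D ∘ algebraMap 𝒪 D))
    (μ : letI := relCotModule hres; Module.Dual (ResidueField 𝒪) (RelCot 𝒪 D)) :
    letI := dualNumberAlgebra 𝒪
    D →ₐ[𝒪] DualNumber (ResidueField 𝒪) :=
  letI := dualNumberAlgebra 𝒪
  letI := relCotModule hres
  { toFun := fun d =>
      TrivSqZeroExt.inl (aug hres d) + TrivSqZeroExt.inr (μ (Submodule.Quotient.mk d))
    map_one' := by
      simp [mk_one_eq_zero]
    map_mul' := by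
      intro d d'
      rw [mk_mul hres d d']
      ext <;> simp
      ring
    map_zero' := by
      simp
    map_add' := by
      intro d d'
      ext <;> simp
    commutes' := by
      intro c
      rw [mk_algebraMap_eq_zero, aug_algebraMap]
      simp
      rfl }

theorem tangentHom_snd (hres : Function.Surjective (residue D ∘ algebraMap 𝒪 D))
    (μ : letI := relCotModule hres; Module.Dual (ResidueField 𝒪) (RelCot 𝒪 D)) (d : D) :
    (tangentHom hres μ d).snd = μ (Submodule.Quotient.mk d) := by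
  simp [tangentHom]

theorem tangentHom_injective (hres : Function.Surjective (residue D ∘ algebraMap 𝒪 D)) :
    Function.Injective (tangentHom (𝒪 := 𝒪) (D := D) hres) := by
  letI := relCotModule hres
  intro μ μ' h
  refine LinearMap.ext fun v => ?_
  obtain ⟨d, rfl⟩ := Submodule.Quotient.mk_surjective _ v
  rw [← tangentHom_snd hres μ d, ← tangentHom_snd hres μ' d, h]

theorem finite_dualNumber_residueField [Finite (ResidueField 𝒪)] :
    Finite (DualNumber (ResidueField 𝒪)) :=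
  inferInstanceAs (Finite (ResidueField 𝒪 × ResidueField 𝒪))

theorem card_relCot_le [Finite (ResidueField 𝒪)] [Finite D]
    (hres : Function.Surjective (residue D ∘ algebraMap 𝒪 D)) :
    letI := dualNumberAlgebra 𝒪
    Nat.card (RelCot 𝒪 D) ≤ Nat.card (D →ₐ[𝒪] DualNumber (ResidueField 𝒪)) := by
  letI := dualNumberAlgebra 𝒪
  letI := relCotModule hres
  haveI : Finite (RelCot 𝒪 D) := Finite.of_surjective _ (Submodule.Quotient.mk_surjective _)
  haveI := finite_dualNumber_residueField (𝒪 := 𝒪)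
  haveI : Finite (D →ₐ[𝒪] DualNumber (ResidueField 𝒪)) :=
    Finite.of_injective (fun f => (f : D → DualNumber (ResidueField 𝒪))) DFunLike.coe_injective
  have b := Module.finBasis (ResidueField 𝒪) (RelCot 𝒪 D)
  rw [Nat.card_congr b.toDualEquiv.toEquiv]
  exact Nat.card_le_card_of_injective _ (tangentHom_injective hres)

end Hom

section Gen

variable {𝒪 : Type} [CommRing 𝒪] [IsLocalRing 𝒪]
variable {D : Type} [CommRing D] [IsLocalRing D] [Algebra 𝒪 D] [IsLocalHom (algebraMap 𝒪 D)]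

theorem exists_fin_surjective {V : Type} [Finite V] [Nonempty V] (N : ℕ) (hN : Nat.card V ≤ N) :
    ∃ g : Fin N → V, Function.Surjective g := by
  classical
  let e := Finite.equivFin V
  let v₀ : V := Classical.arbitrary V
  refine ⟨fun i => if h : i.val < Nat.card V then e.symm ⟨i.val, h⟩ else v₀, fun v => ?_⟩
  refine ⟨⟨(e v).val, lt_of_lt_of_le (e v).isLt hN⟩, ?_⟩
  simp

/-- Lifts to `m_D` of a family covering the relative cotangent space. -/
theorem exists_gens [Finite D] (hres : Function.Surjective (residue D ∘ algebraMap 𝒪 D)) (N : ℕ)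
    (hN : Nat.card (RelCot 𝒪 D) ≤ N) :
    ∃ x : Fin N → D, (∀ i, x i ∈ maximalIdeal D) ∧
      ∀ d : D, ∃ i, ∃ c : 𝒪, d - (x i + algebraMap 𝒪 D c) ∈ maximalIdeal D ^ 2 := by
  haveI : Finite (RelCot 𝒪 D) := Finite.of_surjective _ (Submodule.Quotient.mk_surjective _)
  obtain ⟨g, hg⟩ := exists_fin_surjective (V := RelCot 𝒪 D) N hN
  have h1 : ∀ i, ∃ y : D, y ∈ maximalIdeal D ∧ (Submodule.Quotient.mk y : RelCot 𝒪 D) = g i := by
    intro i
    obtain ⟨d, hd⟩ := Submodule.Quotient.mk_surjective _ (g i)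
    obtain ⟨c, hc⟩ := exists_scalar_sub_mem hres d
    refine ⟨d - algebraMap 𝒪 D c, hc, ?_⟩
    rw [Submodule.Quotient.mk_sub, mk_algebraMap_eq_zero, sub_zero, hd]
  choose x hx1 hx2 using h1
  refine ⟨x, hx1, fun d => ?_⟩
  obtain ⟨i, hi⟩ := hg (Submodule.Quotient.mk d)
  have h2 : d - x i ∈ relSub 𝒪 D := by
    rw [← Submodule.Quotient.mk_eq_zero, Submodule.Quotient.mk_sub, hx2, hi, sub_self]
  obtain ⟨s, hs, c, hsc⟩ := mem_relSub_iff.1 h2
  refine ⟨i, c, ?_⟩
  have : d - (x i + algebraMap 𝒪 D c) = s := by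
    rw [← sub_sub, ← hsc]; ring
  rw [this]; exact hs

theorem aeval_surjective (hres : Function.Surjective (residue D ∘ algebraMap 𝒪 D)) (j : ℕ)
    (hj : maximalIdeal D ^ (j + 1) = ⊥) {N : ℕ} (x : Fin N → D)
    (hx : ∀ d : D, ∃ i, ∃ c : 𝒪, d - (x i + algebraMap 𝒪 D c) ∈ maximalIdeal D ^ 2) :
    Function.Surjective (MvPolynomial.aeval x : MvPolynomial (Fin N) 𝒪 →ₐ[𝒪] D) := by
  set ψ : MvPolynomial (Fin N) 𝒪 →ₐ[𝒪] D := MvPolynomial.aeval x with hψ
  have hS1 : ∀ d : D, ∃ n ∈ ψ.range, d - n ∈ maximalIdeal D ^ 2 := by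
    intro d
    obtain ⟨i, c, h⟩ := hx d
    refine ⟨x i + algebraMap 𝒪 D c, add_mem ⟨MvPolynomial.X i, ?_⟩ (Subalgebra.algebraMap_mem _ c), h⟩
    simp [hψ]
  have hP : ∀ i : ℕ, ∀ u ∈ maximalIdeal D ^ i, ∃ u' ∈ ψ.range, u - u' ∈ maximalIdeal D ^ (i + 1) := by
    intro i
    induction i with
    | zero =>
      intro u _
      obtain ⟨c, hc⟩ := exists_scalar_sub_mem hres u
      exact ⟨algebraMap 𝒪 D c, Subalgebra.algebraMap_mem _ c, by simpa using hc⟩
    | succ i ih =>
      intro u hu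
      rw [pow_succ, ← Ideal.smul_eq_mul] at hu
      refine Submodule.smul_induction_on hu ?_ ?_
      · intro r hr n hn
        obtain ⟨r', hr'S, hr'⟩ := ih r hr
        obtain ⟨n', hn'S, hn'⟩ := hS1 n
        refine ⟨r' * n', mul_mem hr'S hn'S, ?_⟩
        have hr'mem : r' ∈ maximalIdeal D ^ i := by
          have := sub_mem hr (Ideal.pow_le_pow_right (Nat.le_succ i) hr')
          simpa using this
        have e1 : r • n - r' * n' = (r - r') * n + r' * (n - n') := by
          rw [smul_eq_mul]; ring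
        rw [e1]
        refine add_mem ?_ ?_
        · rw [pow_succ (maximalIdeal D) (i + 1)]
          exact Ideal.mul_mem_mul hr' hn
        · rw [show i + 1 + 1 = i + 2 from rfl, pow_add]
          exact Ideal.mul_mem_mul hr'mem hn'
      · rintro a b ⟨a', ha'S, ha'⟩ ⟨b', hb'S, hb'⟩
        refine ⟨a' + b', add_mem ha'S hb'S, ?_⟩
        have : a + b - (a' + b') = (a - a') + (b - b') := by ring
        rw [this]
        exact add_mem ha' hb'
  have hQ : ∀ l i : ℕ, i + l = j + 1 → ∀ u ∈ maximalIdeal D ^ i, u ∈ ψ.range := by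
    intro l
    induction l with
    | zero =>
      intro i hi u hu
      rw [add_zero] at hi
      rw [hi, hj, Ideal.mem_bot] at hu
      rw [hu]; exact zero_mem _
    | succ l ih =>
      intro i hi u hu
      obtain ⟨u', hu'S, hu'⟩ := hP i u hu
      have := ih (i + 1) (by omega) _ hu'
      have e : u = u' + (u - u') := by ring
      rw [e]
      exact add_mem hu'S this
  intro d
  have := hQ (j + 1) 0 (by omega) d (by simp)
  exact this

end Gen

section Poly

variable (𝒪 : Type) [CommRing 𝒪] [IsLocalRing 𝒪]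

/-- The augmentation `𝒪[X₁, …, X_N] → k`, `X_i ↦ 0`. -/
noncomputable def polyAug (N : ℕ) : MvPolynomial (Fin N) 𝒪 →+* ResidueField 𝒪 :=
  (residue 𝒪).comp MvPolynomial.constantCoeff

variable {𝒪}
variable {D : Type} [CommRing D] [IsLocalRing D] [Algebra 𝒪 D] [IsLocalHom (algebraMap 𝒪 D)]

theorem aug_aeval (hres : Function.Surjective (residue D ∘ algebraMap 𝒪 D)) {N : ℕ}
    (x : Fin N → D) (hx : ∀ i, x i ∈ maximalIdeal D) (r : MvPolynomial (Fin N) 𝒪) :
    aug hres (MvPolynomial.aeval x r) = polyAug 𝒪 N r := by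
  have h : (aug hres).comp (MvPolynomial.aeval x : MvPolynomial (Fin N) 𝒪 →ₐ[𝒪] D).toRingHom =
      polyAug 𝒪 N := by
    apply MvPolynomial.ringHom_ext
    · intro c
      simp [polyAug, aug_algebraMap]
    · intro i
      simp [polyAug, (aug_eq_zero_iff hres _).2 (hx i)]
  exact RingHom.congr_fun h r

theorem ker_pow_le_ker (hres : Function.Surjective (residue D ∘ algebraMap 𝒪 D)) (j : ℕ)
    (hj : maximalIdeal D ^ (j + 1) = ⊥) {N : ℕ} (x : Fin N → D)
    (hx : ∀ i, x i ∈ maximalIdeal D) :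
    RingHom.ker (polyAug 𝒪 N) ^ (j + 1) ≤
      RingHom.ker (MvPolynomial.aeval x : MvPolynomial (Fin N) 𝒪 →ₐ[𝒪] D).toRingHom := by
  have h1 : RingHom.ker (polyAug 𝒪 N) ≤
      (maximalIdeal D).comap (MvPolynomial.aeval x : MvPolynomial (Fin N) 𝒪 →ₐ[𝒪] D).toRingHom := by
    intro r hr
    rw [RingHom.mem_ker] at hr
    rw [Ideal.mem_comap]
    have := aug_aeval hres x hx r
    rw [hr] at this
    exact (aug_eq_zero_iff hres _).1 this
  refine (Ideal.pow_right_mono h1 (j + 1)).trans ?_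
  refine (Ideal.le_comap_pow _ (j + 1)).trans ?_
  rw [hj]
  exact le_of_eq rfl

end Poly

end H55

/-- If `D` is a finite local `𝒪`-algebra with residue field `k`, `m_D ^ (j+1) = 0` and at most
`N` `𝒪`-algebra homomorphisms to `k[ε]`, then `|D| ≤ B`, where `B` only depends on `N` and `j`.
(Proof: `Hom(D, k[ε]) ≅ Hom_k(m_D/(m_D^2 + m_𝒪 D), k)`, so the relative cotangent space has at
most `N` elements; lifts of them generate `D` as an `𝒪`-algebra, so `D` is a quotient of
`MvPolynomial (Fin N) 𝒪 ⧸ (m_𝒪, X) ^ (j+1)`, which is finite by `Ideal.finite_quotient_pow`.) -/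
theorem exists_card_bound (𝒪 : Type) [CommRing 𝒪] [IsDomain 𝒪] [IsDiscreteValuationRing 𝒪]
    [Finite (ResidueField 𝒪)] (N j : ℕ) :
    ∃ B : ℕ, ∀ (D : Type) [CommRing D] [IsLocalRing D] [Algebra 𝒪 D]
      [IsLocalHom (algebraMap 𝒪 D)] [Finite D],
      Function.Surjective (residue D ∘ algebraMap 𝒪 D) → maximalIdeal D ^ (j + 1) = ⊥ →
      (letI := dualNumberAlgebra 𝒪
       Nat.card (D →ₐ[𝒪] DualNumber (ResidueField 𝒪)) ≤ N) → Nat.card D ≤ B := by
  classical
  haveI : Finite (MvPolynomial (Fin N) 𝒪 ⧸ RingHom.ker (H55.polyAug 𝒪 N)) :=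
    Finite.of_injective _ (RingHom.kerLift_injective (H55.polyAug 𝒪 N))
  have hFG : (RingHom.ker (H55.polyAug 𝒪 N)).FG := IsNoetherian.noetherian _
  haveI : Finite (MvPolynomial (Fin N) 𝒪 ⧸ RingHom.ker (H55.polyAug 𝒪 N) ^ (j + 1)) :=
    Ideal.finite_quotient_pow hFG (j + 1)
  refine ⟨Nat.card (MvPolynomial (Fin N) 𝒪 ⧸ RingHom.ker (H55.polyAug 𝒪 N) ^ (j + 1)), ?_⟩
  intro D _ _ _ _ _ hres hj hN
  have h1 : Nat.card (H55.RelCot 𝒪 D) ≤ N := le_trans (H55.card_relCot_le hres) hN
  obtain ⟨x, hx1, hx2⟩ := H55.exists_gens hres N h1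
  have hsurj := H55.aeval_surjective hres j hj x hx2
  have hker := H55.ker_pow_le_ker hres j hj x hx1
  have hs : Function.Surjective (Ideal.Quotient.lift (RingHom.ker (H55.polyAug 𝒪 N) ^ (j + 1))
      (MvPolynomial.aeval x : MvPolynomial (Fin N) 𝒪 →ₐ[𝒪] D).toRingHom
      (fun a ha => hker ha)) :=
    Ideal.Quotient.lift_surjective_of_surjective _ _ hsurj
  exact Nat.card_le_card_of_surjective _ hs

end Fermat.Agent.S53
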