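import Fermat.Agent.S53.Defs

set_option autoImplicit false

/-!
# S53: dictionary between `GaloisRepAdic` / `ResidualGaloisRep` and matrix valued maps.
-/

namespace Fermat.Agent.S53

open IsLocalRing
open scoped TensorProduct

section General

variable {R : Type} [CommRing R] {V V' : Type} [AddCommGroup V] [Module R V]
  [AddCommGroup V'] [Module R V']

/-- The matrix valued homomorphism attached to a representation and a basis. -/
noncomputable def matHom (b : Module.Basis (Fin 2) R V) (ρ : GQ →* Module.End R V) :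
    GQ →* M2 R where
  toFun σ := LinearMap.toMatrix b b (ρ σ)
  map_one' := by rw [map_one]; exact LinearMap.toMatrix_one b
  map_mul' σ τ := by rw [map_mul]; exact LinearMap.toMatrix_mul b _ _

@[simp] theorem matHom_apply (b : Module.Basis (Fin 2) R V) (ρ : GQ →* Module.End R V) (σ : GQ) :
    matHom b ρ σ = LinearMap.toMatrix b b (ρ σ) := rfl

/-- Coordinates of elements of `I • ⊤` lie in `I`. -/
theorem repr_mem_of_mem_smul_top (b : Module.Basis (Fin 2) R V) (I : Ideal R) {x : V}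
    (hx : x ∈ I • (⊤ : Submodule R V)) (i : Fin 2) : b.repr x i ∈ I := by
  refine Submodule.smul_induction_on hx ?_ ?_
  · intro a ha v _
    rw [map_smul, Finsupp.smul_apply, smul_eq_mul]
    exact Ideal.mul_mem_right _ _ ha
  · intro x y hx hy
    rw [map_add, Finsupp.add_apply]
    exact Ideal.add_mem _ hx hy

/-- Equivalence of representations in terms of matrices. -/
theorem exists_equiv_iff_exists_conj (b : Module.Basis (Fin 2) R V)
    (b' : Module.Basis (Fin 2) R V') (ρ : GQ → Module.End R V) (ρ' : GQ → Module.End R V') :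
    (∃ e : V ≃ₗ[R] V', ∀ σ x, e (ρ σ x) = ρ' σ (e x)) ↔
      ∃ g : (M2 R)ˣ, ∀ σ, (g : M2 R) * LinearMap.toMatrix b b (ρ σ) =
        LinearMap.toMatrix b' b' (ρ' σ) * g := by
  constructor
  · rintro ⟨e, he⟩
    have h1 : LinearMap.toMatrix b b' (e : V →ₗ[R] V') *
        LinearMap.toMatrix b' b (e.symm : V' →ₗ[R] V) = 1 := by
      rw [← LinearMap.toMatrix_comp b' b b']
      simp
    have h2 : LinearMap.toMatrix b' b (e.symm : V' →ₗ[R] V) *
        LinearMap.toMatrix b b' (e : V →ₗ[R] V') = 1 := by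
      rw [← LinearMap.toMatrix_comp b b' b]
      simp
    refine ⟨⟨_, _, h1, h2⟩, fun σ => ?_⟩
    show LinearMap.toMatrix b b' (e : V →ₗ[R] V') * LinearMap.toMatrix b b (ρ σ) =
      LinearMap.toMatrix b' b' (ρ' σ) * LinearMap.toMatrix b b' (e : V →ₗ[R] V')
    rw [← LinearMap.toMatrix_comp b b b', ← LinearMap.toMatrix_comp b b' b']
    congr 1
    ext x
    exact he σ x
  · rintro ⟨g, hg⟩
    have h1 : (Matrix.toLin b b' (g : M2 R)).comp (Matrix.toLin b' b ((g⁻¹ : (M2 R)ˣ) : M2 R)) =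
        LinearMap.id := by
      rw [← Matrix.toLin_mul b' b b', Units.mul_inv, Matrix.toLin_one]
    have h2 : (Matrix.toLin b' b ((g⁻¹ : (M2 R)ˣ) : M2 R)).comp (Matrix.toLin b b' (g : M2 R)) =
        LinearMap.id := by
      rw [← Matrix.toLin_mul b b' b, Units.inv_mul, Matrix.toLin_one]
    refine ⟨LinearEquiv.ofLinearMap _ _ h1 h2, fun σ x => ?_⟩
    show Matrix.toLin b b' (g : M2 R) (ρ σ x) = ρ' σ (Matrix.toLin b b' (g : M2 R) x)
    have e1 : (Matrix.toLin b b' (g : M2 R)).comp (ρ σ) = (ρ' σ).comp (Matrix.toLin b b' (g : M2 R)) := by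
      apply (LinearMap.toMatrix b b').injective
      rw [LinearMap.toMatrix_comp b b b', LinearMap.toMatrix_comp b b' b', LinearMap.toMatrix_toLin]
      exact hg σ
    exact congrArg (fun f => f x) e1

/-- Conjugating the matrices of a representation is a change of basis. -/
theorem exists_basis_conj (b : Module.Basis (Fin 2) R V) (g : (M2 R)ˣ) :
    ∃ b' : Module.Basis (Fin 2) R V, ∀ f : Module.End R V,
      LinearMap.toMatrix b' b' f = (g : M2 R) * LinearMap.toMatrix b b f * ((g⁻¹ : (M2 R)ˣ) : M2 R) := by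
  have h1 : (Matrix.toLin b b (g : M2 R)).comp (Matrix.toLin b b ((g⁻¹ : (M2 R)ˣ) : M2 R)) =
      LinearMap.id := by
    rw [← Matrix.toLin_mul b b b, Units.mul_inv, Matrix.toLin_one]
  have h2 : (Matrix.toLin b b ((g⁻¹ : (M2 R)ˣ) : M2 R)).comp (Matrix.toLin b b (g : M2 R)) =
      LinearMap.id := by
    rw [← Matrix.toLin_mul b b b, Units.inv_mul, Matrix.toLin_one]
  -- `e = g⁻¹` as a linear equivalence
  let e : V ≃ₗ[R] V := LinearEquiv.ofLinearMap _ _ h2 h1
  refine ⟨b.map e, fun f => ?_⟩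
  have key : LinearMap.toMatrix (b.map e) (b.map e) f =
      LinearMap.toMatrix b b ((e.symm : V →ₗ[R] V).comp (f.comp (e : V →ₗ[R] V))) := by
    ext i j
    simp [LinearMap.toMatrix_apply]
  rw [key, LinearMap.toMatrix_comp b b b, LinearMap.toMatrix_comp b b b]
  have he : LinearMap.toMatrix b b (e : V →ₗ[R] V) = ((g⁻¹ : (M2 R)ˣ) : M2 R) :=
    LinearMap.toMatrix_toLin b b _
  have he' : LinearMap.toMatrix b b (e.symm : V →ₗ[R] V) = (g : M2 R) :=
    LinearMap.toMatrix_toLin b b _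
  rw [he, he', mul_assoc]

end General

section Adic

variable {A : Type} [CommRing A] [IsLocalRing A]

theorem exists_isMatOf (ρ : GaloisRepAdic A) : ∃ r : GQ →* M2 A, IsMatOf ρ r :=
  ⟨matHom (Module.finBasisOfFinrankEq A ρ.V ρ.finrank_eq) ρ.ρ,
    Module.finBasisOfFinrankEq A ρ.V ρ.finrank_eq, fun _ => rfl⟩

theorem IsMatOf.matCont {ρ : GaloisRepAdic A} {r : GQ → M2 A} (h : IsMatOf ρ r) : MatCont r := by
  obtain ⟨b, hb⟩ := h
  intro n
  obtain ⟨L, hL, h1⟩ := ρ.isAdicContinuous n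
  refine ⟨L, hL, fun σ hσ i j => ?_⟩
  have := repr_mem_of_mem_smul_top b _ (h1 σ hσ (b j)) i
  rw [← hb σ, Matrix.sub_apply, LinearMap.toMatrix_apply, Matrix.one_apply]
  rw [map_sub, Finsupp.sub_apply, Module.Basis.repr_self, Finsupp.single_apply] at this
  simpa [eq_comm] using this

theorem isMatOf_ofMat (r : GQ →* M2 A) (h : MatCont r) : IsMatOf (ofMat r h) r := by
  refine ⟨Pi.basisFun A (Fin 2), fun σ => ?_⟩
  show LinearMap.toMatrix (Pi.basisFun A (Fin 2)) (Pi.basisFun A (Fin 2))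
    (Matrix.toLinAlgEquiv' (r σ)) = r σ
  rw [LinearMap.toMatrix_eq_toMatrix']
  exact LinearMap.toMatrix'_toLin' (r σ)

theorem IsMatOf.baseChangeAlong {B : Type} [CommRing B] [IsLocalRing B] (φ : A →+* B)
    (hφ : IsLocalHom φ) {ρ : GaloisRepAdic A} {r : GQ → M2 A} (h : IsMatOf ρ r) :
    IsMatOf (ρ.baseChangeAlong φ hφ) (fun σ => (r σ).map φ) := by
  obtain ⟨b, hb⟩ := h
  let _ : Algebra A B := φ.toAlgebra
  refine ⟨Algebra.TensorProduct.basis B b, fun σ => ?_⟩
  show LinearMap.toMatrix (Algebra.TensorProduct.basis B b) (Algebra.TensorProduct.basis B b)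
    ((ρ.ρ σ).baseChange B) = (r σ).map φ
  rw [LinearMap.toMatrix_baseChange, hb σ]
  rfl

theorem IsMatOf.isEquiv_iff {ρ ρ' : GaloisRepAdic A} {r r' : GQ → M2 A}
    (h : IsMatOf ρ r) (h' : IsMatOf ρ' r') :
    ρ.IsEquiv ρ' ↔ ∃ g : (M2 A)ˣ, ∀ σ, (g : M2 A) * r σ = r' σ * g := by
  obtain ⟨b, hb⟩ := h
  obtain ⟨b', hb'⟩ := h'
  have key := exists_equiv_iff_exists_conj b b' (fun σ => ρ.ρ σ) (fun σ => ρ'.ρ σ)
  simp only [hb, hb'] at key
  rw [← key]
  constructor
  · rintro ⟨e⟩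
    exact ⟨e.toLinearEquiv, e.map_apply⟩
  · rintro ⟨e, he⟩
    exact ⟨⟨e, he⟩⟩

theorem IsMatOf.conj {ρ : GaloisRepAdic A} {r : GQ → M2 A} (h : IsMatOf ρ r) (g : (M2 A)ˣ) :
    IsMatOf ρ (fun σ => (g : M2 A) * r σ * ((g⁻¹ : (M2 A)ˣ) : M2 A)) := by
  obtain ⟨b, hb⟩ := h
  obtain ⟨b', hb'⟩ := exists_basis_conj b g
  exact ⟨b', fun σ => by rw [hb', hb]⟩

theorem IsMatOf.residual {ρ : GaloisRepAdic A} {r : GQ → M2 A} (h : IsMatOf ρ r) :
    IsMatOfRes ρ.residual (fun σ => (r σ).map (residue A)) := by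
  obtain ⟨b, hb⟩ := h
  refine ⟨Algebra.TensorProduct.basis (ResidueField A) b, fun σ => ?_⟩
  show LinearMap.toMatrix (Algebra.TensorProduct.basis (ResidueField A) b)
    (Algebra.TensorProduct.basis (ResidueField A) b)
    ((ρ.ρ σ).baseChange (ResidueField A)) = (r σ).map (residue A)
  rw [LinearMap.toMatrix_baseChange, hb σ]
  rfl

end Adic

section Residual

variable {k : Type} [Field k]

theorem exists_isMatOfRes (ρ : ResidualGaloisRep k) : ∃ r : GQ →* M2 k, IsMatOfRes ρ r :=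
  ⟨matHom (Module.finBasisOfFinrankEq k ρ.V ρ.finrank_eq) ρ.ρ,
    Module.finBasisOfFinrankEq k ρ.V ρ.finrank_eq, fun _ => rfl⟩

theorem IsMatOfRes.baseChange (k' : Type) [Field k'] [Algebra k k']
    {ρ : ResidualGaloisRep k} {r : GQ → M2 k} (h : IsMatOfRes ρ r) :
    IsMatOfRes (ρ.baseChange k') (fun σ => (r σ).map (algebraMap k k')) := by
  obtain ⟨b, hb⟩ := h
  refine ⟨Algebra.TensorProduct.basis k' b, fun σ => ?_⟩
  show LinearMap.toMatrix (Algebra.TensorProduct.basis k' b) (Algebra.TensorProduct.basis k' b)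
    ((ρ.ρ σ).baseChange k') = (r σ).map (algebraMap k k')
  rw [LinearMap.toMatrix_baseChange, hb σ]

theorem IsMatOfRes.baseChangeAlong {k' : Type} [Field k'] (ψ : k →+* k')
    {ρ : ResidualGaloisRep k} {r : GQ → M2 k} (h : IsMatOfRes ρ r) :
    IsMatOfRes (ρ.baseChangeAlong ψ) (fun σ => (r σ).map ψ) := by
  let _ : Algebra k k' := ψ.toAlgebra
  exact IsMatOfRes.baseChange k' h

theorem IsMatOfRes.isEquiv_iff {ρ ρ' : ResidualGaloisRep k} {r r' : GQ → M2 k}
    (h : IsMatOfRes ρ r) (h' : IsMatOfRes ρ' r') :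
    ρ.IsEquiv ρ' ↔ ∃ g : (M2 k)ˣ, ∀ σ, (g : M2 k) * r σ = r' σ * g := by
  obtain ⟨b, hb⟩ := h
  obtain ⟨b', hb'⟩ := h'
  have key := exists_equiv_iff_exists_conj b b' (fun σ => ρ.ρ σ) (fun σ => ρ'.ρ σ)
  simp only [hb, hb'] at key
  rw [← key]
  constructor
  · rintro ⟨e⟩
    exact ⟨e.toLinearEquiv, e.map_apply⟩
  · rintro ⟨e, he⟩
    exact ⟨⟨e, he⟩⟩

end Residual

section Lift

variable {A : Type} [CommRing A] [IsLocalRing A]

/-- A matrix over a local ring whose reduction is invertible is invertible. -/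
theorem isUnit_of_isUnit_map_residue (g : M2 A) (hg : IsUnit (g.map (residue A))) : IsUnit g := by
  rw [Matrix.isUnit_iff_isUnit_det] at hg ⊢
  have h : (g.map (residue A)).det = residue A g.det := by
    rw [← RingHom.mapMatrix_apply, ← RingHom.map_det]
  rw [h] at hg
  exact isUnit_of_map_unit (residue A) _ hg

/-- Every matrix over the residue field lifts. -/
theorem exists_map_residue_eq (gbar : M2 (ResidueField A)) :
    ∃ g : M2 A, g.map (residue A) = gbar := by
  choose f hf using fun i j => IsLocalRing.residue_surjective (R := A) (gbar i j)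
  exact ⟨Matrix.of f, by ext i j; exact hf i j⟩

/-- Conjugation of a matrix valued homomorphism by a unit. -/
noncomputable def conjHom (g : (M2 A)ˣ) (r : GQ →* M2 A) : GQ →* M2 A where
  toFun σ := (g : M2 A) * r σ * ((g⁻¹ : (M2 A)ˣ) : M2 A)
  map_one' := by rw [map_one, mul_one, Units.mul_inv]
  map_mul' σ τ := by
    rw [map_mul]
    simp only [mul_assoc, Units.inv_mul_cancel_left]

omit [IsLocalRing A] in
@[simp] theorem conjHom_apply (g : (M2 A)ˣ) (r : GQ →* M2 A) (σ : GQ) :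
    conjHom g r σ = (g : M2 A) * r σ * ((g⁻¹ : (M2 A)ˣ) : M2 A) := rfl

variable {𝒪 : Type} [CommRing 𝒪] [IsLocalRing 𝒪]
variable [Algebra 𝒪 A] [IsLocalHom (algebraMap 𝒪 A)]

/-- A representation whose residual representation is equivalent to the base change of `ρbar`
has a matrix form which is a strict lift of a given matrix form `rbar` of `ρbar`. -/
theorem exists_isLift_of_residual_isEquiv {ρbar : ResidualGaloisRep (ResidueField 𝒪)}
    {rbar : GQ → M2 (ResidueField 𝒪)} (hbar : IsMatOfRes ρbar rbar) (ρ : GaloisRepAdic A)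
    (h : ρ.residual.IsEquiv (ρbar.baseChangeAlong (ResidueField.map (algebraMap 𝒪 A)))) :
    ∃ r : GQ →* M2 A, IsMatOf ρ r ∧ IsLift 𝒪 rbar r := by
  obtain ⟨r₀, hr₀⟩ := exists_isMatOf ρ
  obtain ⟨gbar, hgbar⟩ := (IsMatOfRes.isEquiv_iff hr₀.residual
    (hbar.baseChangeAlong (ResidueField.map (algebraMap 𝒪 A)))).mp h
  obtain ⟨g₀, hg₀⟩ := exists_map_residue_eq (gbar : M2 (ResidueField A))
  have hu : IsUnit g₀ := isUnit_of_isUnit_map_residue g₀ (hg₀ ▸ gbar.isUnit)
  obtain ⟨g, rfl⟩ := hu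
  refine ⟨conjHom g r₀, hr₀.conj g, fun σ => ?_⟩
  have hinv : (gbar : M2 (ResidueField A)) * (((g⁻¹ : (M2 A)ˣ) : M2 A).map (residue A)) = 1 := by
    rw [← hg₀, ← RingHom.mapMatrix_apply, ← RingHom.mapMatrix_apply, ← map_mul, Units.mul_inv,
      map_one]
  rw [conjHom_apply, ← RingHom.mapMatrix_apply, map_mul, map_mul, RingHom.mapMatrix_apply,
    RingHom.mapMatrix_apply, RingHom.mapMatrix_apply, hg₀, hgbar σ, mul_assoc, hinv, mul_one]

theorem residual_isEquiv_of_isLift {ρbar : ResidualGaloisRep (ResidueField 𝒪)}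
    {rbar : GQ → M2 (ResidueField 𝒪)} (hbar : IsMatOfRes ρbar rbar) {ρ : GaloisRepAdic A}
    {r : GQ → M2 A} (h : IsMatOf ρ r) (hl : IsLift 𝒪 rbar r) :
    ρ.residual.IsEquiv (ρbar.baseChangeAlong (ResidueField.map (algebraMap 𝒪 A))) := by
  refine (IsMatOfRes.isEquiv_iff h.residual
    (hbar.baseChangeAlong (ResidueField.map (algebraMap 𝒪 A)))).mpr ⟨1, fun σ => ?_⟩
  rw [Units.val_one, one_mul, mul_one]
  exact hl σ

end Lift

end Fermat.Agent.S53
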