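import Mathlib

set_option autoImplicit false
set_option linter.unusedSimpArgs false
set_option linter.unusedVariables false

/-!
# S53: normal forms of pairs of `2 × 2` matrices over a local ring (pure matrix algebra)

* `scalar_of_intertwines`: rigidity of normalized pairs.
* `exists_conj_normalized`: existence of the normal form over a Henselian local ring.
-/

namespace Fermat.Agent.S53.NormMat

open Matrix IsLocalRing Polynomial

variable {A : Type*} [CommRing A]

/-- If `T X = X' T` where both `X` and `X'` send `e₁` to `e₂`, then `T = a + b X'`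
with `a = T 0 0`, `b = T 1 0`. -/
theorem eq_add_smul_of_comm (X X' T : Matrix (Fin 2) (Fin 2) A)
    (hX0 : X 0 0 = 0) (hX1 : X 1 0 = 1) (hX0' : X' 0 0 = 0) (hX1' : X' 1 0 = 1)
    (h : T * X = X' * T) :
    T = T 0 0 • (1 : Matrix (Fin 2) (Fin 2) A) + T 1 0 • X' := by
  have h0 := congrFun (congrFun h 0) 0
  have h1 := congrFun (congrFun h 1) 0
  simp only [Matrix.mul_apply, Fin.sum_univ_two, hX0, hX1, hX0', hX1'] at h0 h1
  ext i j
  fin_cases i <;> fin_cases j
  · simp [hX0']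
  · simp; linear_combination h0
  · simp [hX1']
  · simp; linear_combination h1

variable [IsLocalRing A]

omit [IsLocalRing A] in
theorem isUnit_of_sub_mem_of_isUnit [IsLocalRing A] {x y : A} (h : x - y ∈ maximalIdeal A)
    (hy : IsUnit y) : IsUnit x := by
  by_contra hnu
  have hm : x ∈ maximalIdeal A := (mem_maximalIdeal _).mpr hnu
  have : y ∈ maximalIdeal A := by
    have := sub_mem hm h
    simpa using this
  exact ((mem_maximalIdeal _).mp this) hy

/-- Rigidity: two normalised pairs `(X, Y)`, `(X', Y')` (with `X e₁ = e₂ = X' e₁`, `Y ≡ Y'` modulo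
the maximal ideal, one common entry `Y i₀ j₀ = Y' i₀ j₀` at which the commutator `[Y', X']` is a
unit) can only be intertwined by a scalar matrix. -/
theorem scalar_of_intertwines (X X' Y Y' T : Matrix (Fin 2) (Fin 2) A)
    (hX0 : X 0 0 = 0) (hX1 : X 1 0 = 1) (hX0' : X' 0 0 = 0) (hX1' : X' 1 0 = 1)
    (i₀ j₀ : Fin 2) (hY : ∀ i j, Y i j - Y' i j ∈ maximalIdeal A)
    (hN2 : Y i₀ j₀ = Y' i₀ j₀)
    (hu : IsUnit ((Y' * X' - X' * Y') i₀ j₀))
    (hTX : T * X = X' * T) (hTY : T * Y = Y' * T) :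
    T = T 0 0 • (1 : Matrix (Fin 2) (Fin 2) A) := by
  have hT := eq_add_smul_of_comm X X' T hX0 hX1 hX0' hX1' hTX
  set a := T 0 0 with ha
  set b := T 1 0 with hb
  -- the key identity: a (Y - Y') = b (Y' X' - X' Y)
  have key : a • (Y - Y') = b • (Y' * X' - X' * Y) := by
    have h1 : T * Y - Y' * T = 0 := sub_eq_zero.mpr hTY
    rw [hT] at h1
    have : (a • (1 : Matrix (Fin 2) (Fin 2) A) + b • X') * Y - Y' * (a • 1 + b • X')
        = a • (Y - Y') - b • (Y' * X' - X' * Y) := by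
      simp only [add_mul, mul_add, smul_mul_assoc, mul_smul_comm, one_mul, mul_one, smul_sub]
      abel
    rw [this] at h1
    exact sub_eq_zero.mp h1
  have key00 := congrFun (congrFun key i₀) j₀
  simp only [Matrix.smul_apply, Matrix.sub_apply, smul_eq_mul, hN2, sub_self, mul_zero] at key00
  -- the entry `(Y' X' - X' Y) i₀ j₀` is a unit
  have hunit : IsUnit ((Y' * X' - X' * Y) i₀ j₀) := by
    refine isUnit_of_sub_mem_of_isUnit ?_ hu
    have : (Y' * X' - X' * Y) i₀ j₀ - (Y' * X' - X' * Y') i₀ j₀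
        = -(X' i₀ 0 * (Y 0 j₀ - Y' 0 j₀) + X' i₀ 1 * (Y 1 j₀ - Y' 1 j₀)) := by
      simp only [Matrix.sub_apply, Matrix.mul_apply, Fin.sum_univ_two]
      ring
    rw [this]
    exact neg_mem (add_mem (Ideal.mul_mem_left _ _ (hY 0 j₀)) (Ideal.mul_mem_left _ _ (hY 1 j₀)))
  have hb0 : b = 0 := by
    have h2 : b * (Y' * X' - X' * Y) i₀ j₀ = 0 := by
      have := key00.symm
      simpa [Matrix.sub_apply] using this
    exact (hunit.mul_left_eq_zero).mp h2
  rw [hT, hb0, zero_smul, add_zero]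

/-- Solving a quadratic equation with small constant term and invertible linear term in a
Henselian local ring. -/
theorem exists_root_quadratic [HenselianRing A (maximalIdeal A)] (p₀ p₁ p₂ : A)
    (h₀ : p₀ ∈ maximalIdeal A) (h₁ : IsUnit p₁) :
    ∃ b ∈ maximalIdeal A, p₀ + p₁ * b + p₂ * b ^ 2 = 0 := by
  obtain ⟨u, rfl⟩ := h₁
  set ε : A := p₂ * p₀ * (↑u⁻¹ : A) ^ 2 with hε
  have hεm : ε ∈ maximalIdeal A := by
    rw [hε]
    have : p₂ * p₀ * (↑u⁻¹ : A) ^ 2 = (p₂ * (↑u⁻¹ : A) ^ 2) * p₀ := by ring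
    rw [this]
    exact Ideal.mul_mem_left _ _ h₀
  -- the monic polynomial `w² - w + ε`
  let f : A[X] := X ^ 2 - X + C ε
  have hf : f.Monic := by
    have : f = X ^ 2 + (-(X : A[X]) + C ε) := by simp only [f]; ring
    rw [this]
    apply Polynomial.monic_X_pow_add
    have hdeg : (-(X : A[X]) + C ε).degree ≤ 1 := by
      refine (Polynomial.degree_add_le _ _).trans (max_le ?_ ?_)
      · rw [Polynomial.degree_neg]; exact Polynomial.degree_X_le
      · exact (Polynomial.degree_C_le).trans (by norm_num)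
    exact lt_of_le_of_lt hdeg (by norm_num)
  have hev : f.eval 1 ∈ maximalIdeal A := by
    simp only [f, eval_add, eval_sub, eval_pow, eval_X, eval_C]
    simpa using hεm
  have hder : IsUnit (Ideal.Quotient.mk (maximalIdeal A) (f.derivative.eval 1)) := by
    have : f.derivative.eval 1 = 1 := by
      simp only [f, derivative_add, derivative_sub, derivative_X_pow, derivative_X, derivative_C,
        eval_add, eval_sub, eval_mul, eval_pow, eval_X, eval_C, eval_one]
      norm_num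
    rw [this, map_one]
    exact isUnit_one
  obtain ⟨w, hw, hw1⟩ := HenselianRing.is_henselian f hf 1 hev hder
  have hwroot : w ^ 2 - w + ε = 0 := by
    have := hw
    simp only [f, IsRoot.def, eval_add, eval_sub, eval_pow, eval_X, eval_C] at this
    exact this
  have hwu : IsUnit w := isUnit_of_sub_mem_of_isUnit hw1 isUnit_one
  obtain ⟨v, rfl⟩ := hwu
  refine ⟨-(p₀ * (↑v⁻¹ : A) * (↑u⁻¹ : A)), ?_, ?_⟩
  · apply neg_mem
    have : p₀ * (↑v⁻¹ : A) * (↑u⁻¹ : A) = ((↑v⁻¹ : A) * (↑u⁻¹ : A)) * p₀ := by ring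
    rw [this]
    exact Ideal.mul_mem_left _ _ h₀
  · have hu1 : (u : A) * (↑u⁻¹ : A) = 1 := Units.mul_inv u
    have hv1 : (v : A) * (↑v⁻¹ : A) = 1 := Units.mul_inv v
    have e1 : (↑u : A) * (-(p₀ * (↑v⁻¹ : A) * (↑u⁻¹ : A))) = -(p₀ * (↑v⁻¹ : A)) := by
      linear_combination (-(p₀ * (↑v⁻¹ : A))) * hu1
    have e2 : p₂ * (-(p₀ * (↑v⁻¹ : A) * (↑u⁻¹ : A))) ^ 2 = p₀ * (↑v⁻¹ : A) ^ 2 * ε := by
      rw [hε]; ring
    rw [e1, e2]
    -- p₀ - p₀ v⁻¹ + p₀ v⁻² ε = p₀ v⁻² (v² - v + ε)
    have : p₀ + -(p₀ * (↑v⁻¹ : A)) + p₀ * (↑v⁻¹ : A) ^ 2 * ε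
        = p₀ * (↑v⁻¹ : A) ^ 2 * ((v : A) ^ 2 - v + ε)
          + p₀ * (1 - ((v : A) * (↑v⁻¹ : A)) ^ 2)
          + p₀ * (↑v⁻¹ : A) * ((v : A) * (↑v⁻¹ : A) - 1) := by ring
    rw [this, hwroot, hv1]
    ring


omit [IsLocalRing A] in
theorem mul_entries_mem_of_right (I : Ideal A) (M N : Matrix (Fin 2) (Fin 2) A)
    (hN : ∀ i j, N i j ∈ I) (i j : Fin 2) : (M * N) i j ∈ I := by
  rw [Matrix.mul_apply]
  exact Ideal.sum_mem _ fun k _ => Ideal.mul_mem_left _ _ (hN k j)

omit [IsLocalRing A] in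
theorem mul_entries_mem_of_left (I : Ideal A) (M N : Matrix (Fin 2) (Fin 2) A)
    (hM : ∀ i j, M i j ∈ I) (i j : Fin 2) : (M * N) i j ∈ I := by
  rw [Matrix.mul_apply]
  exact Ideal.sum_mem _ fun k _ => Ideal.mul_mem_right _ _ (hM i k)

omit [IsLocalRing A] in
/-- Conjugating by matrices congruent to `1` modulo `I` does not change a matrix modulo `I`. -/
theorem conj_sub_mem (I : Ideal A) (S S' M : Matrix (Fin 2) (Fin 2) A)
    (hS : ∀ i j, (S - 1) i j ∈ I) (hS' : ∀ i j, (S' - 1) i j ∈ I) (i j : Fin 2) :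
    (S' * M * S - M) i j ∈ I := by
  have : S' * M * S - M = (S' - 1) * (M * S) + M * (S - 1) := by
    simp only [sub_mul, mul_sub, one_mul, mul_one, Matrix.mul_assoc]
    abel
  rw [this, Matrix.add_apply]
  exact add_mem (mul_entries_mem_of_left I _ _ hS' i j) (mul_entries_mem_of_right I _ _ hS i j)

/-- Step 1 of the normalization: make the first column of `X` equal to `e₂`. -/
theorem exists_conj_col (X : Matrix (Fin 2) (Fin 2) A) (hX00 : X 0 0 ∈ maximalIdeal A)
    (hX10 : X 1 0 - 1 ∈ maximalIdeal A) :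
    ∃ S S' : Matrix (Fin 2) (Fin 2) A, S * S' = 1 ∧ S' * S = 1 ∧
      (∀ i j, (S - 1) i j ∈ maximalIdeal A) ∧ (∀ i j, (S' - 1) i j ∈ maximalIdeal A) ∧
      (S' * X * S) 0 0 = 0 ∧ (S' * X * S) 1 0 = 1 := by
  have hu : IsUnit (X 1 0) := isUnit_of_sub_mem_of_isUnit hX10 isUnit_one
  obtain ⟨u, hu'⟩ := hu
  have h1 : X 1 0 * (↑u⁻¹ : A) = 1 := by rw [← hu']; exact Units.mul_inv u
  have hinv : (↑u⁻¹ : A) - 1 ∈ maximalIdeal A := by
    have : (↑u⁻¹ : A) - 1 = -(↑u⁻¹ : A) * (X 1 0 - 1) := by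
      linear_combination (1 : A) * h1
    rw [this]
    exact Ideal.mul_mem_left _ _ hX10
  generalize (↑u⁻¹ : A) = v at h1 hinv
  refine ⟨!![1, X 0 0; 0, X 1 0], !![1, -(X 0 0 * v); 0, v], ?_, ?_, ?_, ?_, ?_, ?_⟩
  · ext i j
    fin_cases i <;> fin_cases j <;>
    simp only [Fin.zero_eta, Fin.mk_one, Fin.isValue, Matrix.mul_apply, Fin.sum_univ_two,
      Matrix.sub_apply, Matrix.add_apply, Matrix.smul_apply, smul_eq_mul, Matrix.of_apply,
      Matrix.cons_val', Matrix.cons_val_zero, Matrix.cons_val_one, Matrix.cons_val_fin_one,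
      Matrix.one_apply_eq, Matrix.one_apply_ne, ne_eq, zero_ne_one, one_ne_zero,
      not_false_eq_true, sub_zero]
    · ring
    · linear_combination (0 : A) * h1
    · ring
    · linear_combination h1
  · ext i j
    fin_cases i <;> fin_cases j <;>
    simp only [Fin.zero_eta, Fin.mk_one, Fin.isValue, Matrix.mul_apply, Fin.sum_univ_two,
      Matrix.sub_apply, Matrix.add_apply, Matrix.smul_apply, smul_eq_mul, Matrix.of_apply,
      Matrix.cons_val', Matrix.cons_val_zero, Matrix.cons_val_one, Matrix.cons_val_fin_one,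
      Matrix.one_apply_eq, Matrix.one_apply_ne, ne_eq, zero_ne_one, one_ne_zero,
      not_false_eq_true, sub_zero]
    · ring
    · linear_combination (-(X 0 0)) * h1
    · ring
    · linear_combination h1
  · intro i j
    fin_cases i <;> fin_cases j <;>
    simp only [Fin.zero_eta, Fin.mk_one, Fin.isValue, Matrix.mul_apply, Fin.sum_univ_two,
      Matrix.sub_apply, Matrix.add_apply, Matrix.smul_apply, smul_eq_mul, Matrix.of_apply,
      Matrix.cons_val', Matrix.cons_val_zero, Matrix.cons_val_one, Matrix.cons_val_fin_one,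
      Matrix.one_apply_eq, Matrix.one_apply_ne, ne_eq, zero_ne_one, one_ne_zero,
      not_false_eq_true, sub_zero]
    · simp
    · exact hX00
    · simp
    · exact hX10
  · intro i j
    fin_cases i <;> fin_cases j <;>
    simp only [Fin.zero_eta, Fin.mk_one, Fin.isValue, Matrix.mul_apply, Fin.sum_univ_two,
      Matrix.sub_apply, Matrix.add_apply, Matrix.smul_apply, smul_eq_mul, Matrix.of_apply,
      Matrix.cons_val', Matrix.cons_val_zero, Matrix.cons_val_one, Matrix.cons_val_fin_one,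
      Matrix.one_apply_eq, Matrix.one_apply_ne, ne_eq, zero_ne_one, one_ne_zero,
      not_false_eq_true, sub_zero]
    · simp
    · exact neg_mem (Ideal.mul_mem_right _ _ hX00)
    · simp
    · exact hinv
  · simp only [Fin.zero_eta, Fin.mk_one, Fin.isValue, Matrix.mul_apply, Fin.sum_univ_two,
      Matrix.sub_apply, Matrix.add_apply, Matrix.smul_apply, smul_eq_mul, Matrix.of_apply,
      Matrix.cons_val', Matrix.cons_val_zero, Matrix.cons_val_one, Matrix.cons_val_fin_one,
      Matrix.one_apply_eq, Matrix.one_apply_ne, ne_eq, zero_ne_one, one_ne_zero,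
      not_false_eq_true, sub_zero]
    linear_combination (-(X 0 0)) * h1
  · simp only [Fin.zero_eta, Fin.mk_one, Fin.isValue, Matrix.mul_apply, Fin.sum_univ_two,
      Matrix.sub_apply, Matrix.add_apply, Matrix.smul_apply, smul_eq_mul, Matrix.of_apply,
      Matrix.cons_val', Matrix.cons_val_zero, Matrix.cons_val_one, Matrix.cons_val_fin_one,
      Matrix.one_apply_eq, Matrix.one_apply_ne, ne_eq, zero_ne_one, one_ne_zero,
      not_false_eq_true, sub_zero]
    linear_combination h1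


/-- Step 2 of the normalization: if `X e₁ = e₂`, conjugate by `1 + b X` (which commutes with
`X`) to give the `(i₀, j₀)` entry of `Y` a prescribed value `c ≡ Y i₀ j₀`. -/
theorem exists_conj_entry [HenselianRing A (maximalIdeal A)] (X Y : Matrix (Fin 2) (Fin 2) A)
    (hX0 : X 0 0 = 0) (hX1 : X 1 0 = 1) (i₀ j₀ : Fin 2)
    (hu : IsUnit ((Y * X - X * Y) i₀ j₀)) (c : A) (hc : Y i₀ j₀ - c ∈ maximalIdeal A) :
    ∃ U U' : Matrix (Fin 2) (Fin 2) A, U * U' = 1 ∧ U' * U = 1 ∧
      (∀ i j, (U - 1) i j ∈ maximalIdeal A) ∧ (∀ i j, (U' - 1) i j ∈ maximalIdeal A) ∧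
      U' * X * U = X ∧ (U' * Y * U) i₀ j₀ = c := by
  -- coefficients of the quadratic equation for `b`
  set p₀ : A := Y i₀ j₀ - c with hp₀
  set p₁ : A := (adjugate X * Y + Y * X) i₀ j₀ - c * X.trace with hp₁
  set p₂ : A := (adjugate X * Y * X) i₀ j₀ - c * X.det with hp₂
  have hp₁u : IsUnit p₁ := by
    refine isUnit_of_sub_mem_of_isUnit ?_ hu
    have : p₁ - (Y * X - X * Y) i₀ j₀ = X.trace * (Y i₀ j₀ - c) := by
      rw [hp₁]
      fin_cases i₀ <;> fin_cases j₀ <;>
      simp only [Fin.zero_eta, Fin.mk_one, Fin.isValue, Matrix.mul_apply, Fin.sum_univ_two,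
      Matrix.sub_apply, Matrix.add_apply, Matrix.smul_apply, smul_eq_mul, Matrix.of_apply,
      Matrix.cons_val', Matrix.cons_val_zero, Matrix.cons_val_one, Matrix.cons_val_fin_one,
      Matrix.one_apply_eq, Matrix.one_apply_ne, ne_eq, zero_ne_one, one_ne_zero,
      not_false_eq_true, sub_zero, Matrix.adjugate_fin_two, Matrix.det_fin_two,
      Matrix.trace_fin_two, Matrix.neg_apply] <;> ring
    rw [this]
    exact Ideal.mul_mem_left _ _ hc
  obtain ⟨b, hb, hroot⟩ := exists_root_quadratic p₀ p₁ p₂ hc hp₁u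
  set U : Matrix (Fin 2) (Fin 2) A := 1 + b • X with hU
  have hdet : U.det = 1 + b * (X.trace + b * X.det) := by
    rw [hU]
    simp only [Fin.zero_eta, Fin.mk_one, Fin.isValue, Matrix.mul_apply, Fin.sum_univ_two,
      Matrix.sub_apply, Matrix.add_apply, Matrix.smul_apply, smul_eq_mul, Matrix.of_apply,
      Matrix.cons_val', Matrix.cons_val_zero, Matrix.cons_val_one, Matrix.cons_val_fin_one,
      Matrix.one_apply_eq, Matrix.one_apply_ne, ne_eq, zero_ne_one, one_ne_zero,
      not_false_eq_true, sub_zero, Matrix.adjugate_fin_two, Matrix.det_fin_two,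
      Matrix.trace_fin_two, Matrix.neg_apply]
    ring
  have hdetu : IsUnit U.det := by
    refine isUnit_of_sub_mem_of_isUnit (y := 1) ?_ isUnit_one
    rw [hdet]
    have : 1 + b * (X.trace + b * X.det) - 1 = (X.trace + b * X.det) * b := by ring
    rw [this]
    exact Ideal.mul_mem_left _ _ hb
  have hUm : ∀ i j, (U - 1) i j ∈ maximalIdeal A := by
    intro i j
    have : (U - 1) i j = X i j * b := by
      rw [hU]; simp [mul_comm]
    rw [this]
    exact Ideal.mul_mem_left _ _ hb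
  have hUU' : U * U⁻¹ = 1 := Matrix.mul_nonsing_inv U hdetu
  have hU'U : U⁻¹ * U = 1 := Matrix.nonsing_inv_mul U hdetu
  have hU'm : ∀ i j, (U⁻¹ - 1) i j ∈ maximalIdeal A := by
    intro i j
    have : U⁻¹ - 1 = U⁻¹ * (-(U - 1)) := by
      rw [mul_neg, mul_sub, hU'U, mul_one]; abel
    rw [this]
    exact mul_entries_mem_of_right _ _ _ (fun i j => by
      rw [Matrix.neg_apply]; exact neg_mem (hUm i j)) i j
  have hcomm : X * U = U * X := by
    rw [hU]; simp only [mul_add, add_mul, mul_one, one_mul, mul_smul_comm, smul_mul_assoc]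
  refine ⟨U, U⁻¹, hUU', hU'U, hUm, hU'm, ?_, ?_⟩
  · rw [Matrix.mul_assoc, hcomm, ← Matrix.mul_assoc, hU'U, one_mul]
  · -- the key polynomial identity
    have hpoly : (adjugate U * Y * U) i₀ j₀ - c * U.det = p₀ + p₁ * b + p₂ * b ^ 2 := by
      rw [hp₀, hp₁, hp₂, hU]
      fin_cases i₀ <;> fin_cases j₀ <;>
      simp only [Fin.zero_eta, Fin.mk_one, Fin.isValue, Matrix.mul_apply, Fin.sum_univ_two,
      Matrix.sub_apply, Matrix.add_apply, Matrix.smul_apply, smul_eq_mul, Matrix.of_apply,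
      Matrix.cons_val', Matrix.cons_val_zero, Matrix.cons_val_one, Matrix.cons_val_fin_one,
      Matrix.one_apply_eq, Matrix.one_apply_ne, ne_eq, zero_ne_one, one_ne_zero,
      not_false_eq_true, sub_zero, Matrix.adjugate_fin_two, Matrix.det_fin_two,
      Matrix.trace_fin_two, Matrix.neg_apply] <;> ring
    have hadj : (adjugate U * Y * U) i₀ j₀ = c * U.det := by
      have := hpoly
      rw [hroot] at this
      exact sub_eq_zero.mp this
    obtain ⟨d, hd⟩ := hdetu
    have hinv : U⁻¹ = (↑d⁻¹ : A) • adjugate U := by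
      rw [Matrix.inv_def, ← hd, Ring.inverse_unit]
    rw [hinv, Matrix.smul_mul, Matrix.smul_mul, Matrix.smul_apply, hadj, ← hd, smul_eq_mul]
    rw [mul_comm c, ← mul_assoc, Units.inv_mul, one_mul]


/-- Existence of the normal form: over a Henselian local ring, a pair `(X, Y)` with
`X e₁ ≡ e₂` and with commutator entry `[Y, X] i₀ j₀` a unit is conjugate, by a matrix congruent
to `1`, to a pair `(X', Y')` with `X' e₁ = e₂` and `Y' i₀ j₀ = c` (any `c ≡ Y i₀ j₀`). -/
theorem exists_conj_normalized [HenselianRing A (maximalIdeal A)]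
    (X Y : Matrix (Fin 2) (Fin 2) A)
    (hX00 : X 0 0 ∈ maximalIdeal A) (hX10 : X 1 0 - 1 ∈ maximalIdeal A) (i₀ j₀ : Fin 2)
    (hu : IsUnit ((Y * X - X * Y) i₀ j₀)) (c : A) (hc : Y i₀ j₀ - c ∈ maximalIdeal A) :
    ∃ T T' : Matrix (Fin 2) (Fin 2) A, T * T' = 1 ∧ T' * T = 1 ∧
      (∀ i j, (T - 1) i j ∈ maximalIdeal A) ∧
      (T * X * T') 0 0 = 0 ∧ (T * X * T') 1 0 = 1 ∧ (T * Y * T') i₀ j₀ = c := by
  obtain ⟨S, S', hSS', hS'S, hSm, hS'm, h00, h10⟩ := exists_conj_col X hX00 hX10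
  set X₁ := S' * X * S with hX₁
  set Y₁ := S' * Y * S with hY₁
  have hu₁ : IsUnit ((Y₁ * X₁ - X₁ * Y₁) i₀ j₀) := by
    refine isUnit_of_sub_mem_of_isUnit ?_ hu
    have : Y₁ * X₁ - X₁ * Y₁ = S' * (Y * X - X * Y) * S := by
      rw [hX₁, hY₁]
      have e1 : S' * Y * S * (S' * X * S) = S' * (Y * X) * S := by
        calc S' * Y * S * (S' * X * S) = S' * Y * (S * S') * X * S := by
              simp only [Matrix.mul_assoc]
          _ = S' * (Y * X) * S := by rw [hSS']; simp only [Matrix.mul_assoc, Matrix.mul_one]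
      have e2 : S' * X * S * (S' * Y * S) = S' * (X * Y) * S := by
        calc S' * X * S * (S' * Y * S) = S' * X * (S * S') * Y * S := by
              simp only [Matrix.mul_assoc]
          _ = S' * (X * Y) * S := by rw [hSS']; simp only [Matrix.mul_assoc, Matrix.mul_one]
      rw [e1, e2, Matrix.mul_sub, Matrix.sub_mul]
    rw [this]
    have := conj_sub_mem (maximalIdeal A) S S' (Y * X - X * Y) hSm hS'm i₀ j₀
    rwa [Matrix.sub_apply] at this
  have hc₁ : Y₁ i₀ j₀ - c ∈ maximalIdeal A := by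
    have h1 := conj_sub_mem (maximalIdeal A) S S' Y hSm hS'm i₀ j₀
    rw [Matrix.sub_apply] at h1
    have : Y₁ i₀ j₀ - c = (S' * Y * S) i₀ j₀ - Y i₀ j₀ + (Y i₀ j₀ - c) := by
      rw [hY₁]; ring
    rw [this]
    exact add_mem h1 hc
  obtain ⟨U, U', hUU', hU'U, hUm, hU'm, hUX, hUY⟩ :=
    exists_conj_entry X₁ Y₁ h00 h10 i₀ j₀ hu₁ c hc₁
  refine ⟨U' * S', S * U, ?_, ?_, ?_, ?_, ?_, ?_⟩
  · calc U' * S' * (S * U) = U' * (S' * S) * U := by simp only [Matrix.mul_assoc]
      _ = 1 := by rw [hS'S, Matrix.mul_one, hU'U]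
  · calc S * U * (U' * S') = S * (U * U') * S' := by simp only [Matrix.mul_assoc]
      _ = 1 := by rw [hUU', Matrix.mul_one, hSS']
  · intro i j
    have : U' * S' - 1 = (U' - 1) * S' + (S' - 1) := by
      rw [Matrix.sub_mul, Matrix.one_mul]; abel
    rw [this, Matrix.add_apply]
    exact add_mem (mul_entries_mem_of_left _ _ _ hU'm i j) (hS'm i j)
  · have : U' * S' * X * (S * U) = U' * X₁ * U := by
      rw [hX₁]; simp only [Matrix.mul_assoc]
    rw [this, hUX]; exact h00
  · have : U' * S' * X * (S * U) = U' * X₁ * U := by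
      rw [hX₁]; simp only [Matrix.mul_assoc]
    rw [this, hUX]; exact h10
  · have : U' * S' * Y * (S * U) = U' * Y₁ * U := by
      rw [hY₁]; simp only [Matrix.mul_assoc]
    rw [this]; exact hUY

end Fermat.Agent.S53.NormMat
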