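import Fermat.Agent.S53.Defs
import Fermat.Agent.S53.NormMat

set_option autoImplicit false
set_option linter.unusedSimpArgs false
set_option linter.unusedVariables false
set_option linter.unusedSectionVars false

/-!
# S53: rigidification — every deformation class contains exactly one normalized lift

* `exists_normData`: rigidification data exist for an absolutely irreducible `ρbar`.
* `IsNorm.eq_of_conj`: two conjugate normalized lifts are equal.
* `exists_isNorm_conj_of_henselian` (and its corollaries for finite / complete local rings):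
  every strict lift is conjugate to a normalized one.
-/

namespace Fermat.Agent.S53

open IsLocalRing

section NoncommPair

variable {k : Type} [Field k]

/-- An absolutely irreducible two-dimensional representation has non-commutative image. -/
theorem exists_not_commute_of_absIrr (ρbar : ResidualGaloisRep k)
    (habs : ρbar.IsAbsolutelyIrreducible) :
    ∃ g h : GQ, ρbar.ρ g * ρbar.ρ h ≠ ρbar.ρ h * ρbar.ρ g := by
  by_contra hcon
  push Not at hcon
  let K := AlgebraicClosure k
  let ρ' : ResidualGaloisRep K := ρbar.baseChange K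
  have hirr : ρ'.IsIrreducible := habs
  have hfin : Module.finrank K ρ'.V = 2 := ρ'.finrank_eq
  have : Module.Finite K ρ'.V := inferInstance
  have : Nontrivial ρ'.V := Module.nontrivial_of_finrank_pos (R := K) (by omega)
  have hρ' : ∀ g, ρ'.ρ g = (ρbar.ρ g).baseChange K := fun g => rfl
  have hcomm' : ∀ g h, ρ'.ρ g * ρ'.ρ h = ρ'.ρ h * ρ'.ρ g := by
    intro g h
    rw [hρ', hρ', ← LinearMap.baseChange_mul, ← LinearMap.baseChange_mul, hcon g h]
  -- every `ρ' g` is a scalar
  have hscal : ∀ g, ∃ μ : K, ∀ x, ρ'.ρ g x = μ • x := by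
    intro g
    obtain ⟨μ, hμ⟩ := Module.End.exists_eigenvalue (ρ'.ρ g)
    obtain ⟨v, hv⟩ := hμ.exists_hasEigenvector
    have hstable : ∀ σ : GQ, ∀ x ∈ Module.End.eigenspace (ρ'.ρ g) μ,
        ρ'.ρ σ x ∈ Module.End.eigenspace (ρ'.ρ g) μ := by
      intro σ x hx
      rw [Module.End.mem_eigenspace_iff] at hx ⊢
      have h1 : ρ'.ρ g (ρ'.ρ σ x) = (ρ'.ρ g * ρ'.ρ σ) x := rfl
      rw [h1, hcomm' g σ]
      show ρ'.ρ σ (ρ'.ρ g x) = _
      rw [hx, map_smul]
    rcases hirr _ hstable with h | h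
    · exfalso
      have hv1 : v ∈ Module.End.eigenspace (ρ'.ρ g) μ := hv.1
      rw [h, Submodule.mem_bot] at hv1
      exact hv.2 hv1
    · refine ⟨μ, fun x => ?_⟩
      have hx : x ∈ Module.End.eigenspace (ρ'.ρ g) μ := by rw [h]; exact Submodule.mem_top
      exact Module.End.mem_eigenspace_iff.mp hx
  obtain ⟨v, hv⟩ := exists_ne (0 : ρ'.V)
  have hstable : ∀ σ : GQ, ∀ x ∈ Submodule.span K {v}, ρ'.ρ σ x ∈ Submodule.span K {v} := by
    intro σ x hx
    obtain ⟨μ, hμ⟩ := hscal σ
    rw [hμ]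
    exact Submodule.smul_mem _ _ hx
  rcases hirr _ hstable with h | h
  · have : v ∈ Submodule.span K {v} := Submodule.mem_span_singleton_self v
    rw [h, Submodule.mem_bot] at this
    exact hv this
  · have h1 : Module.finrank K (Submodule.span K {v}) = 1 := finrank_span_singleton hv
    rw [h, finrank_top, hfin] at h1
    omega

end NoncommPair

variable {𝒪 : Type} [CommRing 𝒪] [IsLocalRing 𝒪] {ρbar : ResidualGaloisRep (ResidueField 𝒪)}

/-- rigidification data exist -/
theorem exists_normData (habs : ρbar.IsAbsolutelyIrreducible) : Nonempty (NormData 𝒪 ρbar) := by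
  obtain ⟨g, h, hgh⟩ := exists_not_commute_of_absIrr ρbar habs
  have : Module.Free (ResidueField 𝒪) ρbar.V := Module.Free.of_divisionRing _ _
  -- `ρbar g` is not a scalar, so there is a cyclic vector
  have hns : ¬ ∃ a : ResidueField 𝒪, ρbar.ρ g = a • 1 := by
    rintro ⟨a, ha⟩
    apply hgh
    rw [ha]
    ext x
    simp
  have hex : ∃ v : ρbar.V, LinearIndependent (ResidueField 𝒪) ![v, ρbar.ρ g v] := by
    by_contra hcon
    push Not at hcon
    exact hns (LinearMap.exists_eq_smul_id_of_forall_notLinearIndependent hcon)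
  obtain ⟨v, hv⟩ := hex
  let b : Module.Basis (Fin 2) (ResidueField 𝒪) ρbar.V :=
    basisOfLinearIndependentOfCardEqFinrank hv (by simp [ρbar.finrank_eq])
  have hb : ∀ i, b i = ![v, ρbar.ρ g v] i := fun i => by
    simp [b, coe_basisOfLinearIndependentOfCardEqFinrank]
  have hb0 : b 0 = v := by simpa using hb 0
  have hb1 : b 1 = ρbar.ρ g v := by simpa using hb 1
  let rbar : GQ →* M2 (ResidueField 𝒪) :=
    ((LinearMap.toMatrixAlgEquiv b).toAlgHom.toRingHom.toMonoidHom).comp ρbar.ρ
  have hrbar : ∀ σ, rbar σ = LinearMap.toMatrix b b (ρbar.ρ σ) := fun σ => rfl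
  have hne : rbar g * rbar h - rbar h * rbar g ≠ 0 := by
    intro h0
    apply hgh
    have h1 : rbar g * rbar h = rbar h * rbar g := sub_eq_zero.mp h0
    rw [← map_mul, ← map_mul] at h1
    have h2 : LinearMap.toMatrix b b (ρbar.ρ (g * h)) = LinearMap.toMatrix b b (ρbar.ρ (h * g)) := h1
    have h3 := (LinearMap.toMatrix b b).injective h2
    rw [← map_mul, ← map_mul]
    exact h3
  have hij : ∃ i j, (rbar g * rbar h - rbar h * rbar g) i j ≠ 0 := by
    by_contra hcon
    push Not at hcon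
    exact hne (Matrix.ext hcon)
  obtain ⟨i0, j0, hij⟩ := hij
  obtain ⟨c0, hc0⟩ := IsLocalRing.residue_surjective (rbar h i0 j0)
  refine ⟨{ rbar := rbar, isMatOfRes := ⟨b, fun σ => (hrbar σ).symm⟩, g1 := g, g2 := h,
            i0 := i0, j0 := j0, c0 := c0, col := ?_, c0_spec := hc0, comm_ne := hij }⟩
  intro i
  rw [hrbar, LinearMap.toMatrix_apply, hb0, ← hb1, Module.Basis.repr_self_apply]
  simp only [eq_comm]

section
variable (N : NormData 𝒪 ρbar) {A : Type} [CommRing A] [IsLocalRing A] [Algebra 𝒪 A]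
  [IsLocalHom (algebraMap 𝒪 A)]

omit [IsLocalHom (algebraMap 𝒪 A)] in
theorem residue_entry_of_isLift [IsLocalHom (algebraMap 𝒪 A)] {r : GQ → M2 A}
    (h : IsLift 𝒪 N.rbar r) (σ : GQ) (i j : Fin 2) :
    residue A (r σ i j) = ResidueField.map (algebraMap 𝒪 A) (N.rbar σ i j) := by
  have := congrFun (congrFun (h σ) i) j
  simpa [Matrix.map_apply] using this

omit [IsLocalHom (algebraMap 𝒪 A)] in
theorem sub_mem_of_isLift [IsLocalHom (algebraMap 𝒪 A)] {r r' : GQ → M2 A}
    (h : IsLift 𝒪 N.rbar r) (h' : IsLift 𝒪 N.rbar r') (σ : GQ) (i j : Fin 2) :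
    r σ i j - r' σ i j ∈ maximalIdeal A := by
  rw [← residue_eq_zero_iff, map_sub, residue_entry_of_isLift N h, residue_entry_of_isLift N h',
    sub_self]

omit [IsLocalHom (algebraMap 𝒪 A)] in
/-- The commutator entry of a strict lift is a unit. -/
theorem isUnit_comm_entry_of_isLift [IsLocalHom (algebraMap 𝒪 A)] {r : GQ → M2 A}
    (h : IsLift 𝒪 N.rbar r) :
    IsUnit ((r N.g2 * r N.g1 - r N.g1 * r N.g2) N.i0 N.j0) := by
  have hres : residue A ((r N.g2 * r N.g1 - r N.g1 * r N.g2) N.i0 N.j0)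
      = ResidueField.map (algebraMap 𝒪 A)
          (-((N.rbar N.g1 * N.rbar N.g2 - N.rbar N.g2 * N.rbar N.g1) N.i0 N.j0)) := by
    simp only [Matrix.sub_apply, Matrix.mul_apply, Fin.sum_univ_two, map_sub, map_add, map_mul,
      map_neg, residue_entry_of_isLift N h]
    ring
  by_contra hnu
  have hm : (r N.g2 * r N.g1 - r N.g1 * r N.g2) N.i0 N.j0 ∈ maximalIdeal A :=
    (mem_maximalIdeal _).mpr hnu
  rw [← residue_eq_zero_iff, hres, map_neg, neg_eq_zero, map_eq_zero] at hm
  exact N.comm_ne hm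

/-- (!) two conjugate normalized lifts are equal (any local `A`). -/
theorem IsNorm.eq_of_conj {r r' : GQ →* M2 A} (h : IsNorm N r) (h' : IsNorm N r')
    (T : (M2 A)ˣ) (hT : ∀ σ, (T : M2 A) * r σ = r' σ * T) : r = r' := by
  obtain ⟨hl, hcol, hent⟩ := h
  obtain ⟨hl', hcol', hent'⟩ := h'
  have hX0 : r N.g1 0 0 = 0 := by simpa using hcol 0
  have hX1 : r N.g1 1 0 = 1 := by simpa using hcol 1
  have hX0' : r' N.g1 0 0 = 0 := by simpa using hcol' 0
  have hX1' : r' N.g1 1 0 = 1 := by simpa using hcol' 1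
  have hsc := NormMat.scalar_of_intertwines (r N.g1) (r' N.g1) (r N.g2) (r' N.g2) (T : M2 A)
    hX0 hX1 hX0' hX1' N.i0 N.j0 (fun i j => sub_mem_of_isLift N hl hl' N.g2 i j)
    (by rw [hent, hent']) (isUnit_comm_entry_of_isLift N hl') (hT N.g1) (hT N.g2)
  set a : A := (T : M2 A) 0 0 with ha
  -- `a` is a unit
  have hau : IsUnit a := by
    have h1 : (T : M2 A) * ((T⁻¹ : (M2 A)ˣ) : M2 A) = 1 := Units.mul_inv T
    rw [hsc] at h1
    have h2 := congrFun (congrFun h1 0) 0
    simp only [Matrix.smul_mul, Matrix.one_mul, Matrix.smul_apply, smul_eq_mul,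
      Matrix.one_apply_eq] at h2
    exact IsUnit.of_mul_eq_one _ h2
  obtain ⟨u, hu⟩ := hau
  ext σ i j
  have h1 := hT σ
  rw [hsc] at h1
  have h2 := congrFun (congrFun h1 i) j
  simp only [Matrix.smul_mul, Matrix.one_mul, Matrix.mul_smul, Matrix.mul_one,
    Matrix.smul_apply, smul_eq_mul] at h2
  rw [← hu] at h2
  exact u.isUnit.mul_left_cancel h2

/-- (∃) over a Henselian local ring every strict lift is conjugate to a normalized one. -/
theorem exists_isNorm_conj_of_henselian [HenselianRing A (maximalIdeal A)] (r : GQ →* M2 A)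
    (h : IsLift 𝒪 N.rbar r) :
    ∃ (T : (M2 A)ˣ) (r' : GQ →* M2 A), IsNorm N r' ∧ ∀ σ, (T : M2 A) * r σ = r' σ * T := by
  have hX00 : r N.g1 0 0 ∈ maximalIdeal A := by
    rw [← residue_eq_zero_iff, residue_entry_of_isLift N h, N.col 0]
    simp
  have hX10 : r N.g1 1 0 - 1 ∈ maximalIdeal A := by
    rw [← residue_eq_zero_iff, map_sub, residue_entry_of_isLift N h, N.col 1]
    simp
  have hc : r N.g2 N.i0 N.j0 - algebraMap 𝒪 A N.c0 ∈ maximalIdeal A := by
    rw [← residue_eq_zero_iff, map_sub, residue_entry_of_isLift N h, ← N.c0_spec,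
      ResidueField.map_residue, sub_self]
  obtain ⟨T, T', hTT', hT'T, hTm, h00, h10, hent⟩ :=
    NormMat.exists_conj_normalized (r N.g1) (r N.g2) hX00 hX10 N.i0 N.j0
      (isUnit_comm_entry_of_isLift N h) (algebraMap 𝒪 A N.c0) hc
  let r' : GQ →* M2 A :=
    { toFun := fun σ => T * r σ * T'
      map_one' := by rw [map_one, Matrix.mul_one, hTT']
      map_mul' := fun σ τ => by
        rw [map_mul]
        calc T * (r σ * r τ) * T' = T * r σ * (1 : M2 A) * r τ * T' := by
              simp only [Matrix.mul_assoc, Matrix.one_mul]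
          _ = T * r σ * T' * (T * r τ * T') := by
              rw [← hT'T]; simp only [Matrix.mul_assoc] }
  have hr' : ∀ σ, r' σ = T * r σ * T' := fun σ => rfl
  -- `T'` is congruent to `1`
  have hT'm : ∀ i j, (T' - 1) i j ∈ maximalIdeal A := by
    intro i j
    have : T' - 1 = -((T - 1) * T') := by
      rw [Matrix.sub_mul, hTT', Matrix.one_mul]; abel
    rw [this, Matrix.neg_apply]
    exact neg_mem (NormMat.mul_entries_mem_of_left _ _ _ hTm i j)
  refine ⟨⟨T, T', hTT', hT'T⟩, r', ⟨?_, ?_, ?_⟩, ?_⟩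
  · -- strict lift
    intro σ
    rw [← h σ]
    ext i j
    rw [Matrix.map_apply, Matrix.map_apply, ← sub_eq_zero, ← map_sub, residue_eq_zero_iff, hr']
    have h1 := NormMat.conj_sub_mem (maximalIdeal A) T' T (r σ) hT'm hTm i j
    rwa [Matrix.sub_apply] at h1
  · intro i
    fin_cases i
    · simpa [hr'] using h00
    · simpa [hr'] using h10
  · rw [hr']; exact hent
  · intro σ
    show T * r σ = T * r σ * T' * T
    rw [Matrix.mul_assoc (T * r σ), hT'T, Matrix.mul_one]

/-- (∃) over a finite local ring every strict lift is conjugate to a normalized one. -/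
theorem exists_isNorm_conj_of_finite [Finite A] (r : GQ →* M2 A) (h : IsLift 𝒪 N.rbar r) :
    ∃ (T : (M2 A)ˣ) (r' : GQ →* M2 A), IsNorm N r' ∧ ∀ σ, (T : M2 A) * r σ = r' σ * T :=
  exists_isNorm_conj_of_henselian N r h

/-- (∃) over a complete noetherian local ring every strict lift is conjugate to a normalized
one. -/
theorem exists_isNorm_conj_of_complete [IsNoetherianRing A]
    [IsAdicComplete (maximalIdeal A) A] (r : GQ →* M2 A) (h : IsLift 𝒪 N.rbar r) :
    ∃ (T : (M2 A)ˣ) (r' : GQ →* M2 A), IsNorm N r' ∧ ∀ σ, (T : M2 A) * r σ = r' σ * T :=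
  exists_isNorm_conj_of_henselian N r h

end

end Fermat.Agent.S53
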