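import Fermat.Agent.S53.Defs

set_option autoImplicit false

/-!
# S53: the interface between the construction of the level-wise universal pairs
(`exists_univTower`) and the final assembly (`nonempty_of_univTower`).

Rigidified version: all lifts are normalized (`IsNorm`), so pairs are compared by equality of
matrices and maps out of `D j` are determined by the images of the entries of `s j`.
-/

namespace Fermat.Agent.S53

open IsLocalRing

/-- A tower of level-wise universal normalized pairs: `D j` is a finite local `𝒪`-algebra with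
`m ^ (j+1) = 0`, generated by the entries of a normalized lift `s j` of type `𝒟`, which is
universal among normalized lifts of type `𝒟` to test algebras `A` with `m_A ^ (j+1) = 0`. -/
structure UnivTower (𝒪 : Type) [CommRing 𝒪] [IsLocalRing 𝒪]
    (𝒟 : ∀ ⦃A : Type⦄ [CommRing A] [IsLocalRing A] [Algebra 𝒪 A], GaloisRepAdic A → Prop)
    {ρbar : ResidualGaloisRep (ResidueField 𝒪)} (N : NormData 𝒪 ρbar) : Type 1 where
  D : ℕ → Type
  [instCommRing : ∀ j, CommRing (D j)]
  [instIsLocalRing : ∀ j, IsLocalRing (D j)]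
  [instAlgebra : ∀ j, Algebra 𝒪 (D j)]
  [instIsLocalHom : ∀ j, IsLocalHom (algebraMap 𝒪 (D j))]
  [instFinite : ∀ j, Finite (D j)]
  res_surj : ∀ j, Function.Surjective (residue (D j) ∘ algebraMap 𝒪 (D j))
  lev : ∀ j, maximalIdeal (D j) ^ (j + 1) = ⊥
  u : ∀ j, D (j + 1) →ₐ[𝒪] D j
  u_surj : ∀ j, Function.Surjective (u j)
  ker_u : ∀ j, RingHom.ker (u j : D (j + 1) →+* D j) = maximalIdeal (D (j + 1)) ^ (j + 1)
  s : ∀ j, GQ →* M2 (D j)
  s_compat : ∀ j σ, (s (j + 1) σ).map (u j) = s j σ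
  s_norm : ∀ j, IsNorm N (s j)
  s_type : ∀ j, DMat 𝒪 𝒟 (s j)
  s_gen : ∀ j, Algebra.adjoin 𝒪 (entries (s j)) = ⊤
  exists_map : ∀ (j : ℕ) (A : Type) [CommRing A] [IsLocalRing A] [Algebra 𝒪 A]
      [IsLocalHom (algebraMap 𝒪 A)],
      GaloisRep.IsArtinianTestAlgebra 𝒪 A → maximalIdeal A ^ (j + 1) = ⊥ →
      ∀ r : GQ →* M2 A, IsNorm N r → DMat 𝒪 𝒟 r →
        ∃ φ : D j →ₐ[𝒪] A, ∀ σ, (s j σ).map φ = r σ

attribute [instance] UnivTower.instCommRing UnivTower.instIsLocalRing UnivTower.instAlgebra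
  UnivTower.instIsLocalHom UnivTower.instFinite

end Fermat.Agent.S53
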