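import Fermat.Agent.S53.Defs
import Fermat.Agent.S53.Tower
import Fermat.Agent.S53.Dict
import Fermat.Agent.S53.Norm
import Fermat.Agent.S53.H50_Complete

set_option autoImplicit false

/-!
# S53, step 7 (helper33): from a tower of level-wise universal normalized pairs to
`DeformationRingData`.
-/

namespace Fermat.Agent.S53

open IsLocalRing

namespace Univ

section Generalities

/-- Factor an algebra map through a surjection whose kernel it kills. -/
theorem exists_algHom_factor {𝒪 A B C : Type} [CommRing 𝒪] [CommRing A] [CommRing B] [CommRing C]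
    [Algebra 𝒪 A] [Algebra 𝒪 B] [Algebra 𝒪 C] (f : A →ₐ[𝒪] B) (hf : Function.Surjective f)
    (g : A →ₐ[𝒪] C) (h : ∀ a, f a = 0 → g a = 0) :
    ∃ g' : B →ₐ[𝒪] C, ∀ a, g' (f a) = g a := by
  have hker : ∀ a a', f a = f a' → g a = g a' := by
    intro a a' haa'
    have := h (a - a') (by rw [map_sub, haa', sub_self])
    rwa [map_sub, sub_eq_zero] at this
  have hs : ∀ b, f (Function.surjInv hf b) = b := Function.surjInv_eq hf
  refine ⟨{ toFun := fun b => g (Function.surjInv hf b)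
            map_one' := ?_, map_mul' := ?_, map_zero' := ?_, map_add' := ?_, commutes' := ?_ }, ?_⟩
  · rw [← map_one g]; exact hker _ _ (by rw [hs, map_one])
  · intro x y; rw [← map_mul g]; exact hker _ _ (by rw [hs, map_mul, hs, hs])
  · rw [← map_zero g]; exact hker _ _ (by rw [hs, map_zero])
  · intro x y; rw [← map_add g]; exact hker _ _ (by rw [hs, map_add, hs, hs])
  · intro c; rw [← AlgHom.commutes g]; exact hker _ _ (by rw [hs, AlgHom.commutes])
  · intro a; exact hker _ _ (hs _)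

variable {𝒪 : Type} [CommRing 𝒪] [IsLocalRing 𝒪]

/-- An `𝒪`-algebra homomorphism from a local ring to a local ring with residue field `k` is
local. -/
theorem isLocalHom_of_res_surj {A B : Type} [CommRing A] [IsLocalRing A] [Algebra 𝒪 A]
    [CommRing B] [IsLocalRing B] [Algebra 𝒪 B]
    (hres : Function.Surjective (residue B ∘ algebraMap 𝒪 B)) (φ : A →ₐ[𝒪] B) :
    IsLocalHom (φ : A →+* B) := by
  refine ⟨fun a ha => ?_⟩
  by_contra hna
  have ha' : IsUnit (φ a) := ha
  obtain ⟨u, hu⟩ := ha'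
  obtain ⟨c, hc⟩ := hres (residue B (-(↑u⁻¹ : B)))
  have hmem : a ∈ maximalIdeal A := (mem_maximalIdeal a).2 hna
  have h1 : IsUnit (1 + algebraMap 𝒪 A c * a) := by
    by_contra h
    have h2 : 1 + algebraMap 𝒪 A c * a ∈ maximalIdeal A := (mem_maximalIdeal _).2 h
    have h3 : (1 : A) ∈ maximalIdeal A := by
      have := (maximalIdeal A).sub_mem h2 ((maximalIdeal A).mul_mem_left (algebraMap 𝒪 A c) hmem)
      simp at this
    exact (Ideal.ne_top_iff_one _).1 (maximalIdeal.isMaximal A).ne_top h3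
  have h4 : IsUnit (φ (1 + algebraMap 𝒪 A c * a)) := h1.map φ
  rw [map_add, map_one, map_mul, AlgHom.commutes, ← hu] at h4
  have h5 : residue B (1 + algebraMap 𝒪 B c * (u : B)) = 0 := by
    rw [map_add, map_one, map_mul]
    have : residue B (algebraMap 𝒪 B c) = residue B (-(↑u⁻¹ : B)) := hc
    rw [this, ← map_mul, ← map_one (residue B), ← map_add]
    simp
  exact ((residue_eq_zero_iff _).1 h5) h4

/-- Strict lifts are preserved by local algebra homomorphisms. -/
theorem IsLift.map {rbar : GQ → M2 (ResidueField 𝒪)} {A B : Type} [CommRing A] [IsLocalRing A]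
    [Algebra 𝒪 A] [IsLocalHom (algebraMap 𝒪 A)] [CommRing B] [IsLocalRing B] [Algebra 𝒪 B]
    [IsLocalHom (algebraMap 𝒪 B)] (φ : A →ₐ[𝒪] B) (hφ : IsLocalHom (φ : A →+* B))
    {r : GQ → M2 A} (h : IsLift 𝒪 rbar r) : IsLift 𝒪 rbar (fun σ => (r σ).map φ) := by
  intro σ
  ext a b
  have h1 := congrFun (congrFun (h σ) a) b
  simp only [Matrix.map_apply] at h1 ⊢
  obtain ⟨y, hy⟩ := residue_surjective (rbar σ a b)
  rw [← hy, ResidueField.map_residue] at h1 ⊢
  have h2 : r σ a b - algebraMap 𝒪 A y ∈ maximalIdeal A := by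
    rw [← Ideal.Quotient.eq]
    exact h1
  have h3 : φ (r σ a b - algebraMap 𝒪 A y) ∈ maximalIdeal B := by
    rw [mem_maximalIdeal, mem_nonunits_iff] at h2 ⊢
    intro hu
    exact h2 (hφ.map_nonunit _ hu)
  rw [map_sub, AlgHom.commutes] at h3
  exact (Ideal.Quotient.eq).2 h3

/-- Strict lifts are reflected by algebra homomorphisms. -/
theorem IsLift.of_map {rbar : GQ → M2 (ResidueField 𝒪)} {A B : Type} [CommRing A] [IsLocalRing A]
    [Algebra 𝒪 A] [IsLocalHom (algebraMap 𝒪 A)] [CommRing B] [IsLocalRing B] [Algebra 𝒪 B]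
    [IsLocalHom (algebraMap 𝒪 B)] (φ : A →ₐ[𝒪] B)
    {r : GQ → M2 A} (h : IsLift 𝒪 rbar (fun σ => (r σ).map φ)) : IsLift 𝒪 rbar r := by
  intro σ
  ext a b
  have h1 := congrFun (congrFun (h σ) a) b
  simp only [Matrix.map_apply] at h1 ⊢
  obtain ⟨y, hy⟩ := residue_surjective (rbar σ a b)
  rw [← hy, ResidueField.map_residue] at h1 ⊢
  have h3 : φ (r σ a b - algebraMap 𝒪 A y) ∈ maximalIdeal B := by
    rw [map_sub, AlgHom.commutes]
    exact (Ideal.Quotient.eq).1 h1
  have h2 : r σ a b - algebraMap 𝒪 A y ∈ maximalIdeal A := by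
    rw [mem_maximalIdeal, mem_nonunits_iff] at h3 ⊢
    intro hu
    exact h3 (hu.map φ)
  exact (Ideal.Quotient.eq).2 h2

theorem eq_zero_of_forall_mem_pow {A : Type} [CommRing A] (I : Ideal A) [IsHausdorff I A]
    (x : A) (h : ∀ n, x ∈ I ^ n) : x = 0 := by
  apply IsHausdorff.haus ‹_› x
  intro n
  rw [SModEq.zero]
  simpa using h n

end Generalities

section Limit

variable {𝒪 : Type} [CommRing 𝒪] [IsLocalRing 𝒪]
  {𝒟 : ∀ ⦃A : Type⦄ [CommRing A] [IsLocalRing A] [Algebra 𝒪 A], GaloisRepAdic A → Prop}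
  {ρbar : ResidualGaloisRep (ResidueField 𝒪)} {N : NormData 𝒪 ρbar} (T : UnivTower 𝒪 𝒟 N)
  {R : Type} [CommRing R] [IsLocalRing R] [IsNoetherianRing R]
  [IsAdicComplete (maximalIdeal R) R] [Algebra 𝒪 R] [IsLocalHom (algebraMap 𝒪 R)]
  (π : ∀ j, R →ₐ[𝒪] T.D j)

include T in
theorem eq_of_forall_π (hπk : ∀ j, RingHom.ker (π j : R →+* T.D j) = maximalIdeal R ^ (j + 1))
    {x y : R} (h : ∀ j, π j x = π j y) : x = y := by
  rw [← sub_eq_zero]
  apply eq_zero_of_forall_mem_pow (maximalIdeal R)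
  intro n
  have h1 : x - y ∈ maximalIdeal R ^ (n + 1) := by
    rw [← hπk n, RingHom.mem_ker]
    change π n (x - y) = 0
    rw [map_sub, h n, sub_self]
  exact Ideal.pow_le_pow_right (Nat.le_succ n) h1

/-- The universal matrix valued representation over the limit ring. -/
theorem exists_runiv
    (hπk : ∀ j, RingHom.ker (π j : R →+* T.D j) = maximalIdeal R ^ (j + 1))
    (hπl : ∀ x : ∀ j, T.D j, (∀ j, T.u j (x (j + 1)) = x j) → ∃ r : R, ∀ j, π j r = x j) :
    ∃ r : GQ →* M2 R, ∀ j σ, (r σ).map (π j) = T.s j σ := by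
  have hex : ∀ (σ : GQ) (a b : Fin 2), ∃ x : R, ∀ j, π j x = T.s j σ a b := by
    intro σ a b
    apply hπl (fun j => T.s j σ a b)
    intro j
    have := congrFun (congrFun (T.s_compat j σ) a) b
    simpa using this
  choose x hx using hex
  have hmap : ∀ j σ, (Matrix.of (x σ) : M2 R).map (π j) = T.s j σ := by
    intro j σ
    ext a b
    simp [hx]
  have hinj : ∀ {X Y : M2 R}, (∀ j, X.map (π j) = Y.map (π j)) → X = Y := by
    intro X Y h
    ext a b
    apply eq_of_forall_π T π hπk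
    intro j
    have := congrFun (congrFun (h j) a) b
    simpa using this
  refine ⟨{ toFun := fun σ => Matrix.of (x σ), map_one' := ?_, map_mul' := ?_ }, hmap⟩
  · apply hinj
    intro j
    rw [hmap, map_one]
    simp [Matrix.map_one]
  · intro σ τ
    apply hinj
    intro j
    rw [hmap, map_mul, Matrix.map_mul, hmap, hmap]

include T in
theorem isNorm_runiv (hπk : ∀ j, RingHom.ker (π j : R →+* T.D j) = maximalIdeal R ^ (j + 1))
    (r : GQ →* M2 R) (hr : ∀ j σ, (r σ).map (π j) = T.s j σ) : IsNorm N r := by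
  have hentry : ∀ j σ a b, π j (r σ a b) = T.s j σ a b := fun j σ a b => by
    rw [← hr j σ]; rfl
  refine ⟨?_, ?_, ?_⟩
  · apply IsLift.of_map (π 0)
    have : (fun σ => (r σ).map (π 0)) = fun σ => T.s 0 σ := funext fun σ => hr 0 σ
    rw [this]
    exact (T.s_norm 0).1
  · intro i
    apply eq_of_forall_π T π hπk
    intro j
    rw [hentry, (T.s_norm j).2.1 i]
    split_ifs <;> simp
  · apply eq_of_forall_π T π hπk
    intro j
    rw [hentry, (T.s_norm j).2.2, AlgHom.commutes]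

include T in
theorem matCont_runiv (hπk : ∀ j, RingHom.ker (π j : R →+* T.D j) = maximalIdeal R ^ (j + 1))
    (r : GQ →* M2 R) (hr : ∀ j σ, (r σ).map (π j) = T.s j σ) : MatCont r := by
  intro n
  obtain ⟨ρ, hρ, -⟩ := T.s_type n
  obtain ⟨L, hL, h1⟩ := hρ.matCont (n + 1)
  refine ⟨L, hL, fun σ hσ a b => ?_⟩
  have h2 := h1 σ hσ a b
  rw [T.lev n, Ideal.mem_bot] at h2
  have h3 : (r σ - 1) a b ∈ maximalIdeal R ^ (n + 1) := by
    rw [← hπk n, RingHom.mem_ker]
    change π n ((r σ - 1) a b) = 0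
    rw [← h2]
    have : T.s n σ a b = π n (r σ a b) := by rw [← hr n σ]; rfl
    rw [Matrix.sub_apply, Matrix.sub_apply, map_sub, this]
    congr 1
    by_cases hab : a = b
    · subst hab; simp
    · simp [Matrix.one_apply_ne hab]
  exact Ideal.pow_le_pow_right (Nat.le_succ n) h3

end Limit

section Norm

variable {𝒪 : Type} [CommRing 𝒪] [IsLocalRing 𝒪]
  {ρbar : ResidualGaloisRep (ResidueField 𝒪)} {N : NormData 𝒪 ρbar}

theorem IsNorm.map {A B : Type} [CommRing A] [IsLocalRing A]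
    [Algebra 𝒪 A] [IsLocalHom (algebraMap 𝒪 A)] [CommRing B] [IsLocalRing B] [Algebra 𝒪 B]
    [IsLocalHom (algebraMap 𝒪 B)] (φ : A →ₐ[𝒪] B) (hφ : IsLocalHom (φ : A →+* B))
    {r : GQ → M2 A} (h : IsNorm N r) : IsNorm N (fun σ => (r σ).map φ) := by
  refine ⟨IsLift.map φ hφ h.1, ?_, ?_⟩
  · intro i
    simp only [Matrix.map_apply, h.2.1 i]
    split_ifs <;> simp
  · simp only [Matrix.map_apply, h.2.2, AlgHom.commutes]

end Norm

section Key

variable {𝒪 : Type} [CommRing 𝒪] [IsLocalRing 𝒪]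
  {𝒟 : ∀ ⦃A : Type⦄ [CommRing A] [IsLocalRing A] [Algebra 𝒪 A], GaloisRepAdic A → Prop}
  {ρbar : ResidualGaloisRep (ResidueField 𝒪)} {N : NormData 𝒪 ρbar} (T : UnivTower 𝒪 𝒟 N)
  {R : Type} [CommRing R] [IsLocalRing R] [IsNoetherianRing R]
  [IsAdicComplete (maximalIdeal R) R] [Algebra 𝒪 R] [IsLocalHom (algebraMap 𝒪 R)]
  (π : ∀ j, R →ₐ[𝒪] T.D j)

theorem map_maximalIdeal_pow_le {A B : Type} [CommRing A] [IsLocalRing A] [CommRing B]
    [IsLocalRing B] (f : A →+* B) (hf : IsLocalHom f) (n : ℕ) {x : A}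
    (hx : x ∈ maximalIdeal A ^ n) : f x ∈ maximalIdeal B ^ n := by
  have h1 : (maximalIdeal A).map f ≤ maximalIdeal B := by
    rw [Ideal.map_le_iff_le_comap]
    intro a ha
    rw [Ideal.mem_comap, mem_maximalIdeal, mem_nonunits_iff]
    intro hu
    exact ((mem_maximalIdeal a).1 ha) (hf.map_nonunit a hu)
  have h2 : f x ∈ (maximalIdeal A ^ n).map f := Ideal.mem_map_of_mem f hx
  rw [Ideal.map_pow] at h2
  exact Ideal.pow_right_mono h1 n h2

include T in
/-- Two algebra maps from `R` to a local algebra of bounded level which agree on the entries of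
the universal matrices are equal. -/
theorem algHom_eq_of_entries
    (hπs : ∀ j, Function.Surjective (π j))
    (hπk : ∀ j, RingHom.ker (π j : R →+* T.D j) = maximalIdeal R ^ (j + 1))
    (r : GQ →* M2 R) (hr : ∀ j σ, (r σ).map (π j) = T.s j σ)
    {B : Type} [CommRing B] [IsLocalRing B] [Algebra 𝒪 B]
    (hresB : Function.Surjective (residue B ∘ algebraMap 𝒪 B)) (m : ℕ)
    (hlev : maximalIdeal B ^ (m + 1) = ⊥) (g₁ g₂ : R →ₐ[𝒪] B)
    (h : ∀ σ a b, g₁ (r σ a b) = g₂ (r σ a b)) : g₁ = g₂ := by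
  have hkill : ∀ g : R →ₐ[𝒪] B, ∀ x, π m x = 0 → g x = 0 := by
    intro g x hx
    have hx' : x ∈ maximalIdeal R ^ (m + 1) := by
      rw [← hπk m, RingHom.mem_ker]; exact hx
    have := map_maximalIdeal_pow_le (g : R →+* B) (isLocalHom_of_res_surj hresB g) (m + 1) hx'
    rw [hlev, Ideal.mem_bot] at this
    exact this
  obtain ⟨g₁', hg₁⟩ := exists_algHom_factor (π m) (hπs m) g₁ (hkill g₁)
  obtain ⟨g₂', hg₂⟩ := exists_algHom_factor (π m) (hπs m) g₂ (hkill g₂)
  have heq : g₁' = g₂' := by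
    apply AlgHom.ext_of_adjoin_eq_top (T.s_gen m)
    rintro x ⟨σ, a, b, rfl⟩
    have : T.s m σ a b = π m (r σ a b) := by rw [← hr m σ]; rfl
    rw [this, hg₁, hg₂, h]
  ext x
  rw [← hg₁, ← hg₂, heq]

include T in
/-- The universal representation is of type `𝒟`. -/
theorem type_runiv [Finite (ResidueField 𝒪)] (h𝒟 : GaloisRep.IsDeformationCondition 𝒪 𝒟)
    (hπs : ∀ j, Function.Surjective (π j))
    (hπk : ∀ j, RingHom.ker (π j : R →+* T.D j) = maximalIdeal R ^ (j + 1))
    (hresR : Function.Surjective (residue R ∘ algebraMap 𝒪 R))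
    (r : GQ →* M2 R) (hr : ∀ j σ, (r σ).map (π j) = T.s j σ) (hc : MatCont r) :
    𝒟 (ofMat r hc) := by
  rw [h𝒟.iff_forall_surjective inferInstance hresR]
  intro B _ _ _ hB q hq _
  have := hB.isArtinian
  obtain ⟨n, hn⟩ := (isArtinianRing_iff_isNilpotent_maximalIdeal B).1 hB.isArtinian
  have hlev : maximalIdeal B ^ (n + 1) = ⊥ := by
    rw [pow_succ, hn]; simp
  have hkill : ∀ x, π n x = 0 → q x = 0 := by
    intro x hx
    have hx' : x ∈ maximalIdeal R ^ (n + 1) := by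
      rw [← hπk n, RingHom.mem_ker]; exact hx
    have := map_maximalIdeal_pow_le (q : R →+* B) hq (n + 1) hx'
    rw [hlev, Ideal.mem_bot] at this
    exact this
  obtain ⟨q', hq'⟩ := exists_algHom_factor (π n) (hπs n) q hkill
  have hq'loc : IsLocalHom (q' : T.D n →+* B) := isLocalHom_of_res_surj hB.residue_surjective q'
  obtain ⟨ρn, hρn, hDn⟩ := T.s_type n
  have hDtest : GaloisRep.IsArtinianTestAlgebra 𝒪 (T.D n) :=
    { isLocalHom := inferInstance
      residue_surjective := T.res_surj n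
      isArtinian := inferInstance }
  have hDn' := h𝒟.baseChangeAlong hDtest hB q' hq'loc hDn
  have e : (ρn.baseChangeAlong (q' : T.D n →+* B) hq'loc).IsEquiv
      ((ofMat r hc).baseChangeAlong (q : R →+* B) hq) := by
    rw [IsMatOf.isEquiv_iff (hρn.baseChangeAlong (q' : T.D n →+* B) hq'loc)
      ((isMatOf_ofMat r hc).baseChangeAlong (q : R →+* B) hq)]
    refine ⟨1, fun σ => ?_⟩
    simp only [Units.val_one, one_mul, mul_one]
    ext a b
    simp only [Matrix.map_apply]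
    have : T.s n σ a b = π n (r σ a b) := by rw [← hr n σ]; rfl
    rw [this]
    exact hq' _
  exact h𝒟.of_isEquiv hB e hDn'

end Key

section Universal

variable {𝒪 : Type} [CommRing 𝒪] [IsLocalRing 𝒪]
  {𝒟 : ∀ ⦃A : Type⦄ [CommRing A] [IsLocalRing A] [Algebra 𝒪 A], GaloisRepAdic A → Prop}
  {ρbar : ResidualGaloisRep (ResidueField 𝒪)} {N : NormData 𝒪 ρbar} (T : UnivTower 𝒪 𝒟 N)
  {R : Type} [CommRing R] [IsLocalRing R] [IsNoetherianRing R]
  [IsAdicComplete (maximalIdeal R) R] [Algebra 𝒪 R] [IsLocalHom (algebraMap 𝒪 R)]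
  (π : ∀ j, R →ₐ[𝒪] T.D j)
  {A : Type} [CommRing A] [IsLocalRing A] [IsNoetherianRing A]
  [IsAdicComplete (maximalIdeal A) A] [Algebra 𝒪 A] [IsLocalHom (algebraMap 𝒪 A)]

/-- Entrywise image of a matrix valued homomorphism, as a monoid homomorphism. -/
noncomputable def mapHom {A B : Type} [CommRing A] [CommRing B] (φ : A →+* B) (r : GQ →* M2 A) : GQ →* M2 B :=
  (RingHom.mapMatrix φ).toMonoidHom.comp r

@[simp] theorem mapHom_apply {A B : Type} [CommRing A] [CommRing B] (φ : A →+* B)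
    (r : GQ →* M2 A) (σ : GQ) : mapHom φ r σ = (r σ).map φ := rfl

theorem isArtinianTestAlgebra_quot_pow
    (hresA : Function.Surjective (residue A ∘ algebraMap 𝒪 A)) (n : ℕ) :
    GaloisRep.IsArtinianTestAlgebra 𝒪 (A ⧸ maximalIdeal A ^ (n + 1)) where
  isLocalHom := H50.isLocalHom_algebraMap_quot 𝒪 A n
  residue_surjective := H50.residue_surjective_quot 𝒪 A hresA n
  isArtinian := H50.isArtinianRing_quot A n

theorem isLocalHom_mk (n : ℕ) :
    IsLocalHom ((Ideal.Quotient.mkₐ 𝒪 (maximalIdeal A ^ (n + 1)) :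
      A →ₐ[𝒪] A ⧸ maximalIdeal A ^ (n + 1)) : A →+* A ⧸ maximalIdeal A ^ (n + 1)) :=
  IsLocalHom.of_surjective _ Ideal.Quotient.mk_surjective

include T in
/-- Existence of the classifying map of a normalized lift of type `𝒟`. -/
theorem exists_map_of_isNorm [Finite (ResidueField 𝒪)]
    (h𝒟 : GaloisRep.IsDeformationCondition 𝒪 𝒟)
    (hπs : ∀ j, Function.Surjective (π j))
    (hπk : ∀ j, RingHom.ker (π j : R →+* T.D j) = maximalIdeal R ^ (j + 1))
    (r : GQ →* M2 R) (hr : ∀ j σ, (r σ).map (π j) = T.s j σ)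
    (hresA : Function.Surjective (residue A ∘ algebraMap 𝒪 A))
    (ρA : GaloisRepAdic A) (hD : 𝒟 ρA) (rA : GQ →* M2 A) (hMat : IsMatOf ρA rA)
    (hNorm : IsNorm N rA) :
    ∃ φ : R →ₐ[𝒪] A, ∀ σ, (r σ).map φ = rA σ := by
  have hentry : ∀ j σ a b, π j (r σ a b) = T.s j σ a b := fun j σ a b => by
    rw [← hr j σ]; rfl
  -- level-wise maps
  have hlevel : ∀ n : ℕ, ∃ φn : T.D n →ₐ[𝒪] A ⧸ maximalIdeal A ^ (n + 1),
      ∀ σ a b, φn (T.s n σ a b) = Ideal.Quotient.mk _ (rA σ a b) := by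
    intro n
    have : IsLocalHom (algebraMap 𝒪 (A ⧸ maximalIdeal A ^ (n + 1))) :=
      H50.isLocalHom_algebraMap_quot 𝒪 A n
    have hTest := isArtinianTestAlgebra_quot_pow (𝒪 := 𝒪) (A := A) hresA n
    have hN : IsNorm N (mapHom (Ideal.Quotient.mkₐ 𝒪 (maximalIdeal A ^ (n + 1)) :
        A →+* A ⧸ maximalIdeal A ^ (n + 1)) rA) :=
      IsNorm.map (Ideal.Quotient.mkₐ 𝒪 (maximalIdeal A ^ (n + 1))) (isLocalHom_mk n) hNorm
    have hDM : DMat 𝒪 𝒟 (mapHom (Ideal.Quotient.mkₐ 𝒪 (maximalIdeal A ^ (n + 1)) :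
        A →+* A ⧸ maximalIdeal A ^ (n + 1)) rA) :=
      ⟨ρA.baseChangeAlong _ (isLocalHom_mk n), hMat.baseChangeAlong _ (isLocalHom_mk n),
        (h𝒟.iff_forall_surjective inferInstance hresA ρA).1 hD hTest
          (Ideal.Quotient.mkₐ 𝒪 (maximalIdeal A ^ (n + 1))) (isLocalHom_mk n)
          Ideal.Quotient.mk_surjective⟩
    obtain ⟨φn, hφn⟩ := T.exists_map n (A ⧸ maximalIdeal A ^ (n + 1)) hTest
      (H50.maximalIdeal_quot_pow A n) _ hN hDM
    refine ⟨φn, fun σ a b => ?_⟩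
    have := congrFun (congrFun (hφn σ) a) b
    simpa using this
  choose φn hφn using hlevel
  -- the maps to `A ⧸ m ^ n`
  let f : (n : ℕ) → R →ₐ[𝒪] A ⧸ maximalIdeal A ^ n := fun n =>
    (Ideal.Quotient.factorₐ 𝒪 (Ideal.pow_le_pow_right (Nat.le_succ n))).comp
      ((φn n).comp (π n))
  have hfe : ∀ n σ a b, f n (r σ a b) = Ideal.Quotient.mk _ (rA σ a b) := by
    intro n σ a b
    simp only [f, AlgHom.comp_apply, hentry, hφn]
    rfl
  have hf : ∀ {m n : ℕ} (hle : m ≤ n),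
      (Ideal.Quotient.factorₐ 𝒪 (Ideal.pow_le_pow_right hle)).comp (f n) = f m := by
    intro m n hle
    cases m with
    | zero =>
      ext x
      have : Subsingleton (A ⧸ maximalIdeal A ^ 0) := by
        rw [pow_zero, Ideal.one_eq_top]
        exact Ideal.Quotient.subsingleton_iff.2 rfl
      exact Subsingleton.elim _ _
    | succ m =>
      apply algHom_eq_of_entries T π hπs hπk r hr (H50.residue_surjective_quot 𝒪 A hresA m) m
        (H50.maximalIdeal_quot_pow A m)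
      intro σ a b
      rw [AlgHom.comp_apply, hfe, hfe]
      rfl
  refine ⟨IsAdicComplete.liftAlgHom (maximalIdeal A) f hf, fun σ => ?_⟩
  ext a b
  simp only [Matrix.map_apply]
  rw [← sub_eq_zero]
  apply eq_zero_of_forall_mem_pow (maximalIdeal A)
  intro n
  rw [← Ideal.Quotient.eq, IsAdicComplete.mk_liftAlgHom, hfe]

include T in
/-- Uniqueness of the classifying map. -/
theorem map_unique
    (hπs : ∀ j, Function.Surjective (π j))
    (hπk : ∀ j, RingHom.ker (π j : R →+* T.D j) = maximalIdeal R ^ (j + 1))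
    (r : GQ →* M2 R) (hr : ∀ j σ, (r σ).map (π j) = T.s j σ)
    (hresA : Function.Surjective (residue A ∘ algebraMap 𝒪 A))
    (φ φ' : R →ₐ[𝒪] A) (h : ∀ σ, (r σ).map φ = (r σ).map φ') : φ = φ' := by
  apply IsAdicComplete.algHom_ext (maximalIdeal A)
  intro n
  cases n with
  | zero =>
    ext x
    have : Subsingleton (A ⧸ maximalIdeal A ^ 0) := by
      rw [pow_zero, Ideal.one_eq_top]
      exact Ideal.Quotient.subsingleton_iff.2 rfl
    exact Subsingleton.elim _ _
  | succ m =>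
    apply algHom_eq_of_entries T π hπs hπk r hr (H50.residue_surjective_quot 𝒪 A hresA m) m
      (H50.maximalIdeal_quot_pow A m)
    intro σ a b
    have := congrFun (congrFun (h σ) a) b
    simp only [Matrix.map_apply] at this
    rw [AlgHom.comp_apply, AlgHom.comp_apply, this]

include T in
/-- The universal property of the limit ring. -/
theorem universal_runiv [Finite (ResidueField 𝒪)]
    (h𝒟 : GaloisRep.IsDeformationCondition 𝒪 𝒟)
    (hπs : ∀ j, Function.Surjective (π j))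
    (hπk : ∀ j, RingHom.ker (π j : R →+* T.D j) = maximalIdeal R ^ (j + 1))
    (r : GQ →* M2 R) (hr : ∀ j σ, (r σ).map (π j) = T.s j σ) (hc : MatCont r)
    (hresA : Function.Surjective (residue A ∘ algebraMap 𝒪 A))
    (ρA : GaloisRepAdic A) (hD : 𝒟 ρA)
    (hres : ρA.residual.IsEquiv
      (ρbar.baseChangeAlong (ResidueField.map (algebraMap 𝒪 A)))) :
    ∃! φ : R →ₐ[𝒪] A, ∃ hφ : IsLocalHom (φ : R →+* A),
      ((ofMat r hc).baseChangeAlong (φ : R →+* A) hφ).IsEquiv ρA := by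
  obtain ⟨r₀, hr₀, hl₀⟩ := exists_isLift_of_residual_isEquiv N.isMatOfRes ρA hres
  obtain ⟨Tm, rA, hNorm, hconj⟩ := exists_isNorm_conj_of_complete N r₀ hl₀
  have hMat : IsMatOf ρA rA := by
    have h1 := hr₀.conj Tm
    have h2 : (fun σ => (Tm : M2 A) * r₀ σ * ((Tm⁻¹ : (M2 A)ˣ) : M2 A)) = fun σ => rA σ := by
      funext σ
      rw [hconj σ, mul_assoc, Units.mul_inv, mul_one]
    rwa [h2] at h1
  obtain ⟨φ, hφ⟩ := exists_map_of_isNorm T π h𝒟 hπs hπk r hr hresA ρA hD rA hMat hNorm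
  have hloc : ∀ ψ : R →ₐ[𝒪] A, IsLocalHom (ψ : R →+* A) := isLocalHom_of_res_surj hresA
  refine ⟨φ, ⟨hloc φ, ?_⟩, ?_⟩
  · rw [IsMatOf.isEquiv_iff ((isMatOf_ofMat r hc).baseChangeAlong (φ : R →+* A) (hloc φ)) hMat]
    refine ⟨1, fun σ => ?_⟩
    simp only [Units.val_one, one_mul, mul_one]
    exact hφ σ
  · rintro φ' ⟨hφ', he⟩
    rw [IsMatOf.isEquiv_iff ((isMatOf_ofMat r hc).baseChangeAlong (φ' : R →+* A) hφ') hMat] at he
    obtain ⟨g, hg⟩ := he
    have hN' : IsNorm N (mapHom (φ' : R →+* A) r) :=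
      IsNorm.map φ' hφ' (isNorm_runiv T π hπk r hr)
    have heq : mapHom (φ' : R →+* A) r = rA := IsNorm.eq_of_conj N hN' hNorm g hg
    apply map_unique T π hπs hπk r hr hresA
    intro σ
    rw [hφ σ, ← heq]
    rfl

/-- Final assembly, given the limit ring. -/
theorem nonempty_of_limit (𝒪 : Type) [CommRing 𝒪] [IsDomain 𝒪] [IsDiscreteValuationRing 𝒪]
    [IsAdicComplete (IsLocalRing.maximalIdeal 𝒪) 𝒪] [Finite (IsLocalRing.ResidueField 𝒪)]
    (ρbar : ResidualGaloisRep (IsLocalRing.ResidueField 𝒪))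
    (𝒟 : ∀ ⦃A : Type⦄ [CommRing A] [IsLocalRing A] [Algebra 𝒪 A], GaloisRepAdic A → Prop)
    (h𝒟 : GaloisRep.IsDeformationCondition 𝒪 𝒟) (habs : ρbar.IsAbsolutelyIrreducible)
    (N : NormData 𝒪 ρbar) (T : UnivTower 𝒪 𝒟 N)
    (R : Type) [CommRing R] [IsLocalRing R] [IsNoetherianRing R]
    [IsAdicComplete (maximalIdeal R) R] [Algebra 𝒪 R] [IsLocalHom (algebraMap 𝒪 R)]
    (π : ∀ j, R →ₐ[𝒪] T.D j)
    (hresR : Function.Surjective (residue R ∘ algebraMap 𝒪 R))
    (hπs : ∀ j, Function.Surjective (π j))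
    (hπk : ∀ j, RingHom.ker (π j : R →+* T.D j) = maximalIdeal R ^ (j + 1))
    (hπl : ∀ x : ∀ j, T.D j, (∀ j, T.u j (x (j + 1)) = x j) → ∃ r : R, ∀ j, π j r = x j) :
    Nonempty (GaloisRep.DeformationRingData 𝒪 ρbar 𝒟) := by
  obtain ⟨r, hr⟩ := exists_runiv T π hπk hπl
  have hc : MatCont r := matCont_runiv T π hπk r hr
  have hN : IsNorm N r := isNorm_runiv T π hπk r hr
  exact ⟨{ R := R
           residue_surjective := hresR
           absIrr := habs
           ρ := ofMat r hc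
           isOfType := type_runiv T π h𝒟 hπs hπk hresR r hr hc
           residual_isEquiv := residual_isEquiv_of_isLift N.isMatOfRes (isMatOf_ofMat r hc) hN.1
           universal := fun A _ _ _ _ _ _ hresA ρA hD hres =>
             universal_runiv T π h𝒟 hπs hπk r hr hc hresA ρA hD hres }⟩

end Universal

end Univ

end Fermat.Agent.S53
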