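import Fermat.Agent.S53.Pairs

set_option autoImplicit false
set_option linter.unusedSectionVars false
set_option linter.style.haveILetI false

/-!
# S53: the tangent bound: homomorphisms from a normalized pair to `k[ε]` inject into the finite
set of `GaloisRep.TangentFinite`.
-/

namespace Fermat.Agent.S53

open IsLocalRing

section

variable (𝒪 : Type) [CommRing 𝒪] [IsLocalRing 𝒪]
variable (ρbar : ResidualGaloisRep (ResidueField 𝒪))
variable (𝒟 : ∀ ⦃A : Type⦄ [CommRing A] [IsLocalRing A] [Algebra 𝒪 A], GaloisRepAdic A → Prop)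

/-- The `k`-algebra structure on the residue field of `k[ε]` used in `TangentFinite`. -/
@[reducible] noncomputable def resDualNumberAlgebra :
    Algebra (ResidueField 𝒪) (ResidueField (DualNumber (ResidueField 𝒪))) :=
  ((IsLocalRing.residue (DualNumber (ResidueField 𝒪))).comp
      (algebraMap (ResidueField 𝒪) (DualNumber (ResidueField 𝒪)))).toAlgebra

/-- The type of first order deformations of type `𝒟`. -/
def TSub : Type 1 :=
  letI := dualNumberAlgebra 𝒪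
  letI := resDualNumberAlgebra 𝒪
  {ρ : GaloisRepAdic (DualNumber (ResidueField 𝒪)) //
      𝒟 ρ ∧ ρ.residual.IsEquiv (ρbar.baseChange (ResidueField (DualNumber (ResidueField 𝒪)))) }

/-- Equivalence of first order deformations. -/
def TSetoid : Setoid (TSub 𝒪 ρbar 𝒟) :=
  ⟨fun ρ ρ' => ρ.1.IsEquiv ρ'.1, ⟨fun ρ => ⟨GaloisRepAdic.Equiv.refl ρ.1⟩,
        fun ⟨e⟩ => ⟨e.symm⟩, fun ⟨e⟩ ⟨e'⟩ => ⟨e.trans e'⟩⟩⟩

theorem tangentFinite_iff :
    GaloisRep.TangentFinite 𝒪 ρbar 𝒟 ↔ Finite (Quotient (TSetoid 𝒪 ρbar 𝒟)) := Iff.rfl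

end

section

variable {𝒪 : Type} [CommRing 𝒪] [IsLocalRing 𝒪] [Finite (ResidueField 𝒪)]
variable {ρbar : ResidualGaloisRep (ResidueField 𝒪)}
variable {𝒟 : ∀ ⦃A : Type⦄ [CommRing A] [IsLocalRing A] [Algebra 𝒪 A], GaloisRepAdic A → Prop}

theorem exists_tsub_of_hom (h𝒟 : GaloisRep.IsDeformationCondition 𝒪 𝒟) (N : NormData 𝒪 ρbar)
    (p : NPair 𝒪 𝒟 N)
    (φ : letI := dualNumberAlgebra 𝒪; p.A →ₐ[𝒪] DualNumber (ResidueField 𝒪)) :
    ∃ x : TSub 𝒪 ρbar 𝒟, IsMatOf x.1 (fun σ => (p.r σ).map φ) := by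
  letI := dualNumberAlgebra 𝒪
  letI := resDualNumberAlgebra 𝒪
  haveI := isLocalHom_algebraMap_dualNumber 𝒪
  haveI := finite_dualNumber 𝒪
  have hkε : GaloisRep.IsArtinianTestAlgebra 𝒪 (DualNumber (ResidueField 𝒪)) :=
    isArtinianTestAlgebra_of_finite (res_surj_dualNumber 𝒪)
  have hφ : IsLocalHom (φ : p.A →+* DualNumber (ResidueField 𝒪)) := isLocalHom_of_finite φ
  have hD : DMat 𝒪 𝒟 (fun σ => (p.r σ).map φ) := p.type.map h𝒟 p.test hkε φ hφ
  have hcont : MatCont (mapHom (φ : p.A →+* DualNumber (ResidueField 𝒪)) p.r) := hD.matCont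
  have hmat := isMatOf_ofMat (mapHom (φ : p.A →+* DualNumber (ResidueField 𝒪)) p.r) hcont
  have hnorm : IsNorm N (fun σ => (p.r σ).map φ) := p.norm.map φ hφ
  refine ⟨⟨ofMat (mapHom (φ : p.A →+* DualNumber (ResidueField 𝒪)) p.r) hcont,
    hD.of_isMatOf h𝒟 hkε hmat, ?_⟩, hmat⟩
  rw [IsMatOfRes.isEquiv_iff hmat.residual
    (IsMatOfRes.baseChange (ResidueField (DualNumber (ResidueField 𝒪))) N.isMatOfRes)]
  refine ⟨1, fun σ => ?_⟩
  rw [Units.val_one, one_mul, mul_one]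
  ext i j
  simp only [Matrix.map_apply]
  obtain ⟨c, hc⟩ := residue_surjective (N.rbar σ i j)
  have h1 := (isLift_iff N.rbar _).mp hnorm.1 σ i j c hc
  have h2 : residue _ ((p.r σ).map φ i j - algebraMap 𝒪 (DualNumber (ResidueField 𝒪)) c) = 0 :=
    (residue_eq_zero_iff _).mpr h1
  rw [map_sub, sub_eq_zero] at h2
  simp only [Matrix.map_apply] at h2
  refine (h2.trans ?_)
  rw [← hc]
  rfl

/-- The number of homomorphisms from a normalized pair to `k[ε]` is bounded independently of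
the pair. -/
theorem exists_card_hom_bound (h𝒟 : GaloisRep.IsDeformationCondition 𝒪 𝒟)
    (hfin : GaloisRep.TangentFinite 𝒪 ρbar 𝒟) (N : NormData 𝒪 ρbar) :
    ∃ Nb : ℕ, ∀ p : NPair 𝒪 𝒟 N,
      (letI := dualNumberAlgebra 𝒪
       Nat.card (p.A →ₐ[𝒪] DualNumber (ResidueField 𝒪)) ≤ Nb) := by
  rw [tangentFinite_iff] at hfin
  refine ⟨Nat.card (Quotient (TSetoid 𝒪 ρbar 𝒟)), fun p => ?_⟩
  letI := dualNumberAlgebra 𝒪
  haveI := isLocalHom_algebraMap_dualNumber 𝒪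
  haveI := finite_dualNumber 𝒪
  choose F hF using exists_tsub_of_hom (ρbar := ρbar) h𝒟 N p
  apply Nat.card_le_card_of_injective (fun φ => Quotient.mk (TSetoid 𝒪 ρbar 𝒟) (F φ))
  intro φ ψ h
  have h1 : (F φ).1.IsEquiv (F ψ).1 := Quotient.exact h
  rw [IsMatOf.isEquiv_iff (hF φ) (hF ψ)] at h1
  obtain ⟨g, hg⟩ := h1
  have hφ : IsLocalHom (φ : p.A →+* DualNumber (ResidueField 𝒪)) := isLocalHom_of_finite φ
  have hψ : IsLocalHom (ψ : p.A →+* DualNumber (ResidueField 𝒪)) := isLocalHom_of_finite ψ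
  have := IsNorm.eq_of_conj N (r := mapHom (φ : p.A →+* DualNumber (ResidueField 𝒪)) p.r)
    (r' := mapHom (ψ : p.A →+* DualNumber (ResidueField 𝒪)) p.r) (p.norm.map φ hφ)
    (p.norm.map ψ hψ) g hg
  exact p.hom_ext (fun σ => congrArg (fun t : GQ →* M2 _ => t σ) this)

end

end Fermat.Agent.S53
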