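import Fermat.Agent.S53.Level
import Fermat.Agent.S53.Tower

set_option autoImplicit false
set_option linter.unusedSectionVars false
set_option linter.style.haveILetI false

/-!
# S53: existence of the tower of level-wise universal normalized pairs.
-/

namespace Fermat.Agent.S53

open IsLocalRing

variable {𝒪 : Type} [CommRing 𝒪] [IsDomain 𝒪] [IsDiscreteValuationRing 𝒪]
  [Finite (ResidueField 𝒪)]
variable {ρbar : ResidualGaloisRep (ResidueField 𝒪)}
variable {𝒟 : ∀ ⦃A : Type⦄ [CommRing A] [IsLocalRing A] [Algebra 𝒪 A], GaloisRepAdic A → Prop}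

theorem exists_univTower (h𝒟 : GaloisRep.IsDeformationCondition 𝒪 𝒟)
    (hbar : 𝒟 (GaloisRepAdic.ofResidualGaloisRep ρbar))
    (hfin : GaloisRep.TangentFinite 𝒪 ρbar 𝒟) (N : NormData 𝒪 ρbar) :
    Nonempty (UnivTower 𝒪 𝒟 N) := by
  choose P hP using exists_maxPair h𝒟 hbar hfin N
  have hlev' : ∀ j, maximalIdeal (P j).A ^ (j + 1 + 1) = ⊥ := by
    intro j
    have h : maximalIdeal (P j).A ^ (j + 1) = ⊥ := (hP j).1
    rw [pow_succ, h, Ideal.bot_mul]
  have hu : ∀ j, ∃ u : (P (j + 1)).A →ₐ[𝒪] (P j).A,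
      ∀ σ, ((P (j + 1)).r σ).map u = (P j).r σ := fun j =>
    (P (j + 1)).exists_map h𝒟 (j + 1) (hP (j + 1)).2 (hP (j + 1)).1 (P j).res_surj (hlev' j)
      (P j).r (P j).norm (P j).type
  choose u hu using hu
  exact ⟨{
    D := fun j => (P j).A
    res_surj := fun j => (P j).res_surj
    lev := fun j => (hP j).1
    u := u
    u_surj := fun j => (P j).surjective_of_map (u j) _ (hu j)
    ker_u := fun j => NPair.ker_eq_of_max h𝒟 (P j) (P (j + 1)) j (hP j).1 (hP j).2 (u j) (hu j)
    s := fun j => (P j).r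
    s_compat := hu
    s_norm := fun j => (P j).norm
    s_type := fun j => (P j).type
    s_gen := fun j => (P j).gen
    exists_map := fun j A _ _ _ _ hA hlev r hr hD => by
      haveI := finite_of_isArtinianTestAlgebra hA
      exact (P j).exists_map h𝒟 j (hP j).2 (hP j).1 hA.residue_surjective hlev r hr hD }⟩

end Fermat.Agent.S53
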