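import Fermat.Agent.S53.Defs

set_option autoImplicit false

/-!
# S53: basic facts on test algebras (finite local `𝒪`-algebras with residue field `k`).

A "test algebra" is given by instances
`[CommRing A] [IsLocalRing A] [Algebra 𝒪 A] [IsLocalHom (algebraMap 𝒪 A)] [Finite A]`
plus `hres : Function.Surjective (residue A ∘ algebraMap 𝒪 A)`.

All statements of the interface are proved (helper90). Extra helper lemmas:
`finite_of_isFiniteLength`, `isNilpotent_of_not_isUnit`, `map_maximalIdeal_le`,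
`isUnit_of_sub_mem`, `isUnit_of_mem_fibre_of_isUnit_fst/snd`, `isLocalHom_mk_quot_pow`.
-/

namespace Fermat.Agent.S53

open IsLocalRing

variable {𝒪 : Type} [CommRing 𝒪] [IsLocalRing 𝒪]

section Basic

variable {A : Type} [CommRing A] [IsLocalRing A] [Algebra 𝒪 A]

/-- a module of finite length over a local ring with finite residue field is finite -/
theorem finite_of_isFiniteLength {A : Type} [CommRing A] [IsLocalRing A] [Finite (ResidueField A)]
    {M : Type} [AddCommGroup M] [Module A M] (h : IsFiniteLength A M) : Finite M := by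
  induction h with
  | of_subsingleton => infer_instance
  | @of_simple_quotient M _ _ N hs _ ih =>
    obtain ⟨I, hI, ⟨e⟩⟩ := isSimpleModule_iff_quot_maximal.mp hs
    have hI' : I = maximalIdeal A := IsLocalRing.eq_maximalIdeal hI
    subst hI'
    have : Finite (A ⧸ maximalIdeal A) := ‹Finite (ResidueField A)›
    have : Finite (M ⧸ N) := Finite.of_equiv _ e.symm.toEquiv
    have : Finite N := ih
    have : Finite (M ⧸ N.toAddSubgroup) := ‹Finite (M ⧸ N)›
    have : Finite N.toAddSubgroup := ‹Finite N›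
    exact Finite.of_equiv _ (AddSubgroup.addGroupEquivQuotientProdAddSubgroup (s := N.toAddSubgroup)).symm

theorem finite_of_isArtinianTestAlgebra [Finite (ResidueField 𝒪)]
    (hA : GaloisRep.IsArtinianTestAlgebra 𝒪 A) : Finite A := by
  have := hA.isLocalHom
  have := hA.isArtinian
  have hsurj : Function.Surjective (ResidueField.map (algebraMap 𝒪 A)) := by
    intro x
    obtain ⟨c, hc⟩ := hA.residue_surjective x
    exact ⟨residue 𝒪 c, by rw [ResidueField.map_residue]; exact hc⟩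
  have : Finite (ResidueField A) := Finite.of_surjective _ hsurj
  have hfl : IsFiniteLength A A :=
    isFiniteLength_iff_isNoetherian_isArtinian.mpr ⟨inferInstance, inferInstance⟩
  exact finite_of_isFiniteLength hfl

theorem isArtinianTestAlgebra_of_finite [IsLocalHom (algebraMap 𝒪 A)] [Finite A]
    (hres : Function.Surjective (residue A ∘ algebraMap 𝒪 A)) :
    GaloisRep.IsArtinianTestAlgebra 𝒪 A :=
  ⟨inferInstance, hres, isArtinian_of_finite⟩

theorem exists_sub_mem_maximalIdeal (hres : Function.Surjective (residue A ∘ algebraMap 𝒪 A))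
    (a : A) : ∃ c : 𝒪, a - algebraMap 𝒪 A c ∈ maximalIdeal A := by
  obtain ⟨c, hc⟩ := hres (residue A a)
  refine ⟨c, ?_⟩
  rw [← residue_eq_zero_iff, map_sub, sub_eq_zero]
  exact hc.symm

theorem exists_pow_maximalIdeal_eq_bot [Finite A] : ∃ n : ℕ, maximalIdeal A ^ n = ⊥ := by
  have : IsArtinianRing A := isArtinian_of_finite
  have h := IsArtinianRing.isNilpotent_jacobson_bot (R := A)
  rw [IsLocalRing.jacobson_eq_maximalIdeal ⊥ bot_ne_top] at h
  obtain ⟨n, hn⟩ := h
  exact ⟨n, hn⟩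

/-- in a finite local ring the nonunits are nilpotent -/
theorem isNilpotent_of_not_isUnit [Finite A] {a : A} (ha : ¬ IsUnit a) : IsNilpotent a := by
  obtain ⟨n, hn⟩ := exists_pow_maximalIdeal_eq_bot (A := A)
  refine ⟨n, ?_⟩
  have : a ^ n ∈ maximalIdeal A ^ n := Ideal.pow_mem_pow ((mem_maximalIdeal a).mpr ha) n
  rw [hn] at this
  exact (Submodule.mem_bot A).mp this

theorem isLocalHom_of_finite [Finite A] {B : Type} [CommRing B] [IsLocalRing B] [Algebra 𝒪 B]
    (φ : A →ₐ[𝒪] B) : IsLocalHom (φ : A →+* B) := by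
  refine ⟨fun a ha => ?_⟩
  by_contra hna
  obtain ⟨n, hn⟩ := isNilpotent_of_not_isUnit hna
  have h1 : ((φ : A →+* B) a) ^ n = 0 := by rw [← map_pow, hn, map_zero]
  have h2 : IsUnit (((φ : A →+* B) a) ^ n) := ha.pow n
  rw [h1] at h2
  exact not_isUnit_zero h2

end Basic

section Sub

theorem isLocalHom_subalgebra_val {P : Type} [CommRing P] [Algebra 𝒪 P] [Finite P]
    (E : Subalgebra 𝒪 P) : IsLocalHom (E.val : E →+* P) := by
  refine ⟨fun x hx => ?_⟩
  obtain ⟨u, hu⟩ := hx
  have hpos : 0 < orderOf u := orderOf_pos u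
  have hpow : u ^ orderOf u = 1 := pow_orderOf_eq_one u
  have hx1 : (x : P) ^ orderOf u = 1 := by
    have := congrArg (fun v : Pˣ => (v : P)) hpow
    simp only [Units.val_pow_eq_pow_val, Units.val_one] at this
    rw [hu] at this
    exact this
  refine IsUnit.of_mul_eq_one (x ^ (orderOf u - 1)) ?_
  apply Subtype.ext
  rw [← pow_succ', Nat.sub_add_cancel hpos]
  simpa using hx1

variable {E A : Type} [CommRing E] [IsLocalRing E] [Algebra 𝒪 E]
  [CommRing A] [IsLocalRing A] [Algebra 𝒪 A]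

theorem isLocalHom_algebraMap_of_isLocalHom [IsLocalHom (algebraMap 𝒪 A)] (f : E →ₐ[𝒪] A) :
    IsLocalHom (algebraMap 𝒪 E) := by
  refine ⟨fun c hc => ?_⟩
  have h1 : IsUnit (f (algebraMap 𝒪 E c)) := hc.map f
  rw [AlgHom.commutes] at h1
  exact isUnit_of_map_unit (algebraMap 𝒪 A) c h1

theorem res_surj_of_isLocalHom (f : E →ₐ[𝒪] A) (hf : IsLocalHom (f : E →+* A))
    (hres : Function.Surjective (residue A ∘ algebraMap 𝒪 A)) :
    Function.Surjective (residue E ∘ algebraMap 𝒪 E) := by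
  intro x
  obtain ⟨e, rfl⟩ := residue_surjective x
  obtain ⟨c, hc⟩ := exists_sub_mem_maximalIdeal hres (f e)
  refine ⟨c, ?_⟩
  simp only [Function.comp_apply]
  rw [← sub_eq_zero, ← map_sub, residue_eq_zero_iff, mem_maximalIdeal, mem_nonunits_iff]
  intro hu
  have h1 : IsUnit (f (algebraMap 𝒪 E c - e)) := hu.map f
  rw [map_sub, AlgHom.commutes] at h1
  have h2 : f e - algebraMap 𝒪 A c = -(algebraMap 𝒪 A c - f e) := by ring
  rw [h2] at hc
  exact (mem_maximalIdeal _).mp hc h1.neg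

theorem map_maximalIdeal_le {R S : Type} [CommRing R] [IsLocalRing R] [CommRing S] [IsLocalRing S]
    (f : R →+* S) (hf : IsLocalHom f) : (maximalIdeal R).map f ≤ maximalIdeal S := by
  rw [Ideal.map_le_iff_le_comap]
  intro x hx
  rw [Ideal.mem_comap, mem_maximalIdeal, mem_nonunits_iff]
  intro hu
  exact (mem_maximalIdeal x).mp hx (hf.map_nonunit x hu)

theorem pow_eq_bot_of_injective_prod {B : Type} [CommRing B] [IsLocalRing B] [Algebra 𝒪 B]
    (f : E →ₐ[𝒪] A) (g : E →ₐ[𝒪] B) (hf : IsLocalHom (f : E →+* A))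
    (hg : IsLocalHom (g : E →+* B)) (hinj : Function.Injective fun x => (f x, g x)) (n : ℕ)
    (hA : maximalIdeal A ^ n = ⊥) (hB : maximalIdeal B ^ n = ⊥) : maximalIdeal E ^ n = ⊥ := by
  rw [eq_bot_iff]
  intro x hx
  have h1 : (f : E →+* A) x ∈ maximalIdeal A ^ n := by
    have : (f : E →+* A) x ∈ (maximalIdeal E ^ n).map (f : E →+* A) := Ideal.mem_map_of_mem _ hx
    rw [Ideal.map_pow] at this
    exact Ideal.pow_right_mono (map_maximalIdeal_le _ hf) n this
  have h2 : (g : E →+* B) x ∈ maximalIdeal B ^ n := by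
    have : (g : E →+* B) x ∈ (maximalIdeal E ^ n).map (g : E →+* B) := Ideal.mem_map_of_mem _ hx
    rw [Ideal.map_pow] at this
    exact Ideal.pow_right_mono (map_maximalIdeal_le _ hg) n this
  rw [hA] at h1
  rw [hB] at h2
  have h1' : f x = 0 := (Submodule.mem_bot A).mp h1
  have h2' : g x = 0 := (Submodule.mem_bot B).mp h2
  have : (fun x => (f x, g x)) x = (fun x => (f x, g x)) 0 := by
    simp only [h1', h2', map_zero]
  exact (Submodule.mem_bot E).mpr (hinj this)

end Sub

section Fibre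

variable (𝒪)
variable (A B : Type) [CommRing A] [IsLocalRing A] [Algebra 𝒪 A]
  [CommRing B] [IsLocalRing B] [Algebra 𝒪 B]

/-- The fibre product `A ×_k B` as a subalgebra of `A × B`. -/
def fibre : Subalgebra 𝒪 (A × B) where
  carrier := {x | ∃ c : 𝒪, x.1 - algebraMap 𝒪 A c ∈ maximalIdeal A ∧
    x.2 - algebraMap 𝒪 B c ∈ maximalIdeal B}
  mul_mem' := by
    rintro x y ⟨c, hc1, hc2⟩ ⟨d, hd1, hd2⟩
    refine ⟨c * d, ?_, ?_⟩
    · have : (x * y).1 - algebraMap 𝒪 A (c * d) =
          (x.1 - algebraMap 𝒪 A c) * y.1 + algebraMap 𝒪 A c * (y.1 - algebraMap 𝒪 A d) := by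
        rw [map_mul, Prod.fst_mul]; ring
      rw [this]
      exact Ideal.add_mem _ (Ideal.mul_mem_right _ _ hc1) (Ideal.mul_mem_left _ _ hd1)
    · have : (x * y).2 - algebraMap 𝒪 B (c * d) =
          (x.2 - algebraMap 𝒪 B c) * y.2 + algebraMap 𝒪 B c * (y.2 - algebraMap 𝒪 B d) := by
        rw [map_mul, Prod.snd_mul]; ring
      rw [this]
      exact Ideal.add_mem _ (Ideal.mul_mem_right _ _ hc2) (Ideal.mul_mem_left _ _ hd2)
  add_mem' := by
    rintro x y ⟨c, hc1, hc2⟩ ⟨d, hd1, hd2⟩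
    refine ⟨c + d, ?_, ?_⟩
    · have : (x + y).1 - algebraMap 𝒪 A (c + d) =
          (x.1 - algebraMap 𝒪 A c) + (y.1 - algebraMap 𝒪 A d) := by
        rw [map_add, Prod.fst_add]; ring
      rw [this]
      exact Ideal.add_mem _ hc1 hd1
    · have : (x + y).2 - algebraMap 𝒪 B (c + d) =
          (x.2 - algebraMap 𝒪 B c) + (y.2 - algebraMap 𝒪 B d) := by
        rw [map_add, Prod.snd_add]; ring
      rw [this]
      exact Ideal.add_mem _ hc2 hd2
  algebraMap_mem' := by
    intro c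
    refine ⟨c, ?_, ?_⟩
    · have : (algebraMap 𝒪 (A × B) c).1 - algebraMap 𝒪 A c = 0 := by
        rw [Prod.algebraMap_apply]; simp
      rw [this]
      exact Ideal.zero_mem _
    · have : (algebraMap 𝒪 (A × B) c).2 - algebraMap 𝒪 B c = 0 := by
        rw [Prod.algebraMap_apply]; simp
      rw [this]
      exact Ideal.zero_mem _

variable {𝒪 A B}

theorem mem_fibre (x : A × B) : x ∈ fibre 𝒪 A B ↔ ∃ c : 𝒪,
    x.1 - algebraMap 𝒪 A c ∈ maximalIdeal A ∧ x.2 - algebraMap 𝒪 B c ∈ maximalIdeal B :=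
  Iff.rfl

/-- in a local ring, an element congruent to a unit modulo the maximal ideal is a unit -/
theorem isUnit_of_sub_mem {R : Type} [CommRing R] [IsLocalRing R] {a b : R}
    (hab : a - b ∈ maximalIdeal R) (ha : IsUnit a) : IsUnit b := by
  by_contra hb
  have hb' : b ∈ maximalIdeal R := (mem_maximalIdeal b).mpr hb
  have : a ∈ maximalIdeal R := by
    have h := Ideal.add_mem _ hab hb'
    rwa [sub_add_cancel] at h
  exact (mem_maximalIdeal a).mp this ha

variable [IsLocalHom (algebraMap 𝒪 A)] [IsLocalHom (algebraMap 𝒪 B)] [Finite A] [Finite B]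

theorem isUnit_of_mem_fibre_of_isUnit_fst {x : A × B} (hx : x ∈ fibre 𝒪 A B)
    (h1 : IsUnit x.1) : IsUnit x := by
  obtain ⟨c, hc1, hc2⟩ := hx
  have hcA : IsUnit (algebraMap 𝒪 A c) := isUnit_of_sub_mem hc1 h1
  have hc : IsUnit c := isUnit_of_map_unit (algebraMap 𝒪 A) c hcA
  have hcB : IsUnit (algebraMap 𝒪 B c) := hc.map (algebraMap 𝒪 B)
  have h2 : IsUnit x.2 := by
    have h : algebraMap 𝒪 B c - x.2 ∈ maximalIdeal B := by
      have := Ideal.neg_mem_iff (maximalIdeal B) |>.mpr hc2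
      rwa [neg_sub] at this
    exact isUnit_of_sub_mem h hcB
  exact Prod.isUnit_iff.mpr ⟨h1, h2⟩

theorem isUnit_of_mem_fibre_of_isUnit_snd {x : A × B} (hx : x ∈ fibre 𝒪 A B)
    (h2 : IsUnit x.2) : IsUnit x := by
  obtain ⟨c, hc1, hc2⟩ := hx
  have hcB : IsUnit (algebraMap 𝒪 B c) := isUnit_of_sub_mem hc2 h2
  have hc : IsUnit c := isUnit_of_map_unit (algebraMap 𝒪 B) c hcB
  have hcA : IsUnit (algebraMap 𝒪 A c) := hc.map (algebraMap 𝒪 A)
  have h1 : IsUnit x.1 := by
    have h : algebraMap 𝒪 A c - x.1 ∈ maximalIdeal A := by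
      have := Ideal.neg_mem_iff (maximalIdeal A) |>.mpr hc1
      rwa [neg_sub] at this
    exact isUnit_of_sub_mem h hcA
  exact Prod.isUnit_iff.mpr ⟨h1, h2⟩

theorem isLocalHom_fst_of_le_fibre (E : Subalgebra 𝒪 (A × B)) (hE : E ≤ fibre 𝒪 A B) :
    IsLocalHom (((AlgHom.fst 𝒪 A B).comp E.val : E →ₐ[𝒪] A) : E →+* A) := by
  refine ⟨fun x hx => ?_⟩
  have h1 : IsUnit (x : A × B).1 := hx
  have h : IsUnit (x : A × B) := isUnit_of_mem_fibre_of_isUnit_fst (hE x.2) h1
  exact (isLocalHom_subalgebra_val E).map_nonunit x h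

theorem isLocalHom_snd_of_le_fibre (E : Subalgebra 𝒪 (A × B)) (hE : E ≤ fibre 𝒪 A B) :
    IsLocalHom (((AlgHom.snd 𝒪 A B).comp E.val : E →ₐ[𝒪] B) : E →+* B) := by
  refine ⟨fun x hx => ?_⟩
  have h2 : IsUnit (x : A × B).2 := hx
  have h : IsUnit (x : A × B) := isUnit_of_mem_fibre_of_isUnit_snd (hE x.2) h2
  exact (isLocalHom_subalgebra_val E).map_nonunit x h

end Fibre

section ToK

variable (𝒪)
variable (A : Type) [CommRing A] [IsLocalRing A] [Algebra 𝒪 A] [IsLocalHom (algebraMap 𝒪 A)]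

/-- The canonical map from a test algebra to `k = ResidueField 𝒪`. -/
theorem exists_toK (hres : Function.Surjective (residue A ∘ algebraMap 𝒪 A)) :
    ∃ f : A →ₐ[𝒪] ResidueField 𝒪, Function.Surjective f ∧
      (∀ a : A, f a = 0 ↔ a ∈ maximalIdeal A) ∧
      ∀ (a : A) (c : 𝒪), f a = residue 𝒪 c ↔ a - algebraMap 𝒪 A c ∈ maximalIdeal A := by
  have hbij : Function.Bijective (ResidueField.map (algebraMap 𝒪 A)) := by
    refine ⟨(ResidueField.map (algebraMap 𝒪 A)).injective, fun x => ?_⟩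
    obtain ⟨c, hc⟩ := hres x
    exact ⟨residue 𝒪 c, by rw [ResidueField.map_residue]; exact hc⟩
  let e : ResidueField 𝒪 ≃+* ResidueField A := RingEquiv.ofBijective _ hbij
  have he : ∀ x, e x = ResidueField.map (algebraMap 𝒪 A) x := fun _ => rfl
  let f0 : A →+* ResidueField 𝒪 := (e.symm : ResidueField A →+* ResidueField 𝒪).comp (residue A)
  have hf0 : ∀ a, f0 a = e.symm (residue A a) := fun _ => rfl
  have hcomm : ∀ c : 𝒪, f0 (algebraMap 𝒪 A c) = algebraMap 𝒪 (ResidueField 𝒪) c := by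
    intro c
    rw [hf0, RingEquiv.symm_apply_eq, he]
    exact (ResidueField.map_residue (algebraMap 𝒪 A) c).symm
  let f : A →ₐ[𝒪] ResidueField 𝒪 := { f0 with commutes' := hcomm }
  have hf : ∀ a, f a = e.symm (residue A a) := fun _ => rfl
  refine ⟨f, ?_, ?_, ?_⟩
  · intro x
    obtain ⟨a, ha⟩ := residue_surjective (e x)
    exact ⟨a, by rw [hf, ha, RingEquiv.symm_apply_apply]⟩
  · intro a
    rw [hf, map_eq_zero_iff _ e.symm.injective, residue_eq_zero_iff]
  · intro a c
    rw [hf, RingEquiv.symm_apply_eq, he, ResidueField.map_residue, ← sub_eq_zero, ← map_sub,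
      residue_eq_zero_iff]

end ToK

section Quot

variable {A : Type} [CommRing A] [IsLocalRing A] [Algebra 𝒪 A]

theorem nontrivial_quot_pow (n : ℕ) : Nontrivial (A ⧸ maximalIdeal A ^ (n + 1)) := by
  rw [Ideal.Quotient.nontrivial_iff]
  intro h
  have h1 : maximalIdeal A ^ (n + 1) ≤ maximalIdeal A := Ideal.pow_le_self (Nat.succ_ne_zero n)
  rw [h] at h1
  exact (maximalIdeal.isMaximal A).ne_top (top_le_iff.mp h1)

instance instIsLocalRingQuotPow (n : ℕ) : IsLocalRing (A ⧸ maximalIdeal A ^ (n + 1)) :=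
  haveI := nontrivial_quot_pow (A := A) n
  IsLocalRing.of_surjective' (Ideal.Quotient.mk _) Ideal.Quotient.mk_surjective

theorem isLocalHom_mk_quot_pow (n : ℕ) :
    IsLocalHom (Ideal.Quotient.mk (maximalIdeal A ^ (n + 1))) :=
  IsLocalHom.of_surjective _ Ideal.Quotient.mk_surjective

theorem isLocalHom_algebraMap_quot_pow [IsLocalHom (algebraMap 𝒪 A)] (n : ℕ) :
    IsLocalHom (algebraMap 𝒪 (A ⧸ maximalIdeal A ^ (n + 1))) := by
  have h : algebraMap 𝒪 (A ⧸ maximalIdeal A ^ (n + 1)) =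
      (Ideal.Quotient.mk (maximalIdeal A ^ (n + 1))).comp (algebraMap 𝒪 A) := rfl
  rw [h]
  haveI := isLocalHom_mk_quot_pow (A := A) n
  exact RingHom.isLocalHom_comp _ _

theorem maximalIdeal_quot_pow (n : ℕ) :
    maximalIdeal (A ⧸ maximalIdeal A ^ (n + 1)) =
      (maximalIdeal A).map (Ideal.Quotient.mk (maximalIdeal A ^ (n + 1))) := by
  apply le_antisymm
  · intro x hx
    obtain ⟨a, rfl⟩ := Ideal.Quotient.mk_surjective x
    apply Ideal.mem_map_of_mem
    rw [mem_maximalIdeal, mem_nonunits_iff] at hx ⊢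
    intro ha
    exact hx (ha.map _)
  · rw [Ideal.map_le_iff_le_comap]
    intro a ha
    rw [Ideal.mem_comap, mem_maximalIdeal, mem_nonunits_iff]
    intro hu
    exact (mem_maximalIdeal a).mp ha ((isLocalHom_mk_quot_pow (A := A) n).map_nonunit a hu)

theorem maximalIdeal_quot_pow_pow (n : ℕ) :
    maximalIdeal (A ⧸ maximalIdeal A ^ (n + 1)) ^ (n + 1) = ⊥ := by
  rw [maximalIdeal_quot_pow, ← Ideal.map_pow, Ideal.map_quotient_self]

theorem res_surj_quot_pow (hres : Function.Surjective (residue A ∘ algebraMap 𝒪 A)) (n : ℕ) :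
    Function.Surjective (residue (A ⧸ maximalIdeal A ^ (n + 1)) ∘
      algebraMap 𝒪 (A ⧸ maximalIdeal A ^ (n + 1))) := by
  intro x
  obtain ⟨y, rfl⟩ := residue_surjective x
  obtain ⟨a, rfl⟩ := Ideal.Quotient.mk_surjective y
  obtain ⟨c, hc⟩ := exists_sub_mem_maximalIdeal hres a
  refine ⟨c, ?_⟩
  simp only [Function.comp_apply]
  rw [← sub_eq_zero, ← map_sub, residue_eq_zero_iff, maximalIdeal_quot_pow]
  have h : algebraMap 𝒪 (A ⧸ maximalIdeal A ^ (n + 1)) c - Ideal.Quotient.mk _ a =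
      Ideal.Quotient.mk (maximalIdeal A ^ (n + 1)) (-(a - algebraMap 𝒪 A c)) := by
    rw [map_neg, map_sub, neg_sub]
    rfl
  rw [h]
  exact Ideal.mem_map_of_mem _ (Ideal.neg_mem_iff _ |>.mpr hc)

end Quot

section ResidueFieldTest

variable (𝒪)

theorem isLocalHom_algebraMap_residueField : IsLocalHom (algebraMap 𝒪 (ResidueField 𝒪)) := by
  have h : algebraMap 𝒪 (ResidueField 𝒪) = residue 𝒪 := rfl
  rw [h]
  infer_instance

theorem maximalIdeal_residueField : maximalIdeal (ResidueField 𝒪) = ⊥ :=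
  IsLocalRing.maximalIdeal_eq_bot

theorem res_surj_residueField :
    Function.Surjective (residue (ResidueField 𝒪) ∘ algebraMap 𝒪 (ResidueField 𝒪)) := by
  intro x
  obtain ⟨y, rfl⟩ := residue_surjective x
  obtain ⟨c, rfl⟩ := residue_surjective y
  exact ⟨c, rfl⟩

/-- `ResidueField.map (algebraMap 𝒪 k)` is the residue map of the field `k`. -/
theorem residueField_map_algebraMap_residueField
    [IsLocalHom (algebraMap 𝒪 (ResidueField 𝒪))] (x : ResidueField 𝒪) :
    ResidueField.map (algebraMap 𝒪 (ResidueField 𝒪)) x = residue (ResidueField 𝒪) x := by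
  obtain ⟨c, rfl⟩ := residue_surjective x
  rw [ResidueField.map_residue]
  rfl

end ResidueFieldTest

section DualNumberTest

variable (𝒪)

/-- The `𝒪`-algebra structure on `k[ε]` used in `GaloisRep.TangentFinite`. -/
@[reducible] noncomputable def dualNumberAlgebra : Algebra 𝒪 (DualNumber (ResidueField 𝒪)) :=
  ((algebraMap (ResidueField 𝒪) (DualNumber (ResidueField 𝒪))).comp
    (algebraMap 𝒪 (ResidueField 𝒪))).toAlgebra

theorem finite_dualNumber [Finite (ResidueField 𝒪)] : Finite (DualNumber (ResidueField 𝒪)) :=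
  inferInstanceAs (Finite (ResidueField 𝒪 × ResidueField 𝒪))

theorem isLocalHom_algebraMap_dualNumber :
    letI := dualNumberAlgebra 𝒪
    IsLocalHom (algebraMap 𝒪 (DualNumber (ResidueField 𝒪))) := by
  letI := dualNumberAlgebra 𝒪
  refine ⟨fun c hc => ?_⟩
  have h : algebraMap 𝒪 (DualNumber (ResidueField 𝒪)) c =
      TrivSqZeroExt.inl (residue 𝒪 c) := rfl
  rw [h, TrivSqZeroExt.isUnit_iff_isUnit_fst, TrivSqZeroExt.fst_inl] at hc
  exact isUnit_of_map_unit (residue 𝒪) c hc

theorem res_surj_dualNumber :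
    letI := dualNumberAlgebra 𝒪
    Function.Surjective (residue (DualNumber (ResidueField 𝒪)) ∘
      algebraMap 𝒪 (DualNumber (ResidueField 𝒪))) := by
  letI := dualNumberAlgebra 𝒪
  intro x
  obtain ⟨y, rfl⟩ := residue_surjective x
  obtain ⟨c, hc⟩ := residue_surjective (R := 𝒪) y.fst
  refine ⟨c, ?_⟩
  simp only [Function.comp_apply]
  rw [← sub_eq_zero, ← map_sub, residue_eq_zero_iff, mem_maximalIdeal, mem_nonunits_iff,
    TrivSqZeroExt.isUnit_iff_isUnit_fst]
  have h : algebraMap 𝒪 (DualNumber (ResidueField 𝒪)) c =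
      TrivSqZeroExt.inl (residue 𝒪 c) := rfl
  rw [h, TrivSqZeroExt.fst_sub, TrivSqZeroExt.fst_inl, hc, sub_self]
  exact not_isUnit_zero

end DualNumberTest

end Fermat.Agent.S53
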