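import Mathlib
import Fermat.Prelude.Def_GaloisRep_Residual

/-!
# S53 helper: Burnside in dimension 2 and Schur's lemma for lifts (helper33)

* `adjoin_eq_top_of_irreducible` : Burnside via Jacobson density over an algebraically closed field.
* `exists_det_ne_zero` : for an absolutely irreducible `ρbar`, there are four group elements whose
  matrices form a basis of `M_2(k)` (stated through a 4 x 4 determinant).
* `centralizer_scalar` : the centraliser of any lift of `ρbar` to a local ring is the scalars.
-/

set_option autoImplicit false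

namespace Fermat.Agent.S53.Schur

open Module

section Burnside

variable {F : Type*} [Field F] [IsAlgClosed F] {M : Type*} [AddCommGroup M] [Module F M]
  [FiniteDimensional F M] [Nontrivial M]

/-- Burnside's theorem: a set of endomorphisms of a finite-dimensional vector space over an
algebraically closed field with no proper nonzero invariant subspace generates the whole
endomorphism algebra. -/
theorem adjoin_eq_top_of_irreducible (s : Set (Module.End F M))
    (hirr : ∀ W : Submodule F M, (∀ f ∈ s, ∀ x ∈ W, f x ∈ W) → W = ⊥ ∨ W = ⊤) :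
    Algebra.adjoin F s = ⊤ := by
  set B : Subalgebra F (Module.End F M) := Algebra.adjoin F s with hB
  have hsimple : IsSimpleModule B M := by
    rw [isSimpleModule_iff]
    refine { exists_pair_ne := ⟨⊥, ⊤, bot_ne_top⟩, eq_bot_or_eq_top := fun N => ?_ }
    have hW := hirr (N.restrictScalars F) (fun f hf x hx => by
      have : (⟨f, Algebra.subset_adjoin hf⟩ : B) • x ∈ N := N.smul_mem _ hx
      exact this)
    rcases hW with h | h
    · left
      exact (Submodule.restrictScalars_eq_bot_iff F B M).1 h
    · right
      exact (Submodule.restrictScalars_eq_top_iff F B M).1 h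
  have hschur : Function.Bijective (algebraMap F (Module.End B M)) :=
    IsSimpleModule.algebraMap_end_bijective_of_isAlgClosed F
  have : Module.Finite (Module.End B M) M := Module.Finite.of_restrictScalars_finite F _ M
  have hdens := Module.Finite.toModuleEnd_moduleEnd_surjective (R := B) (M := M)
  rw [eq_top_iff]
  rintro f -
  let f' : Module.End (Module.End B M) M :=
    { toFun := f
      map_add' := map_add f
      map_smul' := fun φ m => by
        obtain ⟨c, rfl⟩ := hschur.2 φ
        simp }
  obtain ⟨b, hb⟩ := hdens f'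
  have : (b : Module.End F M) = f := by
    ext m
    have := congrArg (fun g => g m) hb
    exact this
  rw [← this]
  exact b.2

/-- Burnside for a monoid representation: the linear span of the image is everything. -/
theorem span_range_eq_top_of_irreducible {G : Type*} [Monoid G] (ρ : G →* Module.End F M)
    (hirr : ∀ W : Submodule F M, (∀ g, ∀ x ∈ W, ρ g x ∈ W) → W = ⊥ ∨ W = ⊤) :
    Submodule.span F (Set.range ρ) = ⊤ := by
  have h := adjoin_eq_top_of_irreducible (Set.range ρ)
    (fun W hW => hirr W (fun g x hx => hW _ ⟨g, rfl⟩ x hx))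
  have h2 := Algebra.adjoin_eq_span F (Set.range ρ)
  rw [h] at h2
  have h3 : (Submonoid.closure (Set.range ρ) : Set (Module.End F M)) = Set.range ρ := by
    rw [← MonoidHom.coe_mrange, Submonoid.closure_eq]
  rw [h3] at h2
  rw [← h2]
  simp

end Burnside

section Flat

/-- The `4 × 4` matrix whose rows are the flattened `2 × 2` matrices `X p`. -/
def flat {R : Type*} (X : Fin 2 × Fin 2 → Matrix (Fin 2) (Fin 2) R) :
    Matrix (Fin 2 × Fin 2) (Fin 2 × Fin 2) R :=
  Matrix.of fun p q => X p q.1 q.2

theorem flat_apply {R : Type*} (X : Fin 2 × Fin 2 → Matrix (Fin 2) (Fin 2) R)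
    (p q : Fin 2 × Fin 2) : flat X p q = X p q.1 q.2 := rfl

theorem flat_map {R S : Type*} (f : R → S) (X : Fin 2 × Fin 2 → Matrix (Fin 2) (Fin 2) R) :
    (flat X).map f = flat (fun p => (X p).map f) := rfl

theorem det_flat_map {R S : Type*} [CommRing R] [CommRing S] (f : R →+* S)
    (X : Fin 2 × Fin 2 → Matrix (Fin 2) (Fin 2) R) :
    (flat (fun p => (X p).map f)).det = f (flat X).det := by
  rw [← flat_map, RingHom.map_det]
  rfl

/-- The linear map flattening a `2 × 2` matrix into a vector indexed by `Fin 2 × Fin 2`. -/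
def flatten (R : Type*) [Semiring R] :
    Matrix (Fin 2) (Fin 2) R →ₗ[R] (Fin 2 × Fin 2 → R) where
  toFun X := fun q => X q.1 q.2
  map_add' _ _ := rfl
  map_smul' _ _ := rfl

theorem flatten_injective (R : Type*) [Semiring R] : Function.Injective (flatten R) := by
  intro X Y h
  ext i j
  exact congrFun h (i, j)

/-- If the flattened matrix of a family is invertible, the family spans `M_2(R)`. -/
theorem exists_eq_sum_of_isUnit_det {R : Type*} [CommRing R]
    (X : Fin 2 × Fin 2 → Matrix (Fin 2) (Fin 2) R) (h : IsUnit (flat X).det)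
    (Y : Matrix (Fin 2) (Fin 2) R) : ∃ c : Fin 2 × Fin 2 → R, Y = ∑ p, c p • X p := by
  have hinv : (flat X)⁻¹ * flat X = 1 := Matrix.nonsing_inv_mul _ h
  refine ⟨Matrix.vecMul (flatten R Y) (flat X)⁻¹, ?_⟩
  have h1 : Matrix.vecMul (Matrix.vecMul (flatten R Y) (flat X)⁻¹) (flat X) = flatten R Y := by
    rw [Matrix.vecMul_vecMul, hinv, Matrix.vecMul_one]
  ext i j
  have h2 := congrFun h1 (i, j)
  simp only [Matrix.vecMul, dotProduct, flat_apply, flatten, LinearMap.coe_mk] at h2
  rw [Matrix.sum_apply]
  simp only [Matrix.smul_apply, smul_eq_mul]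
  exact h2.symm

end Flat

section Main

open IsLocalRing

/-- For an absolutely irreducible residual representation there are four elements of the
Galois group whose matrices (in any basis) form a basis of `M_2(k)`. -/
theorem exists_det_ne_zero {k : Type} [Field k] (ρbar : ResidualGaloisRep k)
    (habs : ρbar.IsAbsolutelyIrreducible) (b : Module.Basis (Fin 2) k ρbar.V) :
    ∃ g : Fin 2 × Fin 2 → (AlgebraicClosure ℚ ≃ₐ[ℚ] AlgebraicClosure ℚ),
      (flat fun p => LinearMap.toMatrix b b (ρbar.ρ (g p))).det ≠ 0 := by
  classical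
  set F := AlgebraicClosure k
  set ρ' := ρbar.baseChange F with hρ'
  have hfin : Module.finrank F ρ'.V = 2 := ρ'.finrank_eq
  have : Module.Finite F ρ'.V := Module.finite_of_finrank_eq_succ hfin
  have : Nontrivial ρ'.V := Module.nontrivial_of_finrank_eq_succ hfin
  have hspan : Submodule.span F (Set.range ρ'.ρ) = ⊤ :=
    span_range_eq_top_of_irreducible ρ'.ρ habs
  let b' : Module.Basis (Fin 2) F ρ'.V := Algebra.TensorProduct.basis F b
  let e : Module.End F ρ'.V ≃ₗ[F] Matrix (Fin 2) (Fin 2) F := LinearMap.toMatrix b' b'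
  let m : (AlgebraicClosure ℚ ≃ₐ[ℚ] AlgebraicClosure ℚ) → Matrix (Fin 2) (Fin 2) F :=
    fun σ => (LinearMap.toMatrix b b (ρbar.ρ σ)).map (algebraMap k F)
  have hem : ∀ σ, e (ρ'.ρ σ) = m σ := fun σ => LinearMap.toMatrix_baseChange F (ρbar.ρ σ) b b
  have hspan' : Submodule.span F (Set.range m) = ⊤ := by
    have := congrArg (Submodule.map (e : Module.End F ρ'.V →ₗ[F] Matrix (Fin 2) (Fin 2) F)) hspan
    rw [Submodule.map_span, Submodule.map_top, LinearMap.range_eq_top.2 e.surjective] at this
    rw [← this]
    congr 1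
    ext X
    constructor
    · rintro ⟨σ, rfl⟩
      exact ⟨ρ'.ρ σ, ⟨σ, rfl⟩, hem σ⟩
    · rintro ⟨_, ⟨σ, rfl⟩, rfl⟩
      exact ⟨σ, (hem σ).symm⟩
  obtain ⟨f, hf, -, hli⟩ := Submodule.exists_fun_fin_finrank_span_eq F (Set.range m)
  have hrank : Module.finrank F (Submodule.span F (Set.range m)) = 2 * 2 := by
    rw [hspan', finrank_top, Module.finrank_matrix]
    simp
  let eq : Fin 2 × Fin 2 ≃ Fin (Module.finrank F (Submodule.span F (Set.range m))) :=
    finProdFinEquiv.trans (finCongr hrank.symm)
  choose g hg using fun p => hf (eq p)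
  refine ⟨g, ?_⟩
  have hli' : LinearIndependent F (fun p => flatten F (m (g p))) := by
    have h1 : LinearIndependent F (fun p => f (eq p)) := hli.comp _ eq.injective
    have h2 := h1.map' (flatten F) (LinearMap.ker_eq_bot.2 (flatten_injective F))
    have h3 : (fun p => flatten F (m (g p))) = (flatten F) ∘ fun p => f (eq p) := by
      funext p
      simp only [Function.comp_apply, hg p]
    rw [h3]
    exact h2
  have hunit : IsUnit (flat fun p => m (g p)) :=
    Matrix.linearIndependent_rows_iff_isUnit.1 hli'
  have hdet : (flat fun p => m (g p)).det ≠ 0 :=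
    ((Matrix.isUnit_iff_isUnit_det _).1 hunit).ne_zero
  intro h0
  apply hdet
  have := det_flat_map (algebraMap k F) (fun p => LinearMap.toMatrix b b (ρbar.ρ (g p)))
  rw [this, h0, map_zero]

/-- **Schur's lemma for lifts.** If `r` lifts (the matrices of) an absolutely irreducible
residual representation to a local ring `A`, every matrix commuting with all `r g` is scalar. -/
theorem centralizer_scalar {k : Type} [Field k] (ρbar : ResidualGaloisRep k)
    (habs : ρbar.IsAbsolutelyIrreducible)
    (b : Module.Basis (Fin 2) k ρbar.V) {A : Type} [CommRing A] [IsLocalRing A]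
    (ι : k →+* IsLocalRing.ResidueField A)
    (r : (AlgebraicClosure ℚ ≃ₐ[ℚ] AlgebraicClosure ℚ) → Matrix (Fin 2) (Fin 2) A)
    (hr : ∀ g, (r g).map (IsLocalRing.residue A) = (LinearMap.toMatrix b b (ρbar.ρ g)).map ι)
    (C : Matrix (Fin 2) (Fin 2) A) (hC : ∀ g, C * r g = r g * C) :
    ∃ c : A, C = Matrix.scalar (Fin 2) c := by
  obtain ⟨g, hg⟩ := exists_det_ne_zero ρbar habs b
  have hres : IsLocalRing.residue A (flat fun p => r (g p)).det ≠ 0 := by
    rw [← det_flat_map]
    simp only [hr]
    rw [det_flat_map ι]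
    exact fun h => hg ((map_eq_zero ι).1 h)
  have hunit : IsUnit (flat fun p => r (g p)).det := by
    by_contra hnu
    exact hres ((IsLocalRing.residue_eq_zero_iff _).2 ((IsLocalRing.mem_maximalIdeal _).2 hnu))
  have hcomm : ∀ Y : Matrix (Fin 2) (Fin 2) A, C * Y = Y * C := by
    intro Y
    obtain ⟨c, rfl⟩ := exists_eq_sum_of_isUnit_det (fun p => r (g p)) hunit Y
    rw [Finset.mul_sum, Finset.sum_mul]
    refine Finset.sum_congr rfl fun p _ => ?_
    rw [Matrix.mul_smul, Matrix.smul_mul, hC]
  have hmem : C ∈ Set.range (Matrix.scalar (Fin 2)) :=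
    Matrix.mem_range_scalar_of_commute_single fun i j _ => (hcomm _).symm
  obtain ⟨c, hc⟩ := hmem
  exact ⟨c, hc.symm⟩

end Main

end Fermat.Agent.S53.Schur
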