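import Fermat.Agent.S53.Dict
import Fermat.Agent.S53.TestAlg

set_option autoImplicit false
set_option linter.unusedSectionVars false

/-!
# S53: calculus of matrix valued maps (lifts, normalized lifts, type `𝒟`).
-/

namespace Fermat.Agent.S53

open IsLocalRing

section MapHom

variable {A B : Type} [CommRing A] [CommRing B]

/-- Push a matrix valued homomorphism forward along a ring homomorphism. -/
noncomputable def mapHom (φ : A →+* B) (r : GQ →* M2 A) : GQ →* M2 B :=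
  (φ.mapMatrix : M2 A →+* M2 B).toMonoidHom.comp r

@[simp] theorem mapHom_apply (φ : A →+* B) (r : GQ →* M2 A) (σ : GQ) :
    mapHom φ r σ = (r σ).map φ := rfl

theorem mapHom_apply_apply (φ : A →+* B) (r : GQ →* M2 A) (σ : GQ) (i j : Fin 2) :
    mapHom φ r σ i j = φ (r σ i j) := rfl

/-- Two ring homomorphisms agreeing on the entries of `r` push `r` to the same map. -/
theorem mapHom_injective_of_injective (φ : A →+* B) (hφ : Function.Injective φ)
    {r r' : GQ →* M2 A} (h : mapHom φ r = mapHom φ r') : r = r' := by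
  ext σ i j
  apply hφ
  have := congrArg (fun t : GQ →* M2 B => t σ i j) h
  exact this

end MapHom

section FinLevel

variable {A : Type} [CommRing A] [IsLocalRing A]

/-- `r` is trivial on an open subgroup. -/
def FinLevel (r : GQ → M2 A) : Prop :=
  ∃ L : IntermediateField ℚ (AlgebraicClosure ℚ), FiniteDimensional ℚ L ∧
    ∀ σ : GQ, (∀ x ∈ L, σ x = x) → r σ = 1

theorem FinLevel.matCont {r : GQ → M2 A} (h : FinLevel r) : MatCont r := by
  intro n
  obtain ⟨L, hL, h1⟩ := h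
  refine ⟨L, hL, fun σ hσ i j => ?_⟩
  rw [h1 σ hσ, sub_self]
  exact Ideal.zero_mem _

theorem MatCont.finLevel {r : GQ → M2 A} (h : MatCont r) {n : ℕ}
    (hn : maximalIdeal A ^ n = ⊥) : FinLevel r := by
  obtain ⟨L, hL, h1⟩ := h n
  refine ⟨L, hL, fun σ hσ => ?_⟩
  ext i j
  have := h1 σ hσ i j
  rw [hn, Ideal.mem_bot] at this
  have h2 : r σ i j - (1 : M2 A) i j = 0 := this
  exact sub_eq_zero.mp h2

theorem FinLevel.map {B : Type} [CommRing B] [IsLocalRing B] (φ : A →+* B) {r : GQ → M2 A}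
    (h : FinLevel r) : FinLevel (fun σ => (r σ).map φ) := by
  obtain ⟨L, hL, h1⟩ := h
  refine ⟨L, hL, fun σ hσ => ?_⟩
  show (r σ).map φ = 1
  rw [h1 σ hσ]
  exact (φ.mapMatrix : M2 A →+* M2 B).map_one

theorem FinLevel.of_map {B : Type} [CommRing B] [IsLocalRing B] (φ : A →+* B)
    (hφ : Function.Injective φ) {r : GQ → M2 A}
    (h : FinLevel (fun σ => (r σ).map φ)) : FinLevel r := by
  obtain ⟨L, hL, h1⟩ := h
  refine ⟨L, hL, fun σ hσ => ?_⟩
  have h2 : (r σ).map φ = (1 : M2 A).map φ := by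
    have h3 : (r σ).map φ = 1 := h1 σ hσ
    rw [h3]
    exact ((φ.mapMatrix : M2 A →+* M2 B).map_one).symm
  ext i j
  apply hφ
  have := congrArg (fun M : M2 B => M i j) h2
  exact this

theorem FinLevel.inf {B : Type} [CommRing B] [IsLocalRing B] {r : GQ → M2 A} {r' : GQ → M2 B}
    (h : FinLevel r) (h' : FinLevel r') :
    ∃ L : IntermediateField ℚ (AlgebraicClosure ℚ), FiniteDimensional ℚ L ∧
      ∀ σ : GQ, (∀ x ∈ L, σ x = x) → r σ = 1 ∧ r' σ = 1 := by
  obtain ⟨L, hL, h1⟩ := h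
  obtain ⟨L', hL', h1'⟩ := h'
  refine ⟨L ⊔ L', IntermediateField.finiteDimensional_sup L L', fun σ hσ => ⟨?_, ?_⟩⟩
  · exact h1 σ fun x hx => hσ x ((le_sup_left : L ≤ L ⊔ L') hx)
  · exact h1' σ fun x hx => hσ x ((le_sup_right : L' ≤ L ⊔ L') hx)

end FinLevel

section Lift

variable {𝒪 : Type} [CommRing 𝒪] [IsLocalRing 𝒪]
variable {A : Type} [CommRing A] [IsLocalRing A] [Algebra 𝒪 A] [IsLocalHom (algebraMap 𝒪 A)]

theorem isLift_iff (rbar : GQ → M2 (ResidueField 𝒪)) (r : GQ → M2 A) :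
    IsLift 𝒪 rbar r ↔ ∀ (σ : GQ) (i j : Fin 2) (c : 𝒪), residue 𝒪 c = rbar σ i j →
      r σ i j - algebraMap 𝒪 A c ∈ maximalIdeal A := by
  constructor
  · intro h σ i j c hc
    have h1 := congrArg (fun M : M2 (ResidueField A) => M i j) (h σ)
    simp only [Matrix.map_apply] at h1
    rw [← hc, ResidueField.map_residue] at h1
    rw [← Ideal.Quotient.eq_zero_iff_mem]
    have : residue A (r σ i j - algebraMap 𝒪 A c) = 0 := by
      rw [map_sub, h1, sub_self]
    exact this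
  · intro h σ
    ext i j
    simp only [Matrix.map_apply]
    obtain ⟨c, hc⟩ := residue_surjective (rbar σ i j)
    have h1 := h σ i j c hc
    rw [← hc, ResidueField.map_residue]
    have : residue A (r σ i j - algebraMap 𝒪 A c) = 0 :=
      (residue_eq_zero_iff _).mpr h1
    rw [map_sub, sub_eq_zero] at this
    exact this

variable {B : Type} [CommRing B] [IsLocalRing B] [Algebra 𝒪 B] [IsLocalHom (algebraMap 𝒪 B)]

theorem IsLift.map {rbar : GQ → M2 (ResidueField 𝒪)} {r : GQ → M2 A} (h : IsLift 𝒪 rbar r)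
    (φ : A →ₐ[𝒪] B) (hφ : IsLocalHom (φ : A →+* B)) :
    IsLift 𝒪 rbar (fun σ => (r σ).map φ) := by
  rw [isLift_iff] at h ⊢
  intro σ i j c hc
  have h1 := h σ i j c hc
  have h2 : φ (r σ i j - algebraMap 𝒪 A c) ∈ maximalIdeal B := by
    rw [mem_maximalIdeal, mem_nonunits_iff] at h1 ⊢
    intro hu
    exact h1 (hφ.map_nonunit _ hu)
  simpa using h2

theorem IsLift.of_map {rbar : GQ → M2 (ResidueField 𝒪)} {r : GQ → M2 A} (φ : A →ₐ[𝒪] B)
    (h : IsLift 𝒪 rbar (fun σ => (r σ).map φ)) : IsLift 𝒪 rbar r := by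
  rw [isLift_iff] at h ⊢
  intro σ i j c hc
  have h1 := h σ i j c hc
  rw [mem_maximalIdeal, mem_nonunits_iff] at h1 ⊢
  intro hu
  apply h1
  have := hu.map φ
  simpa using this

end Lift

section Norm

variable {𝒪 : Type} [CommRing 𝒪] [IsLocalRing 𝒪] {ρbar : ResidualGaloisRep (ResidueField 𝒪)}
variable {A : Type} [CommRing A] [IsLocalRing A] [Algebra 𝒪 A] [IsLocalHom (algebraMap 𝒪 A)]
variable {B : Type} [CommRing B] [IsLocalRing B] [Algebra 𝒪 B] [IsLocalHom (algebraMap 𝒪 B)]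

theorem IsNorm.map {N : NormData 𝒪 ρbar} {r : GQ → M2 A} (h : IsNorm N r)
    (φ : A →ₐ[𝒪] B) (hφ : IsLocalHom (φ : A →+* B)) :
    IsNorm N (fun σ => (r σ).map φ) := by
  obtain ⟨h1, h2, h3⟩ := h
  refine ⟨h1.map φ hφ, fun i => ?_, ?_⟩
  · show φ (r N.g1 i 0) = _
    rw [h2 i]
    split_ifs <;> simp
  · show φ (r N.g2 N.i0 N.j0) = _
    rw [h3, AlgHom.commutes]

theorem IsNorm.of_map {N : NormData 𝒪 ρbar} {r : GQ → M2 A}
    (φ : A →ₐ[𝒪] B) (hinj : Function.Injective φ)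
    (h : IsNorm N (fun σ => (r σ).map φ)) : IsNorm N r := by
  obtain ⟨h1, h2, h3⟩ := h
  refine ⟨IsLift.of_map φ h1, fun i => ?_, ?_⟩
  · apply hinj
    have := h2 i
    simp only [Matrix.map_apply] at this
    rw [this]
    split_ifs <;> simp
  · apply hinj
    have := h3
    simp only [Matrix.map_apply] at this
    rw [this, AlgHom.commutes]

end Norm

section Restrict

variable {E P : Type} [CommRing E] [CommRing P]

theorem matrix_map_injective (ι : E →+* P) (hι : Function.Injective ι) :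
    Function.Injective (fun M : M2 E => M.map ι) := by
  intro M M' h
  ext i j
  apply hι
  exact congrArg (fun X : M2 P => X i j) h

/-- A function `t'` into matrices over `E` whose push forward along an injective ring
homomorphism is a homomorphism is itself a homomorphism. -/
noncomputable def liftHom (ι : E →+* P) (hι : Function.Injective ι) (t : GQ →* M2 P)
    (t' : GQ → M2 E) (h : ∀ σ, (t' σ).map ι = t σ) : GQ →* M2 E where
  toFun := t'
  map_one' := by
    apply matrix_map_injective ι hι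
    show (t' 1).map ι = (1 : M2 E).map ι
    rw [h, map_one]
    exact ((ι.mapMatrix : M2 E →+* M2 P).map_one).symm
  map_mul' σ τ := by
    apply matrix_map_injective ι hι
    show (t' (σ * τ)).map ι = (t' σ * t' τ).map ι
    rw [h, map_mul, Matrix.map_mul, h, h]

@[simp] theorem liftHom_apply (ι : E →+* P) (hι : Function.Injective ι) (t : GQ →* M2 P)
    (t' : GQ → M2 E) (h : ∀ σ, (t' σ).map ι = t σ) (σ : GQ) :
    liftHom ι hι t t' h σ = t' σ := rfl

variable {𝒪 : Type} [CommRing 𝒪] [Algebra 𝒪 P]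

/-- Restriction of a matrix valued homomorphism to a subalgebra containing its entries. -/
noncomputable def restrictHom (S : Subalgebra 𝒪 P) (t : GQ →* M2 P)
    (h : ∀ σ i j, t σ i j ∈ S) : GQ →* M2 S :=
  liftHom (S.val : S →+* P) Subtype.val_injective t
    (fun σ => Matrix.of fun i j => ⟨t σ i j, h σ i j⟩) (fun σ => by ext i j; rfl)

@[simp] theorem restrictHom_apply_coe (S : Subalgebra 𝒪 P) (t : GQ →* M2 P)
    (h : ∀ σ i j, t σ i j ∈ S) (σ : GQ) (i j : Fin 2) :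
    ((restrictHom S t h σ i j : S) : P) = t σ i j := rfl

theorem restrictHom_map_val (S : Subalgebra 𝒪 P) (t : GQ →* M2 P)
    (h : ∀ σ i j, t σ i j ∈ S) (σ : GQ) :
    (restrictHom S t h σ).map S.val = t σ := by
  ext i j; rfl

end Restrict

section Prod

variable {A B : Type} [CommRing A] [CommRing B]

/-- The product of two matrix valued homomorphisms. -/
noncomputable def prodHom (r : GQ →* M2 A) (r' : GQ →* M2 B) : GQ →* M2 (A × B) where
  toFun σ := Matrix.of fun i j => (r σ i j, r' σ i j)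
  map_one' := by
    ext i j
    · simp [Matrix.one_apply]; split_ifs <;> rfl
    · simp [Matrix.one_apply]; split_ifs <;> rfl
  map_mul' σ τ := by
    ext i j
    · simp [Matrix.mul_apply]
    · simp [Matrix.mul_apply]

@[simp] theorem prodHom_apply (r : GQ →* M2 A) (r' : GQ →* M2 B) (σ : GQ) (i j : Fin 2) :
    prodHom r r' σ i j = (r σ i j, r' σ i j) := rfl

end Prod

section DMatCalc

variable {𝒪 : Type} [CommRing 𝒪] [IsLocalRing 𝒪]
variable {𝒟 : ∀ ⦃A : Type⦄ [CommRing A] [IsLocalRing A] [Algebra 𝒪 A], GaloisRepAdic A → Prop}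
variable {A : Type} [CommRing A] [IsLocalRing A] [Algebra 𝒪 A]
variable {B : Type} [CommRing B] [IsLocalRing B] [Algebra 𝒪 B]

theorem exists_pow_eq_bot_of_isArtinian (hA : GaloisRep.IsArtinianTestAlgebra 𝒪 A) :
    ∃ n : ℕ, maximalIdeal A ^ n = ⊥ := by
  haveI := hA.isArtinian
  have h := IsArtinianRing.isNilpotent_jacobson_bot (R := A)
  rw [IsLocalRing.jacobson_eq_maximalIdeal ⊥ bot_ne_top] at h
  obtain ⟨n, hn⟩ := h
  exact ⟨n, hn⟩

theorem DMat.matCont {r : GQ → M2 A} (h : DMat 𝒪 𝒟 r) : MatCont r := by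
  obtain ⟨ρ, h1, -⟩ := h
  exact h1.matCont

theorem DMat.finLevel (hA : GaloisRep.IsArtinianTestAlgebra 𝒪 A) {r : GQ → M2 A}
    (h : DMat 𝒪 𝒟 r) : FinLevel r := by
  obtain ⟨n, hn⟩ := exists_pow_eq_bot_of_isArtinian hA
  exact h.matCont.finLevel hn

/-- On artinian test algebras, type `𝒟` only depends on the matrix form. -/
theorem DMat.of_isMatOf (h𝒟 : GaloisRep.IsDeformationCondition 𝒪 𝒟)
    (hA : GaloisRep.IsArtinianTestAlgebra 𝒪 A) {r : GQ → M2 A} (h : DMat 𝒪 𝒟 r)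
    {ρ : GaloisRepAdic A} (hρ : IsMatOf ρ r) : 𝒟 ρ := by
  obtain ⟨ρ', h1, h2⟩ := h
  refine h𝒟.of_isEquiv hA ?_ h2
  rw [IsMatOf.isEquiv_iff h1 hρ]
  exact ⟨1, fun σ => by simp⟩

theorem DMat.map (h𝒟 : GaloisRep.IsDeformationCondition 𝒪 𝒟)
    (hA : GaloisRep.IsArtinianTestAlgebra 𝒪 A) (hB : GaloisRep.IsArtinianTestAlgebra 𝒪 B)
    (φ : A →ₐ[𝒪] B) (hφ : IsLocalHom (φ : A →+* B)) {r : GQ → M2 A} (h : DMat 𝒪 𝒟 r) :
    DMat 𝒪 𝒟 (fun σ => (r σ).map φ) := by
  obtain ⟨ρ, h1, h2⟩ := h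
  exact ⟨ρ.baseChangeAlong (φ : A →+* B) hφ, h1.baseChangeAlong (φ : A →+* B) hφ,
    h𝒟.baseChangeAlong hA hB φ hφ h2⟩

theorem DMat.of_map_injective (h𝒟 : GaloisRep.IsDeformationCondition 𝒪 𝒟)
    (hA : GaloisRep.IsArtinianTestAlgebra 𝒪 A) (hB : GaloisRep.IsArtinianTestAlgebra 𝒪 B)
    (φ : A →ₐ[𝒪] B) (hφ : IsLocalHom (φ : A →+* B)) (hinj : Function.Injective φ)
    (r : GQ →* M2 A) (h : DMat 𝒪 𝒟 (fun σ => (r σ).map φ)) : DMat 𝒪 𝒟 r := by
  have hfin : FinLevel (fun σ => (r σ).map (φ : A →+* B)) := h.finLevel hB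
  have hcont : MatCont r := (FinLevel.of_map (φ : A →+* B) hinj hfin).matCont
  refine ⟨ofMat r hcont, isMatOf_ofMat r hcont, ?_⟩
  refine h𝒟.of_baseChangeAlong_injective hA hB φ hφ hinj ?_
  exact h.of_isMatOf h𝒟 hB ((isMatOf_ofMat r hcont).baseChangeAlong (φ : A →+* B) hφ)

/-- Type `𝒟` for a lift to a fibre product over `k`. -/
theorem DMat.of_fibreProduct (h𝒟 : GaloisRep.IsDeformationCondition 𝒪 𝒟)
    {P : Type} [CommRing P] [IsLocalRing P] [Algebra 𝒪 P]
    (hP : GaloisRep.IsArtinianTestAlgebra 𝒪 P)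
    (hA : GaloisRep.IsArtinianTestAlgebra 𝒪 A) (hB : GaloisRep.IsArtinianTestAlgebra 𝒪 B)
    (hk : GaloisRep.IsArtinianTestAlgebra 𝒪 (ResidueField 𝒪))
    (pA : P →ₐ[𝒪] A) (pB : P →ₐ[𝒪] B) (hpA : IsLocalHom (pA : P →+* A))
    (hpB : IsLocalHom (pB : P →+* B))
    (hinj : Function.Injective fun x => (pA x, pB x))
    (hsurj : ∀ (a : A) (b : B) (c : 𝒪), a - algebraMap 𝒪 A c ∈ maximalIdeal A →
      b - algebraMap 𝒪 B c ∈ maximalIdeal B → ∃ x, pA x = a ∧ pB x = b)
    (t : GQ →* M2 P) (htA : DMat 𝒪 𝒟 (fun σ => (t σ).map pA))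
    (htB : DMat 𝒪 𝒟 (fun σ => (t σ).map pB)) : DMat 𝒪 𝒟 t := by
  haveI := hA.isLocalHom
  haveI := hB.isLocalHom
  obtain ⟨f, -, -, hf⟩ := exists_toK 𝒪 A hA.residue_surjective
  obtain ⟨g, -, -, hg⟩ := exists_toK 𝒪 B hB.residue_surjective
  -- continuity
  obtain ⟨L, hL, h1⟩ := (htA.finLevel hA).inf (htB.finLevel hB)
  have hfin : FinLevel t := by
    refine ⟨L, hL, fun σ hσ => ?_⟩
    obtain ⟨h2, h3⟩ := h1 σ hσ
    ext i j
    apply hinj
    have e2 := congrArg (fun M : M2 A => M i j) h2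
    have e3 := congrArg (fun M : M2 B => M i j) h3
    simp only [Matrix.map_apply] at e2 e3
    show (pA (t σ i j), pB (t σ i j)) = (pA ((1 : M2 P) i j), pB ((1 : M2 P) i j))
    rw [e2, e3]
    by_cases hij : i = j
    · subst hij; simp
    · simp [Matrix.one_apply_ne hij]
  have hcont : MatCont t := hfin.matCont
  refine ⟨ofMat t hcont, isMatOf_ofMat t hcont, ?_⟩
  have hcomp : f.comp pA = g.comp pB := by
    ext x
    obtain ⟨c, hc⟩ := exists_sub_mem_maximalIdeal hP.residue_surjective x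
    have hcA : pA x - algebraMap 𝒪 A c ∈ maximalIdeal A := by
      have : pA (x - algebraMap 𝒪 P c) ∈ maximalIdeal A := by
        rw [mem_maximalIdeal, mem_nonunits_iff] at hc ⊢
        exact fun hu => hc (hpA.map_nonunit _ hu)
      simpa using this
    have hcB : pB x - algebraMap 𝒪 B c ∈ maximalIdeal B := by
      have : pB (x - algebraMap 𝒪 P c) ∈ maximalIdeal B := by
        rw [mem_maximalIdeal, mem_nonunits_iff] at hc ⊢
        exact fun hu => hc (hpB.map_nonunit _ hu)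
      simpa using this
    show f (pA x) = g (pB x)
    rw [(hf _ c).mpr hcA, (hg _ c).mpr hcB]
  refine h𝒟.of_fibreProduct hA hB hk hP f g pA pB hpA hpB hcomp hinj ?_ ?_ ?_
  · intro a b hab
    obtain ⟨c, hc⟩ := residue_surjective (f a)
    exact hsurj a b c ((hf a c).mp hc.symm) ((hg b c).mp (hab ▸ hc.symm))
  · exact htA.of_isMatOf h𝒟 hA ((isMatOf_ofMat t hcont).baseChangeAlong (pA : P →+* A) hpA)
  · exact htB.of_isMatOf h𝒟 hB ((isMatOf_ofMat t hcont).baseChangeAlong (pB : P →+* B) hpB)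

end DMatCalc

end Fermat.Agent.S53
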