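import Fermat.Statements.S53

set_option autoImplicit false

/-!
# S53: basic definitions (matrix form of deformations)

Shared interface of the S53 development. Everything lives in `Fermat.Agent.S53`.
-/

namespace Fermat.Agent.S53

open IsLocalRing

/-- The absolute Galois group of `ℚ`. -/
abbrev GQ : Type := AlgebraicClosure ℚ ≃ₐ[ℚ] AlgebraicClosure ℚ

/-- `2 × 2` matrices. -/
abbrev M2 (A : Type) : Type := Matrix (Fin 2) (Fin 2) A

section Adic

variable {A : Type} [CommRing A] [IsLocalRing A]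

/-- `r` is the matrix of `ρ` in some basis of `ρ.V`. -/
def IsMatOf (ρ : GaloisRepAdic A) (r : GQ → M2 A) : Prop :=
  ∃ b : Module.Basis (Fin 2) A ρ.V, ∀ σ : GQ, LinearMap.toMatrix b b (ρ.ρ σ) = r σ

/-- Adic continuity of a matrix valued map on `GQ`. -/
def MatCont (r : GQ → M2 A) : Prop :=
  ∀ n : ℕ, ∃ L : IntermediateField ℚ (AlgebraicClosure ℚ), FiniteDimensional ℚ L ∧
    ∀ σ : GQ, (∀ x ∈ L, σ x = x) → ∀ i j, (r σ - 1) i j ∈ maximalIdeal A ^ n

theorem mem_smul_top_of_forall_mem (I : Ideal A) (v : Fin 2 → A) (hv : ∀ i, v i ∈ I) :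
    v ∈ I • (⊤ : Submodule A (Fin 2 → A)) := by
  have h : v = ∑ i : Fin 2, v i • (Pi.single i (1 : A) : Fin 2 → A) := by
    funext j
    simp [Finset.sum_apply, Pi.single_apply]
  rw [h]
  exact Submodule.sum_mem _ fun i _ => Submodule.smul_mem_smul (hv i) Submodule.mem_top

/-- The representation on `Fin 2 → A` given by a continuous matrix valued homomorphism. -/
noncomputable def ofMat (r : GQ →* M2 A) (h : MatCont r) : GaloisRepAdic A where
  V := Fin 2 → A
  finrank_eq := by simp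
  ρ := (Matrix.toLinAlgEquiv' : M2 A ≃ₐ[A] _).toAlgHom.toRingHom.toMonoidHom.comp r
  isAdicContinuous := by
    intro n
    obtain ⟨L, hL, h1⟩ := h n
    refine ⟨L, hL, fun σ hσ v => ?_⟩
    apply mem_smul_top_of_forall_mem
    intro i
    have : ((Matrix.toLinAlgEquiv' : M2 A ≃ₐ[A] _).toAlgHom.toRingHom.toMonoidHom.comp r) σ v - v
        = (r σ - 1).mulVec v := by
      simp [Matrix.sub_mulVec]
    rw [this]
    simp only [Matrix.mulVec, dotProduct]
    exact Ideal.sum_mem _ fun j _ => Ideal.mul_mem_right _ _ (h1 σ hσ i j)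

end Adic

section Residual

variable {k : Type} [Field k]

/-- `r` is the matrix of the residual representation `ρ` in some basis of `ρ.V`. -/
def IsMatOfRes (ρ : ResidualGaloisRep k) (r : GQ → M2 k) : Prop :=
  ∃ b : Module.Basis (Fin 2) k ρ.V, ∀ σ : GQ, LinearMap.toMatrix b b (ρ.ρ σ) = r σ

end Residual

section Cond

variable (𝒪 : Type) [CommRing 𝒪] [IsLocalRing 𝒪]
variable (𝒟 : ∀ ⦃A : Type⦄ [CommRing A] [IsLocalRing A] [Algebra 𝒪 A], GaloisRepAdic A → Prop)

/-- The matrix valued map `r` is the matrix of a representation of type `𝒟`. -/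
def DMat {A : Type} [CommRing A] [IsLocalRing A] [Algebra 𝒪 A] (r : GQ → M2 A) : Prop :=
  ∃ ρ : GaloisRepAdic A, IsMatOf ρ r ∧ 𝒟 ρ

/-- `r` is a strict lift of the residual matrix valued map `rbar`. -/
def IsLift (rbar : GQ → M2 (ResidueField 𝒪)) {A : Type} [CommRing A] [IsLocalRing A]
    [Algebra 𝒪 A] [IsLocalHom (algebraMap 𝒪 A)] (r : GQ → M2 A) : Prop :=
  ∀ σ : GQ, (r σ).map (residue A) = (rbar σ).map (ResidueField.map (algebraMap 𝒪 A))

end Cond

section Norm

variable (𝒪 : Type) [CommRing 𝒪] [IsLocalRing 𝒪]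

/-- Rigidification data for `ρbar`: a matrix form `rbar` of `ρbar` together with two group
elements `g1 g2` such that `rbar g1` maps `e₀` to `e₁` and such that the `(i0, j0)` entry of the
commutator of `rbar g1` and `rbar g2` is nonzero; `c0` is a lift of the `(i0, j0)` entry of
`rbar g2`. -/
structure NormData (ρbar : ResidualGaloisRep (ResidueField 𝒪)) where
  rbar : GQ →* M2 (ResidueField 𝒪)
  isMatOfRes : IsMatOfRes ρbar rbar
  g1 : GQ
  g2 : GQ
  i0 : Fin 2
  j0 : Fin 2
  c0 : 𝒪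
  col : ∀ i : Fin 2, rbar g1 i 0 = if i = 1 then 1 else 0
  c0_spec : residue 𝒪 c0 = rbar g2 i0 j0
  comm_ne : (rbar g1 * rbar g2 - rbar g2 * rbar g1) i0 j0 ≠ 0

variable {𝒪}

/-- `r` is a normalized lift of `N.rbar`: a strict lift such that `r g1` maps `e₀` to `e₁` and
the `(i0, j0)` entry of `r g2` is (the image of) `c0`. Every deformation class contains exactly
one normalized lift. -/
def IsNorm {ρbar : ResidualGaloisRep (ResidueField 𝒪)} (N : NormData 𝒪 ρbar)
    {A : Type} [CommRing A] [IsLocalRing A] [Algebra 𝒪 A] [IsLocalHom (algebraMap 𝒪 A)]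
    (r : GQ → M2 A) : Prop :=
  IsLift 𝒪 N.rbar r ∧ (∀ i : Fin 2, r N.g1 i 0 = if i = 1 then 1 else 0) ∧
    r N.g2 N.i0 N.j0 = algebraMap 𝒪 A N.c0

/-- The set of matrix entries of a matrix valued map. -/
def entries {A : Type} (r : GQ → M2 A) : Set A := {x | ∃ σ i j, r σ i j = x}

end Norm

end Fermat.Agent.S53
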