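import Fermat.Agent.S53.Univ
import Fermat.Agent.S53.Limit

set_option autoImplicit false

/-!
# S53, step 7 final (helper33): a tower of level-wise universal normalized pairs gives
`DeformationRingData` (inverse limit from `Limit.exists_limit` + `Univ.nonempty_of_limit`).
-/

namespace Fermat.Agent.S53

open IsLocalRing

/-- From a `UnivTower` to a universal deformation ring. -/
theorem nonempty_of_univTower (𝒪 : Type) [CommRing 𝒪] [IsDomain 𝒪] [IsDiscreteValuationRing 𝒪]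
    [IsAdicComplete (IsLocalRing.maximalIdeal 𝒪) 𝒪] [Finite (IsLocalRing.ResidueField 𝒪)]
    (ρbar : ResidualGaloisRep (IsLocalRing.ResidueField 𝒪))
    (𝒟 : ∀ ⦃A : Type⦄ [CommRing A] [IsLocalRing A] [Algebra 𝒪 A], GaloisRepAdic A → Prop)
    (h𝒟 : GaloisRep.IsDeformationCondition 𝒪 𝒟) (habs : ρbar.IsAbsolutelyIrreducible)
    (N : NormData 𝒪 ρbar) (T : UnivTower 𝒪 𝒟 N) :
    Nonempty (GaloisRep.DeformationRingData 𝒪 ρbar 𝒟) := by
  obtain ⟨R, iR, iL, iN, iC, iA, iH, π, hresR, hπs, _hπu, hπk, hπl⟩ :=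
    Limit.exists_limit 𝒪 T.D (fun j => inferInstance) T.res_surj T.u T.u_surj T.ker_u T.lev
  exact Univ.nonempty_of_limit 𝒪 ρbar 𝒟 h𝒟 habs N T R π hresR hπs hπk hπl

end Fermat.Agent.S53
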