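import Fermat.Agent.S53.Limit

set_option autoImplicit false

/-!
# S53: a finite local `𝒪`-algebra of bounded level generated by `N` elements has bounded size
-/

namespace Fermat.Agent.S53.H92

open IsLocalRing Fermat.Agent.S53.Limit

theorem finite_quotient_pow_mvPowerSeries (𝒪 : Type) [CommRing 𝒪] [IsLocalRing 𝒪]
    [IsNoetherianRing 𝒪] [Finite (ResidueField 𝒪)] (N l : ℕ) :
    Finite (MvPowerSeries (Fin N) 𝒪 ⧸ maximalIdeal (MvPowerSeries (Fin N) 𝒪) ^ l) := by
  have h1 : Finite (MvPowerSeries (Fin N) 𝒪 ⧸ maximalIdeal (MvPowerSeries (Fin N) 𝒪)) := by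
    have hs := residue_surjective_mvPowerSeries 𝒪 (Fin N)
    have : Function.Surjective (fun a : ResidueField 𝒪 =>
        (Ideal.Quotient.lift (maximalIdeal 𝒪)
          ((residue (MvPowerSeries (Fin N) 𝒪)).comp (algebraMap 𝒪 (MvPowerSeries (Fin N) 𝒪)))
          (fun a ha => by
            rw [RingHom.comp_apply, residue_eq_zero_iff]
            rw [mem_maximalIdeal, mem_nonunits_iff] at ha ⊢
            intro h
            apply ha
            have := h.map (MvPowerSeries.constantCoeff (σ := Fin N) (R := 𝒪))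
            rwa [MvPowerSeries.algebraMap_apply, Algebra.algebraMap_self, RingHom.id_apply,
              MvPowerSeries.constantCoeff_C] at this)) a) := by
      intro y
      obtain ⟨a, ha⟩ := hs y
      exact ⟨residue 𝒪 a, ha⟩
    exact Finite.of_surjective _ this
  exact Ideal.finite_quotient_pow (IsNoetherian.noetherian _) l

/-- Part (b) of the generator bound: bounded level and `N` generators bound the cardinality. -/
theorem exists_card_bound_of_gens (𝒪 : Type) [CommRing 𝒪] [IsLocalRing 𝒪]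
    [IsNoetherianRing 𝒪] [Finite (ResidueField 𝒪)] (N j : ℕ) :
    ∃ B : ℕ, ∀ (D : Type) [CommRing D] [IsLocalRing D] [Algebra 𝒪 D],
      Function.Surjective (residue D ∘ algebraMap 𝒪 D) → maximalIdeal D ^ (j + 1) = ⊥ →
      ∀ y : Fin N → D, (∀ i, y i ∈ maximalIdeal D) →
        (∀ z ∈ maximalIdeal D, ∃ e ∈ Algebra.adjoin 𝒪 (Set.range y),
          z - e ∈ maximalIdeal D ^ 2) →
        Nat.card D ≤ B := by
  have hfin := finite_quotient_pow_mvPowerSeries 𝒪 N (j + 1)
  refine ⟨Nat.card (MvPowerSeries (Fin N) 𝒪 ⧸ maximalIdeal (MvPowerSeries (Fin N) 𝒪) ^ (j + 1)),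
    ?_⟩
  intro D _ _ _ hres hlev y hy hgen
  have hnil := aeval_eq_zero_of_mem_pow (𝒪 := 𝒪) y hy (j + 1) hlev
  have hrange : (evL y (j + 1) hnil).range = ⊤ := by
    refine subalgebra_eq_top hres (j + 1) hlev _ ?_
    intro z hz
    obtain ⟨e, he, hze⟩ := hgen z hz
    refine ⟨e, ?_, hze⟩
    have hle : Algebra.adjoin 𝒪 (Set.range y) ≤ (evL y (j + 1) hnil).range := by
      rw [Algebra.adjoin_le_iff]
      rintro _ ⟨i, rfl⟩
      exact ⟨MvPowerSeries.X i, evL_X _ _ _ i⟩
    exact hle he
  have hsurj : Function.Surjective (evL y (j + 1) hnil) := by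
    intro d
    have : d ∈ (evL y (j + 1) hnil).range := hrange ▸ Algebra.mem_top
    exact this
  have hkill : ∀ f ∈ maximalIdeal (MvPowerSeries (Fin N) 𝒪) ^ (j + 1),
      (evL y (j + 1) hnil : MvPowerSeries (Fin N) 𝒪 →+* D) f = 0 := by
    intro f hf
    have := Ideal.mem_map_of_mem (evL y (j + 1) hnil : MvPowerSeries (Fin N) 𝒪 →+* D) hf
    rw [Ideal.map_pow, IsLocalRing.map_maximalIdeal_of_surjective
      (evL y (j + 1) hnil : MvPowerSeries (Fin N) 𝒪 →+* D) hsurj, hlev] at this
    simpa using this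
  have hsurj' : Function.Surjective (Ideal.Quotient.lift _ _ hkill) :=
    Ideal.Quotient.lift_surjective_of_surjective _ hkill hsurj
  exact Nat.card_le_card_of_surjective _ hsurj'

end Fermat.Agent.S53.H92
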