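import Fermat.Agent.S53.Tangent

set_option autoImplicit false
set_option linter.unusedSectionVars false
set_option linter.style.haveILetI false

/-!
# S53: pairs of maximal cardinality at a given level are universal.
-/

namespace Fermat.Agent.S53

open IsLocalRing

section MaxPair

variable {𝒪 : Type} [CommRing 𝒪] [IsDomain 𝒪] [IsDiscreteValuationRing 𝒪]
  [Finite (ResidueField 𝒪)]
variable {ρbar : ResidualGaloisRep (ResidueField 𝒪)}
variable {𝒟 : ∀ ⦃A : Type⦄ [CommRing A] [IsLocalRing A] [Algebra 𝒪 A], GaloisRepAdic A → Prop}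

/-- A pair is maximal at level `j`. -/
def NPair.IsMax {N : NormData 𝒪 ρbar} (p : NPair 𝒪 𝒟 N) (j : ℕ) : Prop :=
  p.Level j ∧ ∀ q : NPair 𝒪 𝒟 N, q.Level j → Nat.card q.A ≤ Nat.card p.A

theorem exists_maxPair (h𝒟 : GaloisRep.IsDeformationCondition 𝒪 𝒟)
    (hbar : 𝒟 (GaloisRepAdic.ofResidualGaloisRep ρbar))
    (hfin : GaloisRep.TangentFinite 𝒪 ρbar 𝒟) (N : NormData 𝒪 ρbar) (j : ℕ) :
    ∃ p : NPair 𝒪 𝒟 N, p.IsMax j := by
  classical
  obtain ⟨Nb, hNb⟩ := exists_card_hom_bound h𝒟 hfin N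
  obtain ⟨B, hB⟩ := exists_card_bound 𝒪 Nb j
  have hbound : ∀ q : NPair 𝒪 𝒟 N, q.Level j → Nat.card q.A ≤ B := fun q hq =>
    hB q.A q.res_surj hq (hNb q)
  let P : ℕ → Prop := fun n => ∃ p : NPair 𝒪 𝒟 N, p.Level j ∧ Nat.card p.A = n
  have h0 : P (Nat.card (basePair N hbar).A) := ⟨basePair N hbar, basePair_level N hbar j, rfl⟩
  have h1 := Nat.findGreatest_spec (P := P) (hbound _ (basePair_level N hbar j)) h0
  obtain ⟨p, hp, hcard⟩ := h1
  refine ⟨p, hp, fun q hq => ?_⟩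
  rw [hcard]
  exact Nat.le_findGreatest (P := P) (hbound q hq) ⟨q, hq, rfl⟩

end MaxPair

section ProdPair

variable {𝒪 : Type} [CommRing 𝒪] [IsLocalRing 𝒪] [Finite (ResidueField 𝒪)]
variable {ρbar : ResidualGaloisRep (ResidueField 𝒪)}
variable {𝒟 : ∀ ⦃A : Type⦄ [CommRing A] [IsLocalRing A] [Algebra 𝒪 A], GaloisRepAdic A → Prop}

theorem entries_restrictHom {P : Type} [CommRing P] [Algebra 𝒪 P] (S : Subalgebra 𝒪 P)
    (t : GQ →* M2 P) (h : ∀ σ i j, t σ i j ∈ S) :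
    entries (restrictHom S t h) = (Subtype.val : S → P) ⁻¹' entries t := by
  ext x
  constructor
  · rintro ⟨σ, i, j, rfl⟩
    exact ⟨σ, i, j, rfl⟩
  · rintro ⟨σ, i, j, hx⟩
    exact ⟨σ, i, j, Subtype.ext hx⟩

/-- Given a pair `p` and a normalized lift `r` of type `𝒟` to a test algebra `A`, the
subalgebra of `p.A × A` generated by the entries of `(p.r, r)` is a pair dominating both. -/
theorem exists_pair_of_prod (h𝒟 : GaloisRep.IsDeformationCondition 𝒪 𝒟) {N : NormData 𝒪 ρbar}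
    (p : NPair 𝒪 𝒟 N) {A : Type} [CommRing A] [IsLocalRing A] [Algebra 𝒪 A]
    [IsLocalHom (algebraMap 𝒪 A)] [Finite A]
    (hres : Function.Surjective (residue A ∘ algebraMap 𝒪 A))
    (r : GQ →* M2 A) (hr : IsNorm N r) (hD : DMat 𝒪 𝒟 r) :
    ∃ (q : NPair 𝒪 𝒟 N) (f : q.A →ₐ[𝒪] p.A) (g : q.A →ₐ[𝒪] A),
      (∀ σ, (q.r σ).map f = p.r σ) ∧ (∀ σ, (q.r σ).map g = r σ) ∧
      Function.Injective (fun x => (f x, g x)) ∧
      ∀ j : ℕ, p.Level j → maximalIdeal A ^ (j + 1) = ⊥ → q.Level j := by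
  -- the product lift
  set t : GQ →* M2 (p.A × A) := prodHom p.r r with ht
  set F : Subalgebra 𝒪 (p.A × A) := fibre 𝒪 p.A A with hF
  set E : Subalgebra 𝒪 (p.A × A) := Algebra.adjoin 𝒪 (entries t) with hE
  have htF : ∀ σ i j, t σ i j ∈ F := by
    intro σ i j
    obtain ⟨c, hc⟩ := residue_surjective (N.rbar σ i j)
    exact ⟨c, (isLift_iff N.rbar _).mp p.norm.1 σ i j c hc,
      (isLift_iff N.rbar _).mp hr.1 σ i j c hc⟩
  have hEF : E ≤ F := Algebra.adjoin_le (by rintro x ⟨σ, i, j, rfl⟩; exact htF σ i j)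
  have htE : ∀ σ i j, t σ i j ∈ E := fun σ i j => Algebra.subset_adjoin ⟨σ, i, j, rfl⟩
  -- the maps
  let fE : E →ₐ[𝒪] p.A := (AlgHom.fst 𝒪 p.A A).comp E.val
  let gE : E →ₐ[𝒪] A := (AlgHom.snd 𝒪 p.A A).comp E.val
  let fF : F →ₐ[𝒪] p.A := (AlgHom.fst 𝒪 p.A A).comp F.val
  let gF : F →ₐ[𝒪] A := (AlgHom.snd 𝒪 p.A A).comp F.val
  have hfE : IsLocalHom (fE : E →+* p.A) := isLocalHom_fst_of_le_fibre E hEF
  have hgE : IsLocalHom (gE : E →+* A) := isLocalHom_snd_of_le_fibre E hEF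
  have hfF : IsLocalHom (fF : F →+* p.A) := isLocalHom_fst_of_le_fibre F le_rfl
  have hgF : IsLocalHom (gF : F →+* A) := isLocalHom_snd_of_le_fibre F le_rfl
  haveI : IsLocalRing E := RingHom.domain_isLocalRing (fE : E →+* p.A)
  haveI : IsLocalRing F := RingHom.domain_isLocalRing (fF : F →+* p.A)
  haveI : IsLocalHom (algebraMap 𝒪 E) := isLocalHom_algebraMap_of_isLocalHom fE
  haveI : IsLocalHom (algebraMap 𝒪 F) := isLocalHom_algebraMap_of_isLocalHom fF
  have hresE : Function.Surjective (residue E ∘ algebraMap 𝒪 E) :=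
    res_surj_of_isLocalHom fE hfE p.res_surj
  have hresF : Function.Surjective (residue F ∘ algebraMap 𝒪 F) :=
    res_surj_of_isLocalHom fF hfF p.res_surj
  have hE' : GaloisRep.IsArtinianTestAlgebra 𝒪 E := isArtinianTestAlgebra_of_finite hresE
  have hF' : GaloisRep.IsArtinianTestAlgebra 𝒪 F := isArtinianTestAlgebra_of_finite hresF
  have hA' : GaloisRep.IsArtinianTestAlgebra 𝒪 A := isArtinianTestAlgebra_of_finite hres
  haveI := isLocalHom_algebraMap_residueField 𝒪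
  have hk : GaloisRep.IsArtinianTestAlgebra 𝒪 (ResidueField 𝒪) :=
    isArtinianTestAlgebra_of_finite (res_surj_residueField 𝒪)
  -- the lifts
  set tE : GQ →* M2 E := restrictHom E t htE with htE'
  set tF : GQ →* M2 F := restrictHom F t htF with htF'
  have hinjF : Function.Injective (fun x : F => (fF x, gF x)) := by
    intro x y hxy
    exact Subtype.ext hxy
  have hinjE : Function.Injective (fun x : E => (fE x, gE x)) := by
    intro x y hxy
    exact Subtype.ext hxy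
  have htFD : DMat 𝒪 𝒟 tF := by
    refine DMat.of_fibreProduct h𝒟 hF' p.test hA' hk fF gF hfF hgF hinjF ?_ tF ?_ ?_
    · intro a b c ha hb
      exact ⟨⟨(a, b), ⟨c, ha, hb⟩⟩, rfl, rfl⟩
    · exact p.type
    · exact hD
  have htED : DMat 𝒪 𝒟 tE := by
    refine DMat.of_map_injective h𝒟 hE' hF' (Subalgebra.inclusion hEF)
      (isLocalHom_of_finite _) (Subalgebra.inclusion_injective hEF) tE ?_
    exact htFD
  have hnormE : IsNorm N tE := by
    refine ⟨IsLift.of_map fE (r := tE) p.norm.1, fun i => ?_, ?_⟩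
    · apply Subtype.ext
      apply Prod.ext
      · show p.r N.g1 i 0 = _
        rw [p.norm.2.1 i]
        split_ifs <;> rfl
      · show r N.g1 i 0 = _
        rw [hr.2.1 i]
        split_ifs <;> rfl
    · apply Subtype.ext
      apply Prod.ext
      · show p.r N.g2 N.i0 N.j0 = _
        rw [p.norm.2.2]
        rfl
      · show r N.g2 N.i0 N.j0 = _
        rw [hr.2.2]
        rfl
  refine ⟨{ A := E, res_surj := hresE, r := tE, norm := hnormE, type := htED, gen := ?_ },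
    fE, gE, fun σ => rfl, fun σ => rfl, hinjE, fun j hp hA => ?_⟩
  · rw [entries_restrictHom]
    exact Algebra.adjoin_adjoin_coe_preimage
  · exact pow_eq_bot_of_injective_prod fE gE hfE hgE hinjE (j + 1) hp hA

/-- A pair of maximal cardinality at level `j` is universal at level `j`. -/
theorem NPair.exists_map (h𝒟 : GaloisRep.IsDeformationCondition 𝒪 𝒟) {N : NormData 𝒪 ρbar}
    (p : NPair 𝒪 𝒟 N) (j : ℕ)
    (hmax : ∀ q : NPair 𝒪 𝒟 N, q.Level j → Nat.card q.A ≤ Nat.card p.A) (hp : p.Level j)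
    {A : Type} [CommRing A] [IsLocalRing A] [Algebra 𝒪 A]
    [IsLocalHom (algebraMap 𝒪 A)] [Finite A]
    (hres : Function.Surjective (residue A ∘ algebraMap 𝒪 A))
    (hA : maximalIdeal A ^ (j + 1) = ⊥)
    (r : GQ →* M2 A) (hr : IsNorm N r) (hD : DMat 𝒪 𝒟 r) :
    ∃ φ : p.A →ₐ[𝒪] A, ∀ σ, (p.r σ).map φ = r σ := by
  obtain ⟨q, f, g, hf, hg, -, hlev⟩ := exists_pair_of_prod h𝒟 p hres r hr hD
  have hsurj : Function.Surjective f := p.surjective_of_map f q.r hf
  have hbij : Function.Bijective f :=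
    hsurj.bijective_of_nat_card_le (hmax q (hlev j hp hA))
  let e : q.A ≃ₐ[𝒪] p.A := AlgEquiv.ofBijective f hbij
  refine ⟨g.comp (e.symm : p.A →ₐ[𝒪] q.A), fun σ => ?_⟩
  rw [← hg σ]
  ext i k
  show g (e.symm (p.r σ i k)) = g (q.r σ i k)
  congr 1
  rw [AlgEquiv.symm_apply_eq]
  exact (congrArg (fun M : M2 p.A => M i k) (hf σ)).symm

/-- The truncation of a pair at level `j`. -/
theorem NPair.exists_trunc (h𝒟 : GaloisRep.IsDeformationCondition 𝒪 𝒟) {N : NormData 𝒪 ρbar}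
    (p : NPair 𝒪 𝒟 N) (j : ℕ) :
    ∃ (q : NPair 𝒪 𝒟 N) (π : p.A →ₐ[𝒪] q.A), q.Level j ∧ Function.Surjective π ∧
      RingHom.ker (π : p.A →+* q.A) = maximalIdeal p.A ^ (j + 1) ∧
      ∀ σ, (p.r σ).map π = q.r σ := by
  let I : Ideal p.A := maximalIdeal p.A ^ (j + 1)
  haveI : Finite (p.A ⧸ I) := Finite.of_surjective _ Ideal.Quotient.mk_surjective
  haveI : IsLocalHom (algebraMap 𝒪 (p.A ⧸ I)) := isLocalHom_algebraMap_quot_pow j
  have hresQ : Function.Surjective (residue (p.A ⧸ I) ∘ algebraMap 𝒪 (p.A ⧸ I)) :=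
    res_surj_quot_pow p.res_surj j
  let π : p.A →ₐ[𝒪] p.A ⧸ I := Ideal.Quotient.mkₐ 𝒪 I
  have hπ : IsLocalHom (π : p.A →+* p.A ⧸ I) := isLocalHom_of_finite π
  have hQ : GaloisRep.IsArtinianTestAlgebra 𝒪 (p.A ⧸ I) := isArtinianTestAlgebra_of_finite hresQ
  refine ⟨{ A := p.A ⧸ I, res_surj := hresQ, r := mapHom (π : p.A →+* p.A ⧸ I) p.r,
            norm := p.norm.map π hπ, type := p.type.map h𝒟 p.test hQ π hπ, gen := ?_ },
    π, maximalIdeal_quot_pow_pow j, Ideal.Quotient.mk_surjective, ?_, fun σ => rfl⟩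
  · have h1 : entries (mapHom (π : p.A →+* p.A ⧸ I) p.r) = π '' entries p.r := by
      ext x
      constructor
      · rintro ⟨σ, i, k, rfl⟩
        exact ⟨p.r σ i k, ⟨σ, i, k, rfl⟩, rfl⟩
      · rintro ⟨y, ⟨σ, i, k, rfl⟩, rfl⟩
        exact ⟨σ, i, k, rfl⟩
    rw [h1, ← AlgHom.map_adjoin, p.gen, Algebra.map_top, AlgHom.range_eq_top]
    exact Ideal.Quotient.mk_surjective
  · exact Ideal.mk_ker

/-- The transition map between maximal pairs of consecutive levels has kernel `m ^ (j+1)`. -/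
theorem NPair.ker_eq_of_max (h𝒟 : GaloisRep.IsDeformationCondition 𝒪 𝒟) {N : NormData 𝒪 ρbar}
    (p p' : NPair 𝒪 𝒟 N) (j : ℕ) (hp : p.Level j)
    (hmax : ∀ q : NPair 𝒪 𝒟 N, q.Level j → Nat.card q.A ≤ Nat.card p.A)
    (u : p'.A →ₐ[𝒪] p.A) (hu : ∀ σ, (p'.r σ).map u = p.r σ) :
    RingHom.ker (u : p'.A →+* p.A) = maximalIdeal p'.A ^ (j + 1) := by
  have hloc : IsLocalHom (u : p'.A →+* p.A) := isLocalHom_of_finite u
  have hle : maximalIdeal p'.A ^ (j + 1) ≤ RingHom.ker (u : p'.A →+* p.A) := by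
    have h1 : Ideal.map (u : p'.A →+* p.A) (maximalIdeal p'.A ^ (j + 1)) ≤ ⊥ := by
      rw [Ideal.map_pow, ← hp]
      exact Ideal.pow_right_mono (IsLocalRing.map_maximalIdeal_le (u : p'.A →+* p.A)) _
    intro a ha
    have h2 := h1 (Ideal.mem_map_of_mem (u : p'.A →+* p.A) ha)
    rwa [Ideal.mem_bot] at h2
  refine le_antisymm ?_ hle
  obtain ⟨q, π, hq, hπs, hπk, hπr⟩ := p'.exists_trunc h𝒟 j
  -- `u` factors through `π`
  have hfac : ∀ a : p'.A, π a = 0 → u a = 0 := by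
    intro a ha
    have : a ∈ RingHom.ker (π : p'.A →+* q.A) := ha
    rw [hπk] at this
    exact hle this
  have hwd : ∀ a b : p'.A, π a = π b → u a = u b := by
    intro a b hab
    have := hfac (a - b) (by rw [map_sub, hab, sub_self])
    rw [map_sub, sub_eq_zero] at this
    exact this
  -- the induced map `q.A → p.A` as a function
  let v : q.A → p.A := fun x => u (Classical.choose (hπs x))
  have hv : ∀ a : p'.A, v (π a) = u a := fun a =>
    hwd _ _ (Classical.choose_spec (hπs (π a)))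
  have hvsurj : Function.Surjective v := by
    intro y
    obtain ⟨a, rfl⟩ := p.surjective_of_map u p'.r hu y
    exact ⟨π a, hv a⟩
  have hvbij : Function.Bijective v := hvsurj.bijective_of_nat_card_le (hmax q hq)
  intro a ha
  rw [← hπk]
  show π a = 0
  apply hvbij.1
  rw [hv a]
  have h0 : v 0 = 0 := by
    have := hv 0
    rw [map_zero, map_zero] at this
    exact this
  rw [h0]
  exact ha

end ProdPair

end Fermat.Agent.S53
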