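import Fermat.Agent.S53.Calc
import Fermat.Agent.S53.Norm
import Fermat.Agent.S53.GenBound

set_option autoImplicit false
set_option linter.unusedSectionVars false
set_option linter.style.haveILetI false

/-!
# S53: normalized pairs, the tangent bound, pairs of maximal cardinality.
-/

namespace Fermat.Agent.S53

open IsLocalRing

/-- A normalized pair: a finite local `𝒪`-algebra `A` with residue field `k`, generated by the
entries of a normalized lift `r` of type `𝒟`. -/
structure NPair (𝒪 : Type) [CommRing 𝒪] [IsLocalRing 𝒪]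
    (𝒟 : ∀ ⦃A : Type⦄ [CommRing A] [IsLocalRing A] [Algebra 𝒪 A], GaloisRepAdic A → Prop)
    {ρbar : ResidualGaloisRep (ResidueField 𝒪)} (N : NormData 𝒪 ρbar) : Type 1 where
  A : Type
  [instCommRing : CommRing A]
  [instIsLocalRing : IsLocalRing A]
  [instAlgebra : Algebra 𝒪 A]
  [instIsLocalHom : IsLocalHom (algebraMap 𝒪 A)]
  [instFinite : Finite A]
  res_surj : Function.Surjective (residue A ∘ algebraMap 𝒪 A)
  r : GQ →* M2 A
  norm : IsNorm N r
  type : DMat 𝒪 𝒟 r
  gen : Algebra.adjoin 𝒪 (entries r) = ⊤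

attribute [instance] NPair.instCommRing NPair.instIsLocalRing NPair.instAlgebra
  NPair.instIsLocalHom NPair.instFinite

section

variable {𝒪 : Type} [CommRing 𝒪] [IsLocalRing 𝒪]
variable {𝒟 : ∀ ⦃A : Type⦄ [CommRing A] [IsLocalRing A] [Algebra 𝒪 A], GaloisRepAdic A → Prop}
variable {ρbar : ResidualGaloisRep (ResidueField 𝒪)} {N : NormData 𝒪 ρbar}

/-- The level of a pair. -/
def NPair.Level (p : NPair 𝒪 𝒟 N) (j : ℕ) : Prop := maximalIdeal p.A ^ (j + 1) = ⊥

theorem NPair.test (p : NPair 𝒪 𝒟 N) : GaloisRep.IsArtinianTestAlgebra 𝒪 p.A :=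
  isArtinianTestAlgebra_of_finite p.res_surj

/-- Homomorphisms out of a pair are determined by the image of the lift. -/
theorem NPair.hom_ext (p : NPair 𝒪 𝒟 N) {B : Type} [CommRing B] [Algebra 𝒪 B]
    {φ ψ : p.A →ₐ[𝒪] B} (h : ∀ σ, (p.r σ).map φ = (p.r σ).map ψ) : φ = ψ := by
  apply AlgHom.ext_of_adjoin_eq_top p.gen
  rintro x ⟨σ, i, j, rfl⟩
  exact congrArg (fun M : M2 B => M i j) (h σ)

/-- A homomorphism from any algebra hitting the lift of a pair is surjective. -/
theorem NPair.surjective_of_map (p : NPair 𝒪 𝒟 N) {B : Type} [CommRing B] [Algebra 𝒪 B]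
    (f : B →ₐ[𝒪] p.A) (t : GQ → M2 B) (h : ∀ σ, (t σ).map f = p.r σ) :
    Function.Surjective f := by
  have : f.range = ⊤ := by
    rw [eq_top_iff, ← p.gen]
    apply Algebra.adjoin_le
    rintro x ⟨σ, i, j, rfl⟩
    exact ⟨t σ i j, congrArg (fun M : M2 p.A => M i j) (h σ)⟩
  intro x
  have hx : x ∈ f.range := this ▸ Algebra.mem_top
  exact hx

end

section Base

variable {𝒪 : Type} [CommRing 𝒪] [IsLocalRing 𝒪] [Finite (ResidueField 𝒪)]
variable {𝒟 : ∀ ⦃A : Type⦄ [CommRing A] [IsLocalRing A] [Algebra 𝒪 A], GaloisRepAdic A → Prop}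
variable {ρbar : ResidualGaloisRep (ResidueField 𝒪)} (N : NormData 𝒪 ρbar)

/-- The base pair `(k, rbar)`. -/
noncomputable def basePair (hbar : 𝒟 (GaloisRepAdic.ofResidualGaloisRep ρbar)) :
    NPair 𝒪 𝒟 N :=
  haveI := isLocalHom_algebraMap_residueField 𝒪
  { A := ResidueField 𝒪
    res_surj := res_surj_residueField 𝒪
    r := N.rbar
    norm := by
      refine ⟨fun σ => ?_, N.col, ?_⟩
      · ext i j
        simp only [Matrix.map_apply]
        exact (residueField_map_algebraMap_residueField 𝒪 _).symm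
      · exact N.c0_spec.symm
    type := ⟨GaloisRepAdic.ofResidualGaloisRep ρbar, N.isMatOfRes, hbar⟩
    gen := by
      rw [eq_top_iff]
      intro x _
      obtain ⟨c, rfl⟩ := residue_surjective x
      exact Subalgebra.algebraMap_mem _ c }

theorem basePair_level (hbar : 𝒟 (GaloisRepAdic.ofResidualGaloisRep ρbar)) (j : ℕ) :
    (basePair N hbar).Level j := by
  show maximalIdeal (ResidueField 𝒪) ^ (j + 1) = ⊥
  rw [maximalIdeal_residueField]
  exact Ideal.bot_pow (Nat.succ_ne_zero j) |>.trans rfl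

end Base

end Fermat.Agent.S53
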